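import Mathlib

/-!
Euler products over the ideals of a number field, and the sum `∑ N(𝔭)^{-s}` over prime ideals.
-/

set_option autoImplicit false
set_option maxSynthPendingDepth 3

open NumberField Module IsDedekindDomain Filter
open scoped nonZeroDivisors Topology

noncomputable section

namespace Fermat.Agent.Density

variable {K : Type*} [Field K] [NumberField K]

/-- A prime, as a nonzero ideal. -/
def toIdl (v : HeightOneSpectrum (𝓞 K)) : (Ideal (𝓞 K))⁰ :=
  ⟨v.asIdeal, mem_nonZeroDivisors_iff_ne_zero.2 v.ne_bot⟩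

@[simp] lemma coe_toIdl (v : HeightOneSpectrum (𝓞 K)) : (toIdl v : Ideal (𝓞 K)) = v.asIdeal := rfl

lemma toIdl_injective : Function.Injective (toIdl (K := K)) :=
  fun _ _ h => HeightOneSpectrum.ext (congrArg Subtype.val h)

/-- The ideals coprime to a finite set of primes. -/
def coprimeTo (S : Finset (HeightOneSpectrum (𝓞 K))) : Set (Ideal (𝓞 K))⁰ :=
  {I | ∀ v ∈ S, ¬ v.asIdeal ∣ (I : Ideal (𝓞 K))}

lemma one_mem_coprimeTo (S : Finset (HeightOneSpectrum (𝓞 K))) :
    (1 : (Ideal (𝓞 K))⁰) ∈ coprimeTo S := fun v _ h =>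
  v.isPrime.ne_top (Ideal.isUnit_iff.1 (isUnit_of_dvd_one (by simpa using h)))

/-- A finite Euler product. -/
lemma tsum_mul_eulerProd (g : (Ideal (𝓞 K))⁰ →* ℂ) (hg : Summable fun I => ‖g I‖)
    (S : Finset (HeightOneSpectrum (𝓞 K))) :
    (∑' I, g I) * ∏ v ∈ S, (1 - g (toIdl v)) = ∑' I, (coprimeTo S).indicator g I := by
  classical
  induction S using Finset.induction with
  | empty =>
    simp only [Finset.prod_empty, mul_one]
    refine tsum_congr fun I => (Set.indicator_of_mem ?_ _).symm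
    simp [coprimeTo]
  | @insert v S hv ih =>
    have hs : Summable fun I => (coprimeTo S).indicator g I := (hg.of_norm).indicator _
    have hs' : Summable fun I => (coprimeTo (insert v S)).indicator g I := (hg.of_norm).indicator _
    set T : Set (Ideal (𝓞 K))⁰ := coprimeTo S ∩ {I | v.asIdeal ∣ (I : Ideal (𝓞 K))} with hT
    have hsT : Summable fun I => T.indicator g I := (hg.of_norm).indicator _
    have hsplit : ∀ I, (coprimeTo S).indicator g I =
        (coprimeTo (insert v S)).indicator g I + T.indicator g I := by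
      intro I
      by_cases h1 : I ∈ coprimeTo S
      · by_cases h2 : v.asIdeal ∣ (I : Ideal (𝓞 K))
        · rw [Set.indicator_of_mem h1, Set.indicator_of_notMem, Set.indicator_of_mem (show I ∈ T from ⟨h1, h2⟩),
            zero_add]
          exact fun h => h v (Finset.mem_insert_self _ _) h2
        · rw [Set.indicator_of_mem h1, Set.indicator_of_mem, Set.indicator_of_notMem, add_zero]
          · exact fun h => h2 h.2
          · intro w hw
            rcases Finset.mem_insert.1 hw with rfl | hw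
            exacts [h2, h1 w hw]
      · rw [Set.indicator_of_notMem h1, Set.indicator_of_notMem, Set.indicator_of_notMem,
          add_zero]
        · exact fun h => h1 h.1
        · exact fun h => h1 fun w hw => h w (Finset.mem_insert_of_mem hw)
    have hinj : Function.Injective fun I : (Ideal (𝓞 K))⁰ => toIdl v * I := fun a b h => by
      exact Subtype.ext (mul_left_cancel₀ v.ne_bot (congrArg Subtype.val h))
    have hmem : ∀ I, toIdl v * I ∈ T ↔ I ∈ coprimeTo S := by
      intro I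
      refine ⟨fun h w hw hd => h.1 w hw (hd.mul_left _), fun h => ⟨fun w hw hd => ?_, ?_⟩⟩
      · rcases w.prime.dvd_or_dvd (show w.asIdeal ∣ v.asIdeal * (I : Ideal (𝓞 K)) from hd) with
          h1 | h1
        · have := (v.isPrime.isMaximal v.ne_bot).eq_of_le w.isPrime.ne_top (Ideal.le_of_dvd h1)
          exact hv (HeightOneSpectrum.ext this ▸ hw)
        · exact h w hw h1
      · exact dvd_mul_right _ _
    have hshift : ∑' I, T.indicator g I =
        g (toIdl v) * ∑' I, (coprimeTo S).indicator g I := by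
      rw [← hinj.tsum_eq (f := T.indicator g), ← tsum_mul_left]
      · refine tsum_congr fun I => ?_
        by_cases hI : I ∈ coprimeTo S
        · rw [Set.indicator_of_mem ((hmem I).2 hI), Set.indicator_of_mem hI, map_mul]
        · rw [Set.indicator_of_notMem (fun h => hI ((hmem I).1 h)), Set.indicator_of_notMem hI,
            mul_zero]
      · intro I hI
        obtain ⟨J, hJ⟩ := (Set.mem_of_indicator_ne_zero hI).2
        have hJ0 : J ∈ (Ideal (𝓞 K))⁰ := mem_nonZeroDivisors_iff_ne_zero.2 (by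
          rintro rfl
          exact mem_nonZeroDivisors_iff_ne_zero.1 I.2 (by rw [hJ, mul_zero]))
        exact ⟨⟨J, hJ0⟩, Subtype.ext hJ.symm⟩
    have hadd : ∑' I, (coprimeTo S).indicator g I =
        ∑' I, (coprimeTo (insert v S)).indicator g I + ∑' I, T.indicator g I := by
      rw [← hs'.tsum_add hsT]
      exact tsum_congr hsplit
    rw [Finset.prod_insert hv, mul_comm (1 - _), ← mul_assoc, ih]
    linear_combination hadd + hshift

/-- The Euler product formula, in the form `L(g) * ∏ (1 - g 𝔭) → 1`. -/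
theorem tendsto_eulerProd (g : (Ideal (𝓞 K))⁰ →* ℂ) (hg : Summable fun I => ‖g I‖) :
    Tendsto (fun S : Finset (HeightOneSpectrum (𝓞 K)) =>
      (∑' I, g I) * ∏ v ∈ S, (1 - g (toIdl v))) atTop (𝓝 1) := by
  classical
  simp only [tsum_mul_eulerProd g hg]
  have h1 : ∑' I, ({1} : Set (Ideal (𝓞 K))⁰).indicator g I = 1 := by
    rw [tsum_eq_single 1 (fun I hI => Set.indicator_of_notMem (by simpa using hI) _)]
    simp
  rw [← h1]
  refine tendsto_tsum_of_dominated_convergence (bound := fun I => ‖g I‖) hg (fun I => ?_)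
    (Eventually.of_forall fun S I => norm_indicator_le_norm_self _ _)
  by_cases hI : I = 1
  · subst hI
    simp [Set.indicator_of_mem (one_mem_coprimeTo _)]
  · obtain ⟨P, hP, hle⟩ := Ideal.exists_le_maximal (I : Ideal (𝓞 K))
      (fun h => hI (Subtype.ext (by simpa [Ideal.one_eq_top] using h)))
    have hP0 : P ≠ ⊥ := fun h => mem_nonZeroDivisors_iff_ne_zero.1 I.2 (le_bot_iff.1 (h ▸ hle))
    refine tendsto_const_nhds.congr' ?_
    filter_upwards [eventually_ge_atTop {(⟨P, hP.isPrime, hP0⟩ : HeightOneSpectrum (𝓞 K))}]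
      with S hS
    rw [Set.indicator_of_notMem (by simpa using hI), Set.indicator_of_notMem]
    exact fun h => h _ (Finset.singleton_subset_iff.1 hS) (Ideal.dvd_iff_le.2 hle)

/-- `N(I) ^ (-s)`. -/
def normPow (s : ℝ) : (Ideal (𝓞 K))⁰ →* ℝ where
  toFun I := (Ideal.absNorm (I : Ideal (𝓞 K)) : ℝ) ^ (-s)
  map_one' := by simp
  map_mul' I J := by
    simp [Real.mul_rpow (Nat.cast_nonneg _) (Nat.cast_nonneg _)]

lemma normPow_apply (s : ℝ) (I : (Ideal (𝓞 K))⁰) :
    normPow s I = (Ideal.absNorm (I : Ideal (𝓞 K)) : ℝ) ^ (-s) := rfl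

lemma normPow_pos (s : ℝ) (I : (Ideal (𝓞 K))⁰) : 0 < normPow s I :=
  Real.rpow_pos_of_pos (Nat.cast_pos.2 (Nat.pos_of_ne_zero
    (Ideal.absNorm_eq_zero_iff.not.2 (mem_nonZeroDivisors_iff_ne_zero.1 I.2)))) _

/-- The ideals of a given nonzero norm. -/
def fibreEquiv {n : ℕ} (hn : n ≠ 0) :
    {I : (Ideal (𝓞 K))⁰ // Ideal.absNorm (I : Ideal (𝓞 K)) = n} ≃
      {I : Ideal (𝓞 K) // Ideal.absNorm I = n} where
  toFun I := ⟨I.1, I.2⟩
  invFun I := ⟨⟨I.1, mem_nonZeroDivisors_iff_ne_zero.2 fun h => hn (by rw [← I.2, h]; simp)⟩, I.2⟩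
  left_inv _ := rfl
  right_inv _ := rfl

lemma finite_fibre (n : ℕ) :
    Finite {I : (Ideal (𝓞 K))⁰ // Ideal.absNorm (I : Ideal (𝓞 K)) = n} := by
  rcases eq_or_ne n 0 with rfl | hn
  · have : IsEmpty {I : (Ideal (𝓞 K))⁰ // Ideal.absNorm (I : Ideal (𝓞 K)) = 0} :=
      ⟨fun I => mem_nonZeroDivisors_iff_ne_zero.1 I.1.2 (Ideal.absNorm_eq_zero_iff.1 I.2)⟩
    infer_instance
  · have : Finite {I : Ideal (𝓞 K) // Ideal.absNorm I = n} :=
      (Ideal.finite_setOfPred_absNorm_eq n).to_subtype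
    exact Finite.of_equiv _ (fibreEquiv hn).symm

lemma tsum_fibre {s : ℝ} (hs : 0 < s) (n : ℕ) :
    (∑' I : {I : (Ideal (𝓞 K))⁰ // Ideal.absNorm (I : Ideal (𝓞 K)) = n}, normPow s I.1) =
      (Nat.card {I : Ideal (𝓞 K) // Ideal.absNorm I = n} : ℝ) * (n : ℝ) ^ (-s) := by
  rcases eq_or_ne n 0 with rfl | hn
  · have : IsEmpty {I : (Ideal (𝓞 K))⁰ // Ideal.absNorm (I : Ideal (𝓞 K)) = 0} :=
      ⟨fun I => mem_nonZeroDivisors_iff_ne_zero.1 I.1.2 (Ideal.absNorm_eq_zero_iff.1 I.2)⟩
    simp [Real.zero_rpow (neg_ne_zero.2 hs.ne')]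
  have := finite_fibre (K := K) n
  rw [tsum_congr fun I : {I : (Ideal (𝓞 K))⁰ // Ideal.absNorm (I : Ideal (𝓞 K)) = n} =>
    (show normPow s I.1 = (n : ℝ) ^ (-s) by rw [normPow_apply, I.2]), tsum_const, nsmul_eq_mul,
    Nat.card_congr (fibreEquiv hn)]

lemma summable_coeff {s : ℝ} (hs : 1 < s) :
    Summable fun n : ℕ =>
      (Nat.card {I : Ideal (𝓞 K) // Ideal.absNorm I = n} : ℝ) * (n : ℝ) ^ (-s) := by
  set f : ℕ → ℝ := fun n => (Nat.card {I : Ideal (𝓞 K) // Ideal.absNorm I = n} : ℝ) with hf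
  have hO : (fun n : ℕ => ∑ k ∈ Finset.Icc 1 n, f k) =O[atTop] fun n => (n : ℝ) ^ (1 : ℝ) := by
    refine Asymptotics.IsBigO.trans (g := fun n : ℕ =>
      (Nat.card {I : Ideal (𝓞 K) // Ideal.absNorm I ≤ n} : ℝ))
      (Asymptotics.IsBigO.of_bound 1 (Eventually.of_forall fun n => ?_)) ?_
    · rw [one_mul, Real.norm_of_nonneg (Finset.sum_nonneg fun k _ => Nat.cast_nonneg _),
        Real.norm_of_nonneg (Nat.cast_nonneg _)]
      simp only [hf, ← Nat.cast_sum, Nat.cast_le]
      refine (Finset.sum_le_sum_of_subset (f := fun k =>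
        Nat.card {I : Ideal (𝓞 K) // Ideal.absNorm I = k})
        (show Finset.Icc 1 n ⊆ Finset.Iic n from fun k hk =>
          Finset.mem_Iic.2 (Finset.mem_Icc.1 hk).2)).trans (le_of_eq ?_)
      have := Finset.card_preimage_eq_sum_card_image_eq
        (f := fun I : Ideal (𝓞 K) => Ideal.absNorm I) (s := Finset.Iic n)
        (fun k _ => Ideal.finite_setOfPred_absNorm_eq k)
      simpa [Set.coe_eq_subtype] using this.symm
    · have h' := ((Ideal.tendsto_norm_le_div_atTop K).comp
        tendsto_natCast_atTop_atTop).isBigO_one ℝ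
      have h'' := h'.mul (Asymptotics.isBigO_refl (fun n : ℕ => (n : ℝ)) atTop)
      refine h''.congr' ?_ ?_
      · filter_upwards [eventually_ne_atTop 0] with n hn
        simp only [Function.comp_apply, Nat.cast_le]
        field_simp
      · simp
  have h := LSeriesSummable_of_sum_norm_bigO_and_nonneg (f := f) hO (fun n => Nat.cast_nonneg _)
    zero_le_one (s := (s : ℂ)) (by simpa using hs)
  have h' := h.norm
  refine h'.congr fun n => ?_
  rcases eq_or_ne n 0 with rfl | hn
  · simp [Real.zero_rpow (by linarith : -s ≠ 0)]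
  · rw [LSeries.norm_term_eq, if_neg hn, Complex.norm_real, Real.norm_eq_abs,
      abs_of_nonneg (Nat.cast_nonneg _), Complex.ofReal_re, Real.rpow_neg (Nat.cast_nonneg n),
      div_eq_mul_inv]

theorem summable_normPow {s : ℝ} (hs : 1 < s) : Summable (normPow (K := K) s) := by
  rw [← (Equiv.sigmaFiberEquiv fun I : (Ideal (𝓞 K))⁰ =>
    Ideal.absNorm (I : Ideal (𝓞 K))).summable_iff]
  refine (summable_sigma_of_nonneg fun x => (normPow_pos s _).le).2
    ⟨fun n => ?_, (summable_coeff (K := K) hs).congr fun n => ?_⟩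
  · have := finite_fibre (K := K) n
    exact Summable.of_finite
  · exact (tsum_fibre (by linarith) n).symm

/-- The sum over all nonzero ideals. -/
def zetaSum (K : Type*) [Field K] [NumberField K] (s : ℝ) : ℝ := ∑' I, normPow (K := K) s I

lemma dedekindZeta_eq {s : ℝ} (hs : 1 < s) : dedekindZeta K (s : ℂ) = (zetaSum K s : ℂ) := by
  have h := (Equiv.sigmaFiberEquiv fun I : (Ideal (𝓞 K))⁰ =>
    Ideal.absNorm (I : Ideal (𝓞 K))).summable_iff.2 (summable_normPow (K := K) hs)
  rw [zetaSum, ← (Equiv.sigmaFiberEquiv fun I : (Ideal (𝓞 K))⁰ =>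
    Ideal.absNorm (I : Ideal (𝓞 K))).tsum_eq]
  rw [show (∑' c, normPow (K := K) s ((Equiv.sigmaFiberEquiv fun I : (Ideal (𝓞 K))⁰ =>
    Ideal.absNorm (I : Ideal (𝓞 K))) c)) = ∑' n, ∑' I : {I : (Ideal (𝓞 K))⁰ //
      Ideal.absNorm (I : Ideal (𝓞 K)) = n}, normPow s I.1 from h.tsum_sigma]
  rw [Complex.ofReal_tsum, dedekindZeta, LSeries]
  refine tsum_congr fun n => ?_
  rw [tsum_fibre (by linarith) n]
  rcases eq_or_ne n 0 with rfl | hn
  · simp [Real.zero_rpow (by linarith : -s ≠ 0)]
  rw [LSeries.term_of_ne_zero hn, Complex.ofReal_mul, Complex.ofReal_natCast,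
    Complex.ofReal_cpow (Nat.cast_nonneg _), Complex.ofReal_neg, Complex.cpow_neg,
    Complex.ofReal_natCast, div_eq_mul_inv]

/-- `ζ_K(s)` is squeezed between two multiples of `1 / (s - 1)` near `1`. -/
theorem exists_zeta_bounds : ∃ c C : ℝ, 0 < c ∧ ∀ᶠ s in 𝓝[>] (1 : ℝ),
    c / (s - 1) ≤ zetaSum K s ∧ zetaSum K s ≤ C / (s - 1) := by
  have hres := dedekindZeta_residue_pos K
  have h := Complex.continuous_re.continuousAt.tendsto.comp
    (tendsto_sub_one_mul_dedekindZeta_nhdsGT K)
  have h' : ∀ᶠ s : ℝ in 𝓝[>] (1 : ℝ), ((((s : ℂ) - 1) * dedekindZeta K (s : ℂ)).re) ∈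
      Set.Ioo (dedekindZeta_residue K / 2) (2 * dedekindZeta_residue K) :=
    h.eventually (Ioo_mem_nhds (by simp; linarith) (by simp; linarith))
  refine ⟨dedekindZeta_residue K / 2, 2 * dedekindZeta_residue K, by linarith, ?_⟩
  filter_upwards [h', self_mem_nhdsWithin] with s hs (hs1 : 1 < s)
  rw [dedekindZeta_eq hs1, ← Complex.ofReal_one, ← Complex.ofReal_sub,
    ← Complex.ofReal_mul, Complex.ofReal_re] at hs
  rw [div_le_iff₀ (by linarith), le_div_iff₀ (by linarith)]
  exact ⟨by linarith [hs.1], by linarith [hs.2]⟩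

/-- The sum over a set of primes. -/
def primeSum (S : Set (HeightOneSpectrum (𝓞 K))) (s : ℝ) : ℝ :=
  ∑' v, S.indicator (fun v => normPow s (toIdl v)) v

lemma summable_prime {s : ℝ} (hs : 1 < s) :
    Summable fun v : HeightOneSpectrum (𝓞 K) => normPow s (toIdl v) :=
  (summable_normPow hs).comp_injective toIdl_injective

lemma primeSum_nonneg (S : Set (HeightOneSpectrum (𝓞 K))) (s : ℝ) : 0 ≤ primeSum S s :=
  tsum_nonneg fun _ => Set.indicator_nonneg (fun _ _ => (normPow_pos s _).le) _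

lemma primeSum_mono {S T : Set (HeightOneSpectrum (𝓞 K))} (h : S ⊆ T) {s : ℝ} (hs : 1 < s) :
    primeSum S s ≤ primeSum T s :=
  Summable.tsum_le_tsum
    (fun _ => Set.indicator_le_indicator_of_subset h (fun v => (normPow_pos s (toIdl v)).le) _)
    ((summable_prime hs).indicator _) ((summable_prime hs).indicator _)

lemma primeSum_add_compl (S : Set (HeightOneSpectrum (𝓞 K))) {s : ℝ} (hs : 1 < s) :
    primeSum S s + primeSum Sᶜ s = primeSum (K := K) Set.univ s := by
  rw [primeSum, primeSum, primeSum,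
    ← ((summable_prime hs).indicator _).tsum_add ((summable_prime hs).indicator _)]
  refine tsum_congr fun v => ?_
  rw [Set.indicator_self_add_compl_apply, Set.indicator_univ]

lemma primeSum_le_card (S : Finset (HeightOneSpectrum (𝓞 K))) {s : ℝ} (hs : 1 < s) :
    primeSum (S : Set (HeightOneSpectrum (𝓞 K))) s ≤ S.card := by
  rw [primeSum, tsum_eq_sum (s := S) (fun v hv => Set.indicator_of_notMem hv _)]
  refine (Finset.sum_le_card_nsmul _ _ 1 fun v hv => ?_).trans (by simp)
  rw [Set.indicator_of_mem hv, normPow_apply]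
  refine Real.rpow_le_one_of_one_le_of_nonpos (Nat.one_le_cast.2 (Nat.pos_of_ne_zero ?_))
    (by linarith)
  exact Ideal.absNorm_eq_zero_iff.not.2 v.ne_bot

lemma normPow_toIdl_le_half (v : HeightOneSpectrum (𝓞 K)) {s : ℝ} (hs : 1 < s) :
    normPow s (toIdl v) ≤ 1 / 2 := by
  have h0 : Ideal.absNorm v.asIdeal ≠ 0 := Ideal.absNorm_eq_zero_iff.not.2 v.ne_bot
  have h1 : Ideal.absNorm v.asIdeal ≠ 1 := Ideal.absNorm_eq_one_iff.not.2 v.isPrime.ne_top
  have h2 : (2 : ℝ) ≤ (Ideal.absNorm v.asIdeal : ℝ) := by exact_mod_cast (by omega : 2 ≤ _)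
  rw [normPow_apply, coe_toIdl]
  calc (Ideal.absNorm v.asIdeal : ℝ) ^ (-s) ≤ (2 : ℝ) ^ (-s) :=
        Real.rpow_le_rpow_of_nonpos two_pos h2 (by linarith)
    _ ≤ (2 : ℝ) ^ (-1 : ℝ) := Real.rpow_le_rpow_of_exponent_le one_le_two (by linarith)
    _ = 1 / 2 := by norm_num

/-- `∑ N(𝔭)^{-2}`. -/
def sqConst (K : Type*) [Field K] [NumberField K] : ℝ :=
  ∑' v : HeightOneSpectrum (𝓞 K), normPow (K := K) 2 (toIdl v)

lemma sq_normPow_le (v : HeightOneSpectrum (𝓞 K)) {s : ℝ} (hs : 1 < s) :
    normPow s (toIdl v) ^ 2 ≤ normPow 2 (toIdl v) := by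
  have h0 : (1 : ℝ) ≤ (Ideal.absNorm v.asIdeal : ℝ) :=
    Nat.one_le_cast.2 (Nat.pos_of_ne_zero (Ideal.absNorm_eq_zero_iff.not.2 v.ne_bot))
  simp only [normPow_apply, coe_toIdl]
  rw [← Real.rpow_natCast, ← Real.rpow_mul (Nat.cast_nonneg _)]
  exact Real.rpow_le_rpow_of_exponent_le h0 (by push_cast; linarith)

lemma tendsto_zeta_eulerProd {s : ℝ} (hs : 1 < s) :
    Tendsto (fun S : Finset (HeightOneSpectrum (𝓞 K)) =>
      zetaSum K s * ∏ v ∈ S, (1 - normPow s (toIdl v))) atTop (𝓝 1) := by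
  have h := tendsto_eulerProd (Complex.ofRealHom.toMonoidHom.comp (normPow (K := K) s))
    ((summable_normPow hs).congr fun I => by simp [abs_of_pos (normPow_pos s I)])
  have h2 := (Complex.continuous_re.tendsto 1).comp h
  simp only [Complex.one_re] at h2
  refine h2.congr fun S => ?_
  simp [zetaSum, ← Complex.ofReal_tsum, ← Complex.ofReal_one, ← Complex.ofReal_sub,
    ← Complex.ofReal_prod, ← Complex.ofReal_mul]

/-- `log ζ` differs from the sum over all primes by a bounded amount. -/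
theorem primeSum_univ_bounds {s : ℝ} (hs : 1 < s) :
    primeSum (K := K) Set.univ s ≤ Real.log (zetaSum K s) ∧
      Real.log (zetaSum K s) ≤ primeSum (K := K) Set.univ s + 2 * sqConst K := by
  classical
  set x : HeightOneSpectrum (𝓞 K) → ℝ := fun v => normPow s (toIdl v) with hx
  have hsum : Summable x := summable_prime hs
  have hx0 : ∀ v, 0 ≤ x v := fun v => (normPow_pos s _).le
  have hx2 : ∀ v, x v ≤ 1 / 2 := fun v => normPow_toIdl_le_half v hs
  have hX : primeSum (K := K) Set.univ s = ∑' v, x v := by simp [primeSum, hx]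
  have hzsum := summable_normPow (K := K) hs
  have hz1 : 1 ≤ zetaSum K s := by
    have := hzsum.le_tsum 1 (fun I _ => (normPow_pos s I).le)
    rwa [map_one] at this
  have hz : 0 < zetaSum K s := by linarith
  have hlow : ∀ a : ℝ, 0 ≤ a → a ≤ 1 / 2 → Real.exp (-(a + 2 * a ^ 2)) ≤ 1 - a := by
    intro a ha ha2
    rw [Real.exp_neg, inv_le_iff_one_le_mul₀ (Real.exp_pos _)]
    nlinarith [Real.add_one_le_exp (a + 2 * a ^ 2), mul_nonneg ha ha,
      mul_nonneg (mul_nonneg ha ha) (by linarith : (0:ℝ) ≤ 1 - 2 * a)]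
  have hone : ∀ S : Finset (HeightOneSpectrum (𝓞 K)), 1 ≤ zetaSum K s * ∏ v ∈ S, (1 - x v) := by
    intro S
    have h := tsum_mul_eulerProd (Complex.ofRealHom.toMonoidHom.comp (normPow (K := K) s))
      (hzsum.congr fun I => by simp [abs_of_pos (normPow_pos s I)]) S
    have h' : zetaSum K s * ∏ v ∈ S, (1 - x v) =
        ∑' I, (coprimeTo S).indicator (normPow (K := K) s) I := by
      apply Complex.ofReal_injective
      rw [Complex.ofReal_tsum]
      push_cast
      rw [zetaSum, Complex.ofReal_tsum]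
      simp only [MonoidHom.coe_comp, Function.comp_apply, RingHom.toMonoidHom_eq_coe,
        MonoidHom.coe_coe, Complex.ofRealHom_eq_coe] at h
      rw [h]
      refine tsum_congr fun I => ?_
      by_cases hI : I ∈ coprimeTo S <;> simp [hI]
    rw [h']
    have := (hzsum.indicator (coprimeTo S)).le_tsum 1
      (fun I _ => Set.indicator_nonneg (fun _ _ => (normPow_pos s _).le) _)
    rwa [Set.indicator_of_mem (one_mem_coprimeTo S), map_one] at this
  constructor
  · rw [hX]
    refine hsum.tsum_le_of_sum_le fun S => ?_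
    rw [Real.le_log_iff_exp_le hz]
    have h1 := hone S
    have h2 : ∏ v ∈ S, (1 - x v) ≤ Real.exp (-∑ v ∈ S, x v) := by
      rw [← Finset.sum_neg_distrib, Real.exp_sum]
      exact Finset.prod_le_prod (fun v _ => by linarith [hx2 v])
        fun v _ => by linarith [Real.add_one_le_exp (-x v)]
    have h3 := h1.trans (mul_le_mul_of_nonneg_left h2 hz.le)
    rw [Real.exp_neg, ← div_eq_mul_inv, one_le_div (Real.exp_pos _)] at h3
    exact h3
  · rw [Real.log_le_iff_le_exp hz, hX]
    refine le_of_le_of_eq ?_ (mul_one _)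
    refine ge_of_tendsto' (((tendsto_zeta_eulerProd (K := K) hs)).const_mul
      (Real.exp ((∑' v, x v) + 2 * sqConst K))) (fun S => ?_)
    have h2 : Real.exp (-((∑' v, x v) + 2 * sqConst K)) ≤ ∏ v ∈ S, (1 - x v) := by
      calc Real.exp (-((∑' v, x v) + 2 * sqConst K))
          ≤ Real.exp (-∑ v ∈ S, (x v + 2 * x v ^ 2)) := by
            refine Real.exp_le_exp.2 (neg_le_neg ?_)
            rw [Finset.sum_add_distrib, ← Finset.mul_sum]
            refine add_le_add (hsum.sum_le_tsum S fun v _ => hx0 v)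
              (mul_le_mul_of_nonneg_left ?_ two_pos.le)
            refine le_trans (Finset.sum_le_sum fun v _ => sq_normPow_le v hs) ?_
            exact (summable_prime one_lt_two).sum_le_tsum S fun v _ => (normPow_pos 2 _).le
        _ ≤ _ := by
            rw [← Finset.sum_neg_distrib, Real.exp_sum]
            exact Finset.prod_le_prod (fun v _ => (Real.exp_pos _).le)
              fun v _ => hlow _ (hx0 v) (hx2 v)
    calc zetaSum K s = Real.exp ((∑' v, x v) + 2 * sqConst K) *
          (zetaSum K s * Real.exp (-((∑' v, x v) + 2 * sqConst K))) := by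
          rw [Real.exp_neg]; field_simp
      _ ≤ _ := mul_le_mul_of_nonneg_left (mul_le_mul_of_nonneg_left h2 hz.le) (Real.exp_pos _).le

/-- A prime of degree one. -/
def IsDegOne (v : HeightOneSpectrum (𝓞 K)) : Prop := (Ideal.absNorm v.asIdeal).Prime

/-- The rational prime below. -/
def resChar (v : HeightOneSpectrum (𝓞 K)) : ℕ := (Ideal.absNorm v.asIdeal).minFac

lemma exists_absNorm_eq (v : HeightOneSpectrum (𝓞 K)) :
    (resChar v).Prime ∧ (resChar v : 𝓞 K) ∈ v.asIdeal ∧
      ∃ f, 0 < f ∧ Ideal.absNorm v.asIdeal = resChar v ^ f := by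
  have : v.asIdeal.IsMaximal := v.isMaximal
  have h0 : Ideal.absNorm v.asIdeal ≠ 0 := Ideal.absNorm_eq_zero_iff.not.2 v.ne_bot
  have hP := Ideal.under ℤ v.asIdeal
  obtain ⟨ℓ, hℓ, hover⟩ : ∃ ℓ : ℕ, ℓ.Prime ∧ v.asIdeal.LiesOver (Ideal.span {(ℓ : ℤ)}) := by
    have h := Ideal.IsMaximal.under ℤ v.asIdeal
    obtain ⟨g, hg⟩ := IsPrincipalIdealRing.principal (v.asIdeal.under ℤ)
    rw [Ideal.submodule_span_eq] at hg
    have hg0 : g ≠ 0 := by
      rintro rfl
      rw [Ideal.span_singleton_zero] at hg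
      exact v.ne_bot (Ideal.eq_bot_of_comap_eq_bot hg)
    refine ⟨g.natAbs, ?_, ⟨?_⟩⟩
    · have := h.isPrime
      rw [hg, Ideal.span_singleton_prime hg0] at this
      exact Int.prime_iff_natAbs_prime.1 this
    · rw [Int.span_natAbs, ← hg]
  have hN := Ideal.absNorm_eq_pow_inertiaDeg' v.asIdeal hℓ
  set f := Ideal.inertiaDeg' (Ideal.span {(ℓ : ℤ)}) v.asIdeal
  have hf : 0 < f := by
    rcases Nat.eq_zero_or_pos f with h | h
    · rw [h, pow_zero] at hN
      exact absurd (Ideal.absNorm_eq_one_iff.1 hN) v.isPrime.ne_top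
    · exact h
  have hres : resChar v = ℓ := by rw [resChar, hN, Nat.Prime.pow_minFac hℓ hf.ne']
  refine ⟨hres ▸ hℓ, ?_, f, hf, hres ▸ hN⟩
  rw [hres]
  have : (ℓ : ℤ) ∈ v.asIdeal.under ℤ := by rw [← hover.over]; exact Ideal.mem_span_singleton_self _
  simpa [Ideal.under] using this

lemma card_le_finrank_of_resChar {ℓ : ℕ} (T : Finset (HeightOneSpectrum (𝓞 K)))
    (hT : ∀ v ∈ T, resChar v = ℓ) : T.card ≤ finrank ℚ K := by
  rcases T.eq_empty_or_nonempty with rfl | ⟨v₀, hv₀⟩
  · simp
  have hℓ : ℓ.Prime := hT v₀ hv₀ ▸ (exists_absNorm_eq v₀).1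
  have h1 : ∏ v ∈ T, v.asIdeal ∣ Ideal.span {(ℓ : 𝓞 K)} := by
    classical
    have h := Finset.prod_primes_dvd (s := T.image fun v => v.asIdeal)
      (Ideal.span {(ℓ : 𝓞 K)})
      (fun a ha => by obtain ⟨v, -, rfl⟩ := Finset.mem_image.1 ha; exact v.prime)
      (fun a ha => by
        obtain ⟨v, hv, rfl⟩ := Finset.mem_image.1 ha
        exact Ideal.dvd_iff_le.2 ((Ideal.span_singleton_le_iff_mem _).2
          (hT v hv ▸ (exists_absNorm_eq v).2.1)))
    rwa [Finset.prod_image fun v _ w _ h => HeightOneSpectrum.ext h] at h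
  have h2 := map_dvd Ideal.absNorm h1
  rw [map_prod, Ideal.absNorm_span_singleton, ← map_natCast (algebraMap ℤ (𝓞 K)),
    Algebra.norm_algebraMap, RingOfIntegers.rank, Int.natAbs_pow, Int.natAbs_natCast] at h2
  have h3 : ℓ ^ T.card ≤ ∏ v ∈ T, Ideal.absNorm v.asIdeal := by
    rw [← Finset.prod_const]
    refine Finset.prod_le_prod' fun v hv => ?_
    obtain ⟨-, -, f, hf, hN⟩ := exists_absNorm_eq v
    rw [hN, hT v hv]
    exact Nat.le_self_pow hf.ne' _
  exact (Nat.pow_le_pow_iff_right hℓ.one_lt).1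
    (h3.trans (Nat.le_of_dvd (pow_pos hℓ.pos _) h2))

/-- The primes of higher degree contribute a bounded amount. -/
theorem exists_bound_not_isDegOne : ∃ B : ℝ, ∀ s : ℝ, 1 < s →
    primeSum {v : HeightOneSpectrum (𝓞 K) | ¬ IsDegOne v} s ≤ B := by
  classical
  refine ⟨finrank ℚ K * ∑' n : ℕ, ((n : ℝ) ^ 2)⁻¹, fun s hs => ?_⟩
  refine ((summable_prime hs).indicator _).tsum_le_of_sum_le fun T => ?_
  have key : ∀ v ∈ T, ({v | ¬ IsDegOne v} : Set (HeightOneSpectrum (𝓞 K))).indicator
      (fun v => normPow s (toIdl v)) v ≤ ((resChar v : ℝ) ^ 2)⁻¹ := by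
    intro v _
    by_cases hv : IsDegOne v
    · rw [Set.indicator_of_notMem (by simpa using hv)]; positivity
    rw [Set.indicator_of_mem hv, normPow_apply, coe_toIdl]
    obtain ⟨hp, -, f, hf, hN⟩ := exists_absNorm_eq v
    have hf2 : 2 ≤ f := by
      rcases Nat.lt_or_ge f 2 with h | h
      · have : f = 1 := by omega
        exact absurd (show IsDegOne v by rw [IsDegOne, hN, this, pow_one]; exact hp) hv
      · exact h
    have h1 : (1 : ℝ) ≤ resChar v := Nat.one_le_cast.2 hp.one_lt.le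
    rw [hN, Nat.cast_pow, ← Real.rpow_natCast, ← Real.rpow_mul (by linarith),
      ← Real.rpow_natCast, ← Real.rpow_neg (by linarith)]
    refine Real.rpow_le_rpow_of_exponent_le h1 ?_
    have : (2 : ℝ) ≤ f := by exact_mod_cast hf2
    push_cast
    nlinarith
  refine (Finset.sum_le_sum key).trans ?_
  have hs2 : Summable fun n : ℕ => ((n : ℝ) ^ 2)⁻¹ := Real.summable_nat_pow_inv.2 one_lt_two
  rw [← Finset.sum_fiberwise_of_maps_to (g := resChar)
    (fun v hv => Finset.mem_image_of_mem resChar hv)]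
  refine le_trans (Finset.sum_le_sum (g := fun n : ℕ => (finrank ℚ K : ℝ) * ((n : ℝ) ^ 2)⁻¹)
    fun n _ => ?_) ?_
  · rw [Finset.sum_congr rfl (g := fun _ => ((n : ℝ) ^ 2)⁻¹) fun v hv => by
      rw [(Finset.mem_filter.1 hv).2], Finset.sum_const, nsmul_eq_mul]
    refine mul_le_mul_of_nonneg_right ?_ (by positivity)
    exact_mod_cast card_le_finrank_of_resChar _ fun v hv => (Finset.mem_filter.1 hv).2
  · rw [← Finset.mul_sum]
    exact mul_le_mul_of_nonneg_left (hs2.sum_le_tsum _ fun _ _ => by positivity) (by positivity)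

/-- The degree one primes outside a finite set carry `log (1/(s-1)) + O(1)`. -/
theorem exists_bound_degOne (bad : Finset ℕ) : ∃ B : ℝ, ∀ᶠ s in 𝓝[>] (1 : ℝ),
    |primeSum {v : HeightOneSpectrum (𝓞 K) | IsDegOne v ∧ resChar v ∉ bad} s -
      Real.log (1 / (s - 1))| ≤ B := by
  classical
  obtain ⟨c, C, hc, hz⟩ := exists_zeta_bounds (K := K)
  obtain ⟨B₂, hB₂⟩ := exists_bound_not_isDegOne (K := K)
  have hfin : {v : HeightOneSpectrum (𝓞 K) | resChar v ∈ bad}.Finite := by
    refine Set.Finite.subset (bad.finite_toSet.biUnion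
      (t := fun ℓ => {v : HeightOneSpectrum (𝓞 K) | resChar v = ℓ}) fun ℓ _ => ?_) fun v hv =>
      Set.mem_iUnion₂.2 ⟨resChar v, hv, rfl⟩
    by_contra h
    obtain ⟨T, hT, hcard⟩ := Set.Infinite.exists_subset_card_eq
      (show {v : HeightOneSpectrum (𝓞 K) | resChar v = ℓ}.Infinite from h) (finrank ℚ K + 1)
    have := card_le_finrank_of_resChar T fun v hv => hT hv
    omega
  refine ⟨|Real.log c| + |Real.log C| + B₂ + hfin.toFinset.card + 2 * sqConst K, ?_⟩
  filter_upwards [hz, self_mem_nhdsWithin] with s hs (hs1 : 1 < s)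
  set D : Set (HeightOneSpectrum (𝓞 K)) := {v | IsDegOne v ∧ resChar v ∉ bad}
  obtain ⟨h1, h2⟩ := primeSum_univ_bounds (K := K) hs1
  have h3 := primeSum_add_compl D hs1
  have h4 : primeSum Dᶜ s ≤ B₂ + hfin.toFinset.card := by
    have hd : Dᶜ ⊆ {v | ¬ IsDegOne v} ∪ (hfin.toFinset : Set (HeightOneSpectrum (𝓞 K))) := by
      intro v hv
      by_cases h : IsDegOne v
      · refine Or.inr ?_
        simp only [Set.Finite.coe_toFinset, Set.mem_ofPred_eq]
        by_contra h'
        exact hv ⟨h, h'⟩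
      · exact Or.inl h
    refine (primeSum_mono hd hs1).trans
      (le_trans ?_ (add_le_add (hB₂ s hs1) (primeSum_le_card hfin.toFinset hs1)))
    rw [primeSum, primeSum, primeSum,
      ← ((summable_prime hs1).indicator _).tsum_add ((summable_prime hs1).indicator _)]
    refine Summable.tsum_le_tsum (fun v => ?_) ((summable_prime hs1).indicator _)
      (((summable_prime hs1).indicator _).add ((summable_prime hs1).indicator _))
    by_cases ha : v ∈ {v : HeightOneSpectrum (𝓞 K) | ¬ IsDegOne v}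
    · rw [Set.indicator_of_mem (Set.mem_union_left _ ha), Set.indicator_of_mem ha]
      exact le_add_of_nonneg_right (Set.indicator_nonneg (fun _ _ => (normPow_pos s _).le) _)
    · by_cases hb : v ∈ (hfin.toFinset : Set (HeightOneSpectrum (𝓞 K)))
      · rw [Set.indicator_of_mem (Set.mem_union_right _ hb), Set.indicator_of_notMem ha,
          Set.indicator_of_mem hb, zero_add]
      · rw [Set.indicator_of_notMem (by simp only [Set.mem_union]; tauto),
          Set.indicator_of_notMem ha, Set.indicator_of_notMem hb, add_zero]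
  have hd : 0 < s - 1 := by linarith
  have hz0 : 0 < zetaSum K s := (div_pos hc hd).trans_le hs.1
  have hC : 0 < C := (div_pos_iff_of_pos_right hd).1 (hz0.trans_le hs.2)
  have hl1 : Real.log c + Real.log (1 / (s - 1)) ≤ Real.log (zetaSum K s) := by
    rw [← Real.log_mul hc.ne' (by positivity), mul_one_div]
    exact Real.log_le_log (div_pos hc hd) hs.1
  have hl2 : Real.log (zetaSum K s) ≤ Real.log C + Real.log (1 / (s - 1)) := by
    rw [← Real.log_mul hC.ne' (by positivity), mul_one_div]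
    exact Real.log_le_log hz0 hs.2
  have := primeSum_nonneg Dᶜ s
  rw [abs_le]
  constructor <;> linarith [le_abs_self (Real.log C), neg_abs_le (Real.log c),
    abs_nonneg (Real.log C), abs_nonneg (Real.log c)]

end Fermat.Agent.Density
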