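import Mathlib
import Fermat.Agent.Density.EulerSum

/-!
Frobenius's density theorem, in the form: for a Galois number field `L` and `g ∈ Gal(L/ℚ)`, there
are primes of `L` outside any given set of residue characteristics with decomposition group
generated by `g` (and trivial inertia).

Counting: the primes of degree one of the fixed field of a subgroup `H` correspond to the primes
of `L` with decomposition group inside `H`, each counted with weight `|D| / |H|`.
-/

set_option autoImplicit false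
set_option maxSynthPendingDepth 3

open NumberField Module IsDedekindDomain Filter
open scoped Topology Pointwise

noncomputable section

namespace Fermat.Agent.Density

section ResChar

variable {K : Type*} [Field K] [NumberField K]

lemma resChar_mem (v : HeightOneSpectrum (𝓞 K)) : (resChar v : 𝓞 K) ∈ v.asIdeal :=
  (exists_absNorm_eq v).2.1

lemma resChar_eq_of_mem (v : HeightOneSpectrum (𝓞 K)) {n : ℕ} (hn : n.Prime)
    (h : (n : 𝓞 K) ∈ v.asIdeal) : resChar v = n := by
  by_contra hne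
  obtain ⟨a, b, hab⟩ := Nat.isCoprime_iff_coprime.2
    ((Nat.coprime_primes (exists_absNorm_eq v).1 hn).2 hne)
  refine v.isPrime.ne_top (v.asIdeal.eq_top_iff_one.2 ?_)
  have : ((a * (resChar v : ℤ) + b * (n : ℤ) : ℤ) : 𝓞 K) ∈ v.asIdeal := by
    push_cast
    exact add_mem (Ideal.mul_mem_left _ _ (resChar_mem v)) (Ideal.mul_mem_left _ _ h)
  rwa [hab, Int.cast_one] at this

lemma isDegOne_iff (v : HeightOneSpectrum (𝓞 K)) :
    IsDegOne v ↔ Ideal.absNorm v.asIdeal = resChar v := by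
  obtain ⟨hp, -, f, hf, hN⟩ := exists_absNorm_eq v
  constructor
  · intro h
    rw [IsDegOne, hN] at h
    rw [hN, (Nat.Prime.eq_one_of_pow h), pow_one]
  · intro h; rw [IsDegOne, h]; exact hp

lemma isDegOne_of_forall_exists_int (v : HeightOneSpectrum (𝓞 K))
    (h : ∀ y : 𝓞 K, ∃ n : ℤ, y - n ∈ v.asIdeal) : IsDegOne v := by
  obtain ⟨hp, hmem, f, hf, hN⟩ := exists_absNorm_eq v
  have : NeZero (resChar v) := ⟨hp.ne_zero⟩
  have hsurj : Function.Surjective
      (fun a : ZMod (resChar v) => Ideal.Quotient.mk v.asIdeal ((a.val : ℕ) : 𝓞 K)) := by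
    intro q
    obtain ⟨y, rfl⟩ := Ideal.Quotient.mk_surjective q
    obtain ⟨n, hn⟩ := h y
    refine ⟨(n : ZMod (resChar v)), ?_⟩
    rw [Ideal.Quotient.mk_eq_mk_iff_sub_mem, ← Int.cast_natCast, ZMod.val_intCast]
    have e : ((n % (resChar v : ℤ) : ℤ) : 𝓞 K) - y =
        -(y - n) - ((n / (resChar v : ℤ) : ℤ) : 𝓞 K) * (resChar v : 𝓞 K) := by
      rw [Int.emod_def]; push_cast; ring
    rw [e]
    exact sub_mem (neg_mem hn) (Ideal.mul_mem_left _ _ hmem)
  have hle := Nat.card_le_card_of_surjective _ hsurj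
  rw [Nat.card_zmod, show Nat.card (𝓞 K ⧸ v.asIdeal) = Ideal.absNorm v.asIdeal from
    (Submodule.cardQuot_apply _).symm.trans (Ideal.absNorm_apply _).symm, hN] at hle
  rw [IsDegOne, hN, show f = 1 from ?_, pow_one]
  · exact hp
  · by_contra hf1
    have : resChar v ^ 1 < resChar v ^ f := Nat.pow_lt_pow_right hp.one_lt (by omega)
    rw [pow_one] at this
    omega

end ResChar

variable {L : Type*} [Field L] [NumberField L] [IsGalois ℚ L]

/-- No nontrivial automorphism is congruent to the identity modulo `v`. -/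
def IsGood (v : HeightOneSpectrum (𝓞 L)) : Prop :=
  ∀ σ : (L ≃ₐ[ℚ] L), (∀ x : 𝓞 L, σ • x - x ∈ v.asIdeal) → σ = 1

lemma exists_smul_ne {σ : (L ≃ₐ[ℚ] L)} (hσ : σ ≠ 1) : ∃ x : 𝓞 L, σ • x ≠ x := by
  by_contra h
  push Not at h
  refine hσ (AlgEquiv.ext fun z => ?_)
  obtain ⟨a, b, -, rfl⟩ := IsFractionRing.div_surjective (A := 𝓞 L) z
  have ha : σ (algebraMap (𝓞 L) L a) = algebraMap (𝓞 L) L a :=
    congrArg (algebraMap (𝓞 L) L) (h a)
  have hb : σ (algebraMap (𝓞 L) L b) = algebraMap (𝓞 L) L b :=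
    congrArg (algebraMap (𝓞 L) L) (h b)
  rw [map_div₀, ha, hb]
  rfl

lemma finite_not_isGood : {v : HeightOneSpectrum (𝓞 L) | ¬ IsGood v}.Finite := by
  classical
  choose x hx using fun σ : {σ : (L ≃ₐ[ℚ] L) // σ ≠ 1} => exists_smul_ne σ.2
  refine (Set.finite_iUnion fun σ : {σ : (L ≃ₐ[ℚ] L) // σ ≠ 1} =>
    Ideal.finite_factors (I := Ideal.span {σ.1 • x σ - x σ}) ?_).subset fun v hv => ?_
  · simpa [sub_eq_zero] using hx σ
  · simp only [IsGood, Set.mem_ofPred_eq, not_forall] at hv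
    obtain ⟨σ, hσ, hne⟩ := hv
    exact Set.mem_iUnion.2 ⟨⟨σ, hne⟩,
      Ideal.dvd_iff_le.2 ((Ideal.span_singleton_le_iff_mem _).2 (hσ _))⟩

/-- The decomposition group. -/
abbrev stab (v : HeightOneSpectrum (𝓞 L)) : Subgroup (L ≃ₐ[ℚ] L) := MulAction.stabilizer (L ≃ₐ[ℚ] L) v.asIdeal

lemma finite_quotient (v : HeightOneSpectrum (𝓞 L)) : Finite (𝓞 L ⧸ v.asIdeal) :=
  Ideal.finiteQuotientOfFreeOfNeBot v.asIdeal v.ne_bot

lemma card_quot_under_int (v : HeightOneSpectrum (𝓞 L)) :
    Nat.card (ℤ ⧸ v.asIdeal.under ℤ) = resChar v := by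
  have hp := (exists_absNorm_eq v).1
  have hmax : (Ideal.span {((resChar v : ℕ) : ℤ)}).IsMaximal :=
    PrincipalIdealRing.isMaximal_of_irreducible (Nat.prime_iff_prime_int.1 hp).irreducible
  have h : Ideal.span {((resChar v : ℕ) : ℤ)} = v.asIdeal.under ℤ := by
    have : v.asIdeal.IsPrime := v.isPrime
    refine hmax.eq_of_le (Ideal.IsPrime.under ℤ v.asIdeal).ne_top ?_
    rw [Ideal.span_singleton_le_iff_mem, Ideal.under, Ideal.mem_comap, eq_intCast, Int.cast_natCast]
    exact resChar_mem v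
  rw [← h, Nat.card_congr (Int.quotientSpanNatEquivZMod _).toEquiv, Nat.card_zmod]

lemma exists_frob (v : HeightOneSpectrum (𝓞 L)) :
    ∃ φ : (L ≃ₐ[ℚ] L), φ • v.asIdeal = v.asIdeal ∧ ∀ x : 𝓞 L, φ • x - x ^ resChar v ∈ v.asIdeal := by
  have := finite_quotient v
  have : v.asIdeal.IsPrime := v.isPrime
  obtain ⟨φ, hφ⟩ := IsArithFrobAt.exists_of_isInvariant ℤ (L ≃ₐ[ℚ] L) v.asIdeal
  refine ⟨φ, hφ.mem_stabilizer, fun x => ?_⟩
  have := hφ x
  rwa [card_quot_under_int] at this

lemma eq_of_congr {v : HeightOneSpectrum (𝓞 L)} (hv : IsGood v) {σ τ : (L ≃ₐ[ℚ] L)}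
    (hτ : τ • v.asIdeal = v.asIdeal) (h : ∀ x : 𝓞 L, σ • x - τ • x ∈ v.asIdeal) : σ = τ := by
  refine inv_mul_eq_one.1 (hv (τ⁻¹ * σ) fun x => ?_) |>.symm
  have h2 := Ideal.smul_mem_pointwise_smul τ⁻¹ _ _ (h x)
  rw [← eq_inv_smul_iff.2 hτ] at h2
  simpa [mul_smul, smul_sub] using h2

lemma exists_pow_of_mem_stab {v : HeightOneSpectrum (𝓞 L)} (hv : IsGood v) {φ τ : (L ≃ₐ[ℚ] L)}
    (hφ : φ • v.asIdeal = v.asIdeal) (hφ' : ∀ x : 𝓞 L, φ • x - x ^ resChar v ∈ v.asIdeal)
    (hτ : τ • v.asIdeal = v.asIdeal) : ∃ n : ℕ, τ = φ ^ n := by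
  obtain ⟨hp, hmem, -⟩ := exists_absNorm_eq v
  have := finite_quotient v
  have : Fact (resChar v).Prime := ⟨hp⟩
  have : v.asIdeal.IsMaximal := v.isMaximal
  let : Field (𝓞 L ⧸ v.asIdeal) := Ideal.Quotient.field _
  have hchar : CharP (𝓞 L ⧸ v.asIdeal) (resChar v) := by
    have h0 : ((resChar v : ℕ) : 𝓞 L ⧸ v.asIdeal) = 0 := by
      rw [← map_natCast (Ideal.Quotient.mk v.asIdeal), Ideal.Quotient.eq_zero_iff_mem]
      exact hmem
    exact (CharP.charP_iff_prime_eq_zero hp).2 h0
  let : Algebra (ZMod (resChar v)) (𝓞 L ⧸ v.asIdeal) := ZMod.algebra _ _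
  have hpres : ∀ σ : (L ≃ₐ[ℚ] L), σ • v.asIdeal = v.asIdeal → ∀ x, x ∈ v.asIdeal → σ • x ∈ v.asIdeal :=
    fun σ hσ x hx => hσ ▸ Ideal.smul_mem_pointwise_smul σ x _ hx
  let T : (𝓞 L ⧸ v.asIdeal) ≃ₐ[ZMod (resChar v)] (𝓞 L ⧸ v.asIdeal) :=
    AlgEquiv.ofBijective
      ({ Ideal.quotientMap v.asIdeal (MulSemiringAction.toRingHom (L ≃ₐ[ℚ] L) (𝓞 L) τ) (hpres τ hτ) with
          commutes' := fun r => by
            obtain ⟨n, rfl⟩ := ZMod.intCast_surjective r
            simp } : (𝓞 L ⧸ v.asIdeal) →ₐ[ZMod (resChar v)] (𝓞 L ⧸ v.asIdeal))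
      (Finite.injective_iff_bijective.1 (RingHom.injective
        (Ideal.quotientMap v.asIdeal (MulSemiringAction.toRingHom (L ≃ₐ[ℚ] L) (𝓞 L) τ) (hpres τ hτ))))
  obtain ⟨n, hn⟩ := (FiniteField.bijective_frobeniusAlgEquivOfAlgebraic_pow
    (ZMod (resChar v)) (𝓞 L ⧸ v.asIdeal)).2 T
  have hφn : φ ^ n.1 • v.asIdeal = v.asIdeal :=
    Subgroup.pow_mem (MulAction.stabilizer (L ≃ₐ[ℚ] L) v.asIdeal) hφ _
  refine ⟨n.1, eq_of_congr hv hφn fun x => ?_⟩
  have h1 : Ideal.Quotient.mk v.asIdeal (τ • x) =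
      (Ideal.Quotient.mk v.asIdeal x) ^ (resChar v ^ n.1) := by
    have := DFunLike.congr_fun hn (Ideal.Quotient.mk v.asIdeal x)
    simp only [AlgEquiv.coe_pow, FiniteField.coe_frobeniusAlgEquivOfAlgebraic_iterate,
      ZMod.card] at this
    exact this.symm
  have h2 : ∀ m : ℕ, Ideal.Quotient.mk v.asIdeal (φ ^ m • x) =
      (Ideal.Quotient.mk v.asIdeal x) ^ (resChar v ^ m) := by
    intro m
    induction m with
    | zero => simp
    | succ m ih =>
      rw [pow_succ', mul_smul, Ideal.Quotient.eq.2 (hφ' _), map_pow, ih, ← pow_mul, ← pow_succ]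
  exact Ideal.Quotient.eq.1 (h1.trans (h2 n.1).symm)

/-- In a finite field of characteristic `p`, `y ^ p = y` forces `y` into the prime field. -/
lemma exists_int_of_pow_eq {k : Type*} [Field k] {p : ℕ} [Fact p.Prime] [CharP k p] {y : k}
    (hy : y ^ p = y) : ∃ n : ℤ, y = (n : k) := by
  classical
  by_contra h
  push Not at h
  have hp1 := (Fact.out : p.Prime).one_lt
  set P : Polynomial k := Polynomial.X ^ p - Polynomial.X
  have hP : P ≠ 0 := FiniteField.X_pow_card_sub_X_ne_zero k hp1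
  have hdeg : P.natDegree = p := FiniteField.X_pow_card_sub_X_natDegree_eq k hp1
  let ι : ZMod p →+* k := ZMod.castHom dvd_rfl k
  have hsub : insert y (Finset.univ.image ι) ⊆ P.roots.toFinset := by
    intro z hz
    rw [Multiset.mem_toFinset, Polynomial.mem_roots hP]
    rcases Finset.mem_insert.1 hz with rfl | hz
    · simp [P, hy]
    · obtain ⟨a, -, rfl⟩ := Finset.mem_image.1 hz
      simp [P, ← map_pow, ZMod.pow_card]
  have hnot : y ∉ Finset.univ.image ι := by
    simp only [Finset.mem_image, Finset.mem_univ, true_and, not_exists]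
    intro a ha
    obtain ⟨n, rfl⟩ := ZMod.intCast_surjective a
    exact h n (by simpa using ha.symm)
  have := (Finset.card_le_card hsub).trans
    ((Multiset.toFinset_card_le _).trans (Polynomial.card_roots' P))
  rw [Finset.card_insert_of_notMem hnot, Finset.card_image_of_injective _ ι.injective,
    Finset.card_univ, ZMod.card, hdeg] at this
  omega

variable (H : Subgroup (L ≃ₐ[ℚ] L))

/-- The fixed field. -/
abbrev fixF : IntermediateField ℚ L := IntermediateField.fixedField H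

lemma smul_algebraMap_fixed {σ : (L ≃ₐ[ℚ] L)} (hσ : σ ∈ H) (y : 𝓞 (fixF H)) :
    σ • algebraMap (𝓞 (fixF H)) (𝓞 L) y = algebraMap (𝓞 (fixF H)) (𝓞 L) y :=
  RingOfIntegers.ext (((y : (fixF H))).2 ⟨σ, hσ⟩)

instance smulCommClass_fixed : SMulCommClass H (𝓞 (fixF H)) (𝓞 L) :=
  ⟨fun σ y x => by
    rw [Algebra.smul_def, Algebra.smul_def, smul_mul', show σ • algebraMap (𝓞 (fixF H)) (𝓞 L) y =
      algebraMap (𝓞 (fixF H)) (𝓞 L) y from smul_algebraMap_fixed H σ.2 y]⟩

instance isInvariant_fixed : Algebra.IsInvariant (𝓞 (fixF H)) (𝓞 L) H := by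
  constructor
  intro b hb
  have hm : (b : L) ∈ (fixF H) := fun σ => congrArg (algebraMap (𝓞 L) L) (hb σ)
  have hi : _root_.IsIntegral ℤ (⟨(b : L), hm⟩ : (fixF H)) :=
    (isIntegral_algebraMap_iff (algebraMap (fixF H) L).injective).1 b.2
  exact ⟨⟨⟨(b : L), hm⟩, hi⟩, RingOfIntegers.ext rfl⟩

/-- The prime below in the fixed field. -/
def below (v : HeightOneSpectrum (𝓞 L)) : HeightOneSpectrum (𝓞 (fixF H)) where
  asIdeal := v.asIdeal.under (𝓞 (fixF H))
  isPrime := have := v.isPrime; Ideal.IsPrime.under _ _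
  ne_bot := fun h => v.ne_bot (Ideal.eq_bot_of_comap_eq_bot h)

lemma resChar_below (v : HeightOneSpectrum (𝓞 L)) : resChar (below H v) = resChar v := by
  refine resChar_eq_of_mem _ (exists_absNorm_eq v).1 ?_
  show (resChar v : 𝓞 (fixF H)) ∈ v.asIdeal.under (𝓞 (fixF H))
  rw [Ideal.under, Ideal.mem_comap, map_natCast]
  exact resChar_mem v

lemma stab_le_iff {v : HeightOneSpectrum (𝓞 L)} (hv : IsGood v) :
    stab v ≤ H ↔ IsDegOne (below H v) := by
  obtain ⟨φ, hφ, hφ'⟩ := exists_frob v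
  obtain ⟨hp, hmem, -⟩ := exists_absNorm_eq v
  have : v.asIdeal.IsMaximal := v.isMaximal
  constructor
  · intro hle
    refine isDegOne_of_forall_exists_int _ fun y => ?_
    have : Fact (resChar v).Prime := ⟨hp⟩
    let : Field (𝓞 L ⧸ v.asIdeal) := Ideal.Quotient.field _
    have hchar : CharP (𝓞 L ⧸ v.asIdeal) (resChar v) := by
      refine (CharP.charP_iff_prime_eq_zero hp).2 ?_
      rw [← map_natCast (Ideal.Quotient.mk v.asIdeal), Ideal.Quotient.eq_zero_iff_mem]
      exact hmem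
    have hy : (Ideal.Quotient.mk v.asIdeal (algebraMap (𝓞 (fixF H)) (𝓞 L) y)) ^ resChar v =
        Ideal.Quotient.mk v.asIdeal (algebraMap (𝓞 (fixF H)) (𝓞 L) y) := by
      have h1 := hφ' (algebraMap (𝓞 (fixF H)) (𝓞 L) y)
      rw [smul_algebraMap_fixed H (hle hφ) y] at h1
      rw [← map_pow]
      exact (Ideal.Quotient.eq.2 h1).symm
    obtain ⟨n, hn⟩ := exists_int_of_pow_eq hy
    refine ⟨n, ?_⟩
    show algebraMap (𝓞 (fixF H)) (𝓞 L) (y - n) ∈ v.asIdeal
    rw [map_sub, map_intCast, ← Ideal.Quotient.eq, map_intCast]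
    exact hn
  · intro hdeg τ hτ
    have := finite_quotient v
    obtain ⟨φ', hφ''⟩ := IsArithFrobAt.exists_of_isInvariant (𝓞 (fixF H)) H v.asIdeal
    have hcard : Nat.card (𝓞 (fixF H) ⧸ v.asIdeal.under (𝓞 (fixF H))) = resChar v := by
      rw [← resChar_below H v, ← (isDegOne_iff _).1 hdeg, Ideal.absNorm_apply,
        Submodule.cardQuot_apply]
      rfl
    have hφ'v : (φ' : (L ≃ₐ[ℚ] L)) • v.asIdeal = v.asIdeal := hφ''.mem_stabilizer
    have heq : φ = (φ' : (L ≃ₐ[ℚ] L)) := eq_of_congr hv hφ'v fun x => by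
      have h1 := hφ'' x
      rw [hcard] at h1
      have h2 := sub_mem (hφ' x) h1
      simpa [Subgroup.smul_def] using h2
    obtain ⟨n, rfl⟩ := exists_pow_of_mem_stab hv hφ hφ' hτ
    exact pow_mem (heq ▸ φ'.2) n

lemma exists_above (w : HeightOneSpectrum (𝓞 (fixF H))) :
    ∃ v : HeightOneSpectrum (𝓞 L), below H v = w := by
  have : w.asIdeal.IsPrime := w.isPrime
  have := Algebra.IsInvariant.isIntegral (𝓞 (fixF H)) (𝓞 L) H
  obtain ⟨Q, -, hQ, hQc⟩ := Ideal.exists_ideal_over_prime_of_isIntegral w.asIdeal (⊥ : Ideal (𝓞 L))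
    (by rw [← RingHom.ker_eq_comap_bot, (RingHom.injective_iff_ker_eq_bot _).1
          (FaithfulSMul.algebraMap_injective (𝓞 (fixF H)) (𝓞 L))]; exact bot_le)
  refine ⟨⟨Q, hQ, fun h => w.ne_bot ?_⟩, HeightOneSpectrum.ext hQc⟩
  rw [← hQc, h, ← RingHom.ker_eq_comap_bot]
  exact (RingHom.injective_iff_ker_eq_bot _).1 (FaithfulSMul.algebraMap_injective (𝓞 (fixF H)) (𝓞 L))

lemma fibre_eq (w : HeightOneSpectrum (𝓞 (fixF H))) :
    ∃ v₀ : HeightOneSpectrum (𝓞 L), below H v₀ = w ∧
      ∀ v, below H v = w → MulAction.orbit H v.asIdeal =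
        HeightOneSpectrum.asIdeal '' {v' | below H v' = w} := by
  obtain ⟨v₀, hv₀⟩ := exists_above H w
  refine ⟨v₀, hv₀, fun v hv => ?_⟩
  have : v.asIdeal.IsPrime := v.isPrime
  apply Set.Subset.antisymm
  · rintro _ ⟨h, rfl⟩
    have hne : (h • v.asIdeal) ≠ ⊥ := fun he => v.ne_bot (by
      refine le_bot_iff.1 fun x hx => ?_
      have h1 := Ideal.smul_mem_pointwise_smul h x _ hx
      replace h1 : h • x = 0 := Ideal.mem_bot.1 (he.le h1)
      rw [Ideal.mem_bot, ← inv_smul_smul h x, h1, smul_zero])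
    refine ⟨⟨h • v.asIdeal, inferInstance, hne⟩, ?_, rfl⟩
    refine HeightOneSpectrum.ext ?_
    rw [← hv]
    exact v.asIdeal.under_smul (𝓞 (fixF H)) h
  · rintro _ ⟨v', hv', rfl⟩
    have : v'.asIdeal.IsPrime := v'.isPrime
    obtain ⟨h, hh⟩ := Algebra.IsInvariant.exists_smul_of_under_eq (𝓞 (fixF H)) (𝓞 L) H v.asIdeal
      v'.asIdeal (congrArg HeightOneSpectrum.asIdeal (hv.trans (Eq.symm hv') : below H v = below H v'))
    exact ⟨h, hh.symm⟩

/-- The weight of a prime: `|D_v| ℓ^{-s}`, for primes outside `bad` with trivial inertia. -/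
def weight' (s : ℝ) (v : HeightOneSpectrum (𝓞 L)) : ℝ :=
  (Nat.card (stab v) : ℝ) * (resChar v : ℝ) ^ (-s)

lemma weight'_nonneg (s : ℝ) (v : HeightOneSpectrum (𝓞 L)) : 0 ≤ weight' s v :=
  mul_nonneg (Nat.cast_nonneg _) (Real.rpow_nonneg (Nat.cast_nonneg _) _)

/-- The residue characteristics to be avoided. -/
def allBad (L : Type*) [Field L] [NumberField L] [IsGalois ℚ L] (bad : Finset ℕ) : Finset ℕ :=
  bad ∪ (finite_not_isGood (L := L)).toFinset.image resChar

lemma isGood_of_notMem {bad : Finset ℕ} {v : HeightOneSpectrum (𝓞 L)}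
    (h : resChar v ∉ allBad L bad) : IsGood v := by
  by_contra hv
  exact h (Finset.mem_union_right _ (Finset.mem_image_of_mem _ (by simpa using hv)))

/-- The primes with decomposition group inside `H`. -/
def primesIn (bad : Finset ℕ) : Set (HeightOneSpectrum (𝓞 L)) :=
  {v | resChar v ∉ allBad L bad ∧ stab v ≤ H}

/-- The primes with decomposition group inside `H` and residue characteristic in `R`, counted
through the fixed field. -/
lemma tsum_primesIn (bad : Finset ℕ) (R : Set ℕ) {s : ℝ} (hs1 : 1 < s) :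
    Summable ((primesIn H bad ∩ {v | resChar v ∈ R}).indicator (weight' s)) ∧
    ∑' v, (primesIn H bad ∩ {v | resChar v ∈ R}).indicator (weight' s) v =
      (Nat.card H : ℝ) * primeSum {w : HeightOneSpectrum (𝓞 (fixF H)) |
        IsDegOne w ∧ resChar w ∉ allBad L bad ∧ resChar w ∈ R} s := by
  classical
  set bad' := allBad L bad
  set D : Set (HeightOneSpectrum (𝓞 (fixF H))) :=
    {w | IsDegOne w ∧ resChar w ∉ bad' ∧ resChar w ∈ R}
  set f := (primesIn H bad ∩ {v | resChar v ∈ R}).indicator (weight' (L := L) s)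
  have hfin : ∀ w, {v : HeightOneSpectrum (𝓞 L) | below H v = w}.Finite := by
    intro w
    obtain ⟨v₀, hv₀, horb⟩ := fibre_eq H w
    have h := Set.finite_range fun h : H => h • v₀.asIdeal
    exact Set.Finite.of_finite_image
      (show (HeightOneSpectrum.asIdeal '' {v' | below H v' = w}).Finite by
        rw [← horb v₀ hv₀]; exact h)
      fun a _ b _ hab => HeightOneSpectrum.ext hab
  have hfib : ∀ w, ∑' v : {v : HeightOneSpectrum (𝓞 L) // below H v = w}, f v =
      (Nat.card H : ℝ) * D.indicator (fun w => normPow s (toIdl w)) w := by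
    intro w
    have : Finite {v : HeightOneSpectrum (𝓞 L) // below H v = w} := (hfin w).to_subtype
    have := Fintype.ofFinite {v : HeightOneSpectrum (𝓞 L) // below H v = w}
    rw [tsum_fintype]
    by_cases hw : w ∈ D
    · obtain ⟨hw1, hw2, hw3⟩ := hw
      have hmem : ∀ v : {v : HeightOneSpectrum (𝓞 L) // below H v = w},
          v.1 ∈ primesIn H bad ∩ {v | resChar v ∈ R} := by
        intro v
        have hr : resChar v.1 ∉ bad' := by rw [← resChar_below H v.1, v.2]; exact hw2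
        exact ⟨⟨hr, (stab_le_iff H (isGood_of_notMem hr)).2 (by rw [v.2]; exact hw1)⟩,
          show resChar v.1 ∈ R by rw [← resChar_below H v.1, v.2]; exact hw3⟩
      have hval : ∀ v : {v : HeightOneSpectrum (𝓞 L) // below H v = w}, f v =
          (Nat.card (stab v.1) : ℝ) * normPow s (toIdl w) := by
        intro v
        simp only [f, Set.indicator_of_mem (hmem v), weight', normPow_apply, coe_toIdl,
          (isDegOne_iff w).1 hw1, ← resChar_below H v.1, v.2]
      simp only [hval, ← Finset.sum_mul]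
      rw [Set.indicator_of_mem (show w ∈ D from ⟨hw1, hw2, hw3⟩)]
      congr 1
      have hstab : ∀ v : {v : HeightOneSpectrum (𝓞 L) // below H v = w},
          Nat.card {v : HeightOneSpectrum (𝓞 L) // below H v = w} * Nat.card (stab v.1) =
            Nat.card H := by
        intro v
        obtain ⟨-, -, horb⟩ := fibre_eq H w
        have e1 : Nat.card {v : HeightOneSpectrum (𝓞 L) // below H v = w} =
            Nat.card (MulAction.orbit H v.1.asIdeal) := by
          rw [horb v.1 v.2]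
          exact (Nat.card_image_of_injective
            (fun _ _ hab => HeightOneSpectrum.ext hab) {v' | below H v' = w}).symm
        have e2 : Nat.card (stab v.1) = Nat.card (MulAction.stabilizer H v.1.asIdeal) := by
          have he : MulAction.stabilizer H v.1.asIdeal = (stab v.1).subgroupOf H := by
            ext h; simp [Subgroup.mem_subgroupOf, Subgroup.smul_def]
          rw [he, Nat.card_congr (Subgroup.subgroupOfEquivOfLe (hmem v).1.2).toEquiv]
        rw [e1, e2, ← Nat.card_prod]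
        exact Nat.card_congr (MulAction.orbitProdStabilizerEquivGroup H v.1.asIdeal)
      obtain ⟨v₁, hv₁⟩ := exists_above H w
      have hc0 : (0 : ℕ) < Nat.card {v : HeightOneSpectrum (𝓞 L) // below H v = w} :=
        @Nat.card_pos _ ⟨⟨v₁, hv₁⟩⟩ _
      have hconst : ∀ v : {v : HeightOneSpectrum (𝓞 L) // below H v = w},
          (Nat.card (stab v.1) : ℝ) =
            (Nat.card H : ℝ) / Nat.card {v : HeightOneSpectrum (𝓞 L) // below H v = w} := by
        intro v
        rw [eq_div_iff (Nat.cast_ne_zero.2 hc0.ne'), mul_comm]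
        exact_mod_cast hstab v
      simp only [hconst, Finset.sum_const, Finset.card_univ, nsmul_eq_mul,
        ← Nat.card_eq_fintype_card]
      field_simp
    · rw [Set.indicator_of_notMem hw, mul_zero]
      refine Finset.sum_eq_zero fun v _ => Set.indicator_of_notMem (fun hv => hw ?_) _
      have h := (stab_le_iff H (isGood_of_notMem hv.1.1)).1 hv.1.2
      rw [v.2] at h
      exact ⟨h, by rw [← v.2, resChar_below]; exact hv.1.1,
        by rw [← v.2, resChar_below]; exact hv.2⟩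
  have hsum : Summable f := by
    rw [← (Equiv.sigmaFiberEquiv (below H)).summable_iff]
    refine (summable_sigma_of_nonneg fun x => Set.indicator_nonneg
      (fun _ _ => weight'_nonneg _ _) _).2 ⟨fun w => ?_, ?_⟩
    · have : Finite {v : HeightOneSpectrum (𝓞 L) // below H v = w} := (hfin w).to_subtype
      exact Summable.of_finite
    · refine (((summable_prime hs1).indicator D).mul_left (Nat.card H : ℝ)).congr fun w => ?_
      exact (hfib w).symm
  refine ⟨hsum, ?_⟩
  have htot : ∑' v, f v = (Nat.card H : ℝ) * primeSum D s := by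
    rw [← (Equiv.sigmaFiberEquiv (below H)).tsum_eq,
      show (∑' c, f ((Equiv.sigmaFiberEquiv (below H)) c)) =
        ∑' w, ∑' v : {v : HeightOneSpectrum (𝓞 L) // below H v = w}, f v from
      ((Equiv.sigmaFiberEquiv (below H)).summable_iff.2 hsum).tsum_sigma]
    simp only [hfib, tsum_mul_left]
    rfl
  exact htot

lemma exists_count (bad : Finset ℕ) : ∃ B : ℝ, ∀ᶠ s in 𝓝[>] (1 : ℝ),
    Summable ((primesIn H bad).indicator (weight' s)) ∧
    |∑' v, (primesIn H bad).indicator (weight' s) v -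
      (Nat.card H : ℝ) * Real.log (1 / (s - 1))| ≤ B := by
  obtain ⟨B, hB⟩ := exists_bound_degOne (K := (fixF H)) (allBad L bad)
  refine ⟨Nat.card H * B, ?_⟩
  filter_upwards [hB, self_mem_nhdsWithin] with s hs (hs1 : 1 < s)
  have h := tsum_primesIn H bad Set.univ hs1
  have he : primesIn H bad ∩ {v : HeightOneSpectrum (𝓞 L) | resChar v ∈ (Set.univ : Set ℕ)} =
      primesIn H bad := Set.inter_eq_left.2 fun v _ => Set.mem_univ (resChar v)
  rw [he] at h
  simp only [Set.mem_univ, and_true] at h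
  refine ⟨h.1, ?_⟩
  rw [h.2, ← mul_sub, abs_mul, Nat.abs_cast]
  exact mul_le_mul_of_nonneg_left hs (Nat.cast_nonneg _)

/-- The primes with decomposition group equal to `H`. -/
def primesEq (bad : Finset ℕ) : Set (HeightOneSpectrum (𝓞 L)) :=
  {v | resChar v ∉ allBad L bad ∧ stab v = H}

/-- The number of generators. -/
def numGen : ℕ := Nat.card {x : (L ≃ₐ[ℚ] L) // Subgroup.zpowers x = H}

lemma exists_count_eq (bad : Finset ℕ) : ∃ B : ℝ, ∀ᶠ s in 𝓝[>] (1 : ℝ),
    |∑' v, (primesEq H bad).indicator (weight' s) v -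
      (numGen H : ℝ) * Real.log (1 / (s - 1))| ≤ B := by
  classical
  induction H using WellFoundedLT.induction with
  | _ H ih =>
  choose! B hB using ih
  obtain ⟨B₁, hB₁⟩ := exists_count H bad
  set S : Finset (Subgroup (L ≃ₐ[ℚ] L)) := Finset.univ.filter fun D => D < H
  refine ⟨B₁ + ∑ D ∈ S, B D, ?_⟩
  have hS : ∀ᶠ s in 𝓝[>] (1 : ℝ), ∀ D ∈ S,
      |∑' v, (primesEq D bad).indicator (weight' s) v -
        (numGen D : ℝ) * Real.log (1 / (s - 1))| ≤ B D :=
    (eventually_all_finset S).2 fun D hD => hB D (Finset.mem_filter.1 hD).2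
  filter_upwards [hB₁, hS] with s ⟨hsum, h1⟩ h2
  set T : Finset (Subgroup (L ≃ₐ[ℚ] L)) := Finset.univ.filter fun D => D ≤ H
  have hT : T = insert H S := by
    ext D
    simp only [T, S, Finset.mem_filter, Finset.mem_univ, true_and, Finset.mem_insert]
    exact le_iff_eq_or_lt
  have hHS : H ∉ S := by simp [S]
  have hsummand : ∀ D ∈ T, Summable ((primesEq D bad).indicator (weight' (L := L) s)) := by
    intro D hD
    refine Summable.of_nonneg_of_le (fun v => Set.indicator_nonneg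
      (fun _ _ => weight'_nonneg _ _) _) (fun v => Set.indicator_le_indicator_of_subset
        (show primesEq D bad ⊆ primesIn H bad from fun u hu =>
          ⟨hu.1, hu.2.le.trans (Finset.mem_filter.1 hD).2⟩)
        (fun _ => weight'_nonneg _ _) v) hsum
  have hpart : ∀ v, (primesIn H bad).indicator (weight' s) v =
      ∑ D ∈ T, (primesEq D bad).indicator (weight' s) v := by
    intro v
    by_cases hv : v ∈ primesIn H bad
    · rw [Finset.sum_eq_single (stab v) (fun D _ hD => Set.indicator_of_notMem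
        (fun h => hD h.2.symm) _) (fun h => absurd (show stab v ∈ T from Finset.mem_filter.2 ⟨Finset.mem_univ (stab v), hv.2⟩) h),
        Set.indicator_of_mem hv, Set.indicator_of_mem (show v ∈ primesEq (stab v) bad from ⟨hv.1, rfl⟩)]
    · rw [Set.indicator_of_notMem hv]
      refine (Finset.sum_eq_zero fun D hD => Set.indicator_of_notMem (fun h => hv ?_) _).symm
      exact ⟨h.1, h.2.le.trans (Finset.mem_filter.1 hD).2⟩
  rw [tsum_congr hpart, Summable.tsum_finsetSum hsummand, hT, Finset.sum_insert hHS] at h1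
  have hgen : (Nat.card H : ℝ) = numGen H + ∑ D ∈ S, (numGen D : ℝ) := by
    rw [← Finset.sum_insert (f := fun D => (numGen D : ℝ)) hHS, ← hT, ← Nat.cast_sum]
    congr 1
    rw [Nat.card_eq_fintype_card, Fintype.card_subtype,
      Finset.card_eq_sum_card_fiberwise (f := fun x : (L ≃ₐ[ℚ] L) => Subgroup.zpowers x) (t := T)
        (fun x hx => Finset.mem_coe.2 (Finset.mem_filter.2 ⟨Finset.mem_univ _,
          Subgroup.zpowers_le.2 (Finset.mem_filter.1 (Finset.mem_coe.1 hx)).2⟩))]
    refine Finset.sum_congr rfl fun D hD => ?_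
    rw [numGen, Nat.card_eq_fintype_card, Fintype.card_subtype, Finset.filter_filter]
    congr 1
    refine Finset.filter_congr fun x _ => ⟨fun h => h.2, fun h => ⟨?_, h⟩⟩
    exact (Finset.mem_filter.1 hD).2 (h ▸ Subgroup.mem_zpowers x)
  rw [hgen, add_mul, Finset.sum_mul] at h1
  set Sum₀ := ∑ D ∈ S, ∑' v, (primesEq D bad).indicator (weight' (L := L) s) v
  have h3 : |Sum₀ - ∑ D ∈ S, (numGen D : ℝ) * Real.log (1 / (s - 1))| ≤ ∑ D ∈ S, B D := by
    rw [← Finset.sum_sub_distrib]
    exact (Finset.abs_sum_le_sum_abs _ _).trans (Finset.sum_le_sum h2)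
  rw [abs_le] at h1 h3 ⊢
  constructor <;> linarith [h1.1, h1.2, h3.1, h3.2]

/-- Frobenius's theorem. -/
theorem exists_prime_stab_eq_zpowers (g : (L ≃ₐ[ℚ] L)) (bad : Finset ℕ) :
    ∃ v : HeightOneSpectrum (𝓞 L), resChar v ∉ bad ∧ IsGood v ∧ stab v = Subgroup.zpowers g := by
  obtain ⟨B, hB⟩ := exists_count_eq (Subgroup.zpowers g) bad
  by_contra hne
  push Not at hne
  have hempty : ∀ v, v ∉ primesEq (Subgroup.zpowers g) bad := fun v hv =>
    hne v (fun h => hv.1 (Finset.mem_union_left _ h)) (isGood_of_notMem hv.1) hv.2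
  have h0 : ∀ s : ℝ, ∑' v, (primesEq (Subgroup.zpowers g) bad).indicator (weight' s) v = 0 :=
    fun s => by simp [Set.indicator_of_notMem (hempty _)]
  have hpos : (1 : ℝ) ≤ numGen (Subgroup.zpowers g) := by
    rw [Nat.one_le_cast]
    exact @Nat.card_pos _ ⟨⟨g, rfl⟩⟩ _
  have hlim : Tendsto (fun s : ℝ => Real.log (1 / (s - 1))) (𝓝[>] 1) atTop := by
    refine Real.tendsto_log_atTop.comp ?_
    simp only [one_div]
    refine tendsto_inv_nhdsGT_zero.comp ?_
    refine tendsto_nhdsWithin_of_tendsto_nhds_of_eventually_within _ ?_ ?_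
    · have : Continuous fun s : ℝ => s - 1 := by fun_prop
      simpa using (this.tendsto 1).mono_left nhdsWithin_le_nhds
    · filter_upwards [self_mem_nhdsWithin] with s (hs : 1 < s)
      exact sub_pos.2 hs
  obtain ⟨s, hs1, hs2⟩ := (hB.and (hlim.eventually (eventually_gt_atTop |B|))).exists
  rw [h0, zero_sub, abs_neg, abs_mul, Nat.abs_cast,
    abs_of_pos ((abs_nonneg B).trans_lt hs2)] at hs1
  nlinarith [le_abs_self B, abs_nonneg B]

end Fermat.Agent.Density
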