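import Mathlib
import Fermat.Agent.Galois.Places
import Fermat.Agent.Density.DecompositionCount

/-!
Frobenius density on the absolute Galois group of `ℚ`.
-/

set_option autoImplicit false
set_option maxSynthPendingDepth 3

open NumberField IsDedekindDomain IsLocalRing
open scoped Pointwise

noncomputable section

namespace Fermat.Agent.Density

open Fermat.Agent.Galois

/-- The statement over a Galois number field containing `F`. -/
theorem exists_frobenius_pow_of_le (L : IntermediateField ℚ (AlgebraicClosure ℚ)) [NumberField L]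
    [IsGalois ℚ L] (bad : Finset ℕ) (g : GQ) : ∃ ℓ : ℕ, ℓ.Prime ∧ ℓ ∉ bad ∧
      ∃ A : ValuationSubring (AlgebraicClosure ℚ), A.LiesOverPrime ℓ ∧
        ∃ σ : GQ, A.IsFrobeniusAt σ ℓ ∧ ∃ b : ℕ, ∀ x ∈ L, (σ ^ b) x = g x := by
  let res : GQ → (L ≃ₐ[ℚ] L) := fun σ => σ.restrictNormal L
  have hres : ∀ (σ : GQ) (x : L), ((res σ x : L) : AlgebraicClosure ℚ) = σ x :=
    fun σ x => AlgEquiv.restrictNormal_commutes σ L x
  let ι : 𝓞 L →+* ZBar :=
    { toFun := fun x => ⟨((x : L) : AlgebraicClosure ℚ),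
        (RingOfIntegers.isIntegral_coe x).map (L.val.restrictScalars ℤ)⟩
      map_one' := Subtype.ext (by simp)
      map_mul' := fun _ _ => Subtype.ext (by simp)
      map_zero' := Subtype.ext (by simp)
      map_add' := fun _ _ => Subtype.ext (by simp) }
  have hι : ∀ (σ : GQ) (x : 𝓞 L), ι (res σ • x) = σ • ι x :=
    fun σ x => Subtype.ext (hres σ x)
  obtain ⟨v, hbad, hgood, hstab⟩ := exists_prime_stab_eq_zpowers (L := L) (res g) bad
  obtain ⟨hℓ, hℓv, -⟩ := exists_absNorm_eq v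
  set ℓ := resChar v
  refine ⟨ℓ, hℓ, hbad, ?_⟩
  obtain ⟨A₀, hA₀⟩ := exists_liesOverPrime hℓ
  -- move `A₀` so that its centre lies over `v`
  have hcen : ∀ (A : ValuationSubring (AlgebraicClosure ℚ)), A.LiesOverPrime ℓ →
      ((placeCenter A).comap ι).under ℤ = Ideal.span {(ℓ : ℤ)} := by
    intro A hA
    ext n
    rw [Ideal.under, Ideal.mem_comap, Ideal.mem_comap, eq_intCast, map_intCast,
      intCast_mem_placeCenter hℓ hA, Ideal.mem_span_singleton]
  have hv : v.asIdeal.under ℤ = Ideal.span {(ℓ : ℤ)} := by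
    have hmax : (Ideal.span {(ℓ : ℤ)}).IsMaximal :=
      PrincipalIdealRing.isMaximal_of_irreducible (Nat.prime_iff_prime_int.1 hℓ).irreducible
    have : v.asIdeal.IsPrime := v.isPrime
    refine (hmax.eq_of_le (Ideal.IsPrime.under ℤ v.asIdeal).ne_top ?_).symm
    rw [Ideal.span_singleton_le_iff_mem, Ideal.under, Ideal.mem_comap, eq_intCast, Int.cast_natCast]
    exact hℓv
  have : v.asIdeal.IsPrime := v.isPrime
  obtain ⟨τ₀, hτ₀⟩ := Algebra.IsInvariant.exists_smul_of_under_eq ℤ (𝓞 L) (L ≃ₐ[ℚ] L)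
    ((placeCenter A₀).comap ι) v.asIdeal ((hcen A₀ hA₀).trans hv.symm)
  obtain ⟨τ, hτ⟩ : ∃ τ : GQ, res τ = τ₀ :=
    AlgEquiv.restrictNormalHom_surjective (F := ℚ) (K₁ := L) (E := AlgebraicClosure ℚ) τ₀
  have hA : (τ • A₀).LiesOverPrime ℓ := by
    show (ℓ : AlgebraicClosure ℚ) ∈ (τ • A₀).nonunits
    rw [← map_natCast τ ℓ]
    exact (mem_nonunits_smul_iff τ A₀ _).2 hA₀
  refine ⟨τ • A₀, hA, ?_⟩
  set A := τ • A₀
  have hcA : ∀ x : 𝓞 L, ι x ∈ placeCenter A ↔ x ∈ v.asIdeal := by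
    intro x
    rw [hτ₀, Ideal.mem_pointwise_smul_iff_inv_smul_mem, Ideal.mem_comap, ← hτ,
      mem_placeCenter_iff, mem_placeCenter_iff, ← mem_nonunits_smul_iff τ A₀]
    show ((ι x : ZBar) : AlgebraicClosure ℚ) ∈ A.nonunits ↔ _
    have hinv : (res τ)⁻¹ = res τ⁻¹ :=
      (map_inv (AlgEquiv.restrictNormalHom (F := ℚ) (K₁ := AlgebraicClosure ℚ) L) τ).symm
    rw [hinv, hι, show ((τ⁻¹ • ι x : ZBar) : AlgebraicClosure ℚ) = τ⁻¹ (ι x : AlgebraicClosure ℚ)
      from rfl]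
    simp [A]
  obtain ⟨σ, hσ⟩ := exists_isFrobeniusAt hℓ hA
  refine ⟨σ, hσ, ?_⟩
  obtain ⟨hdec, hfr⟩ := hσ
  have hσv : ∀ x : 𝓞 L, res σ • x - x ^ ℓ ∈ v.asIdeal := by
    intro x
    rw [← hcA, map_sub, map_pow, hι, ← residue_zbar_eq_zero_iff, map_sub, map_sub, map_pow, map_pow,
      sub_eq_zero, ← hfr]
    rfl
  have hσs : res σ • v.asIdeal = v.asIdeal := by
    refine le_antisymm ?_ ?_
    · intro x hx
      rw [Ideal.mem_pointwise_smul_iff_inv_smul_mem] at hx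
      have h := add_mem (hσv ((res σ)⁻¹ • x)) (Ideal.pow_mem_of_mem _ hx ℓ hℓ.pos)
      rwa [sub_add_cancel, smul_inv_smul] at h
    · intro x hx
      rw [Ideal.mem_pointwise_smul_iff_inv_smul_mem]
      refine v.isPrime.mem_of_pow_mem ℓ ?_
      have h := sub_mem hx (hσv ((res σ)⁻¹ • x))
      rwa [smul_inv_smul, sub_sub_cancel] at h
  obtain ⟨n, hn⟩ := exists_pow_of_mem_stab hgood hσs hσv
    (MulAction.mem_stabilizer_iff.1 (hstab.symm.le (Subgroup.mem_zpowers (res g))))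
  refine ⟨n, fun x hx => ?_⟩
  have hpow : res g = res (σ ^ n) := hn.trans
    (map_pow (AlgEquiv.restrictNormalHom (F := ℚ) (K₁ := AlgebraicClosure ℚ) L) σ n).symm
  rw [← hres (σ ^ n) ⟨x, hx⟩, ← hpow, hres g ⟨x, hx⟩]

/-- Every element of the Galois group agrees on `F` with a power of some Frobenius outside `bad`. -/
theorem exists_frobenius_pow (F : IntermediateField ℚ (AlgebraicClosure ℚ)) [FiniteDimensional ℚ F]
    (bad : Finset ℕ) (g : GQ) : ∃ ℓ : ℕ, ℓ.Prime ∧ ℓ ∉ bad ∧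
      ∃ A : ValuationSubring (AlgebraicClosure ℚ), A.LiesOverPrime ℓ ∧
        ∃ σ : GQ, A.IsFrobeniusAt σ ℓ ∧ ∃ b : ℕ, ∀ x ∈ F, (σ ^ b) x = g x := by
  have : NumberField (IntermediateField.normalClosure ℚ F (AlgebraicClosure ℚ)) := { }
  have : Normal ℚ (AlgebraicClosure ℚ) := IsGalois.to_normal
  have : Normal ℚ (IntermediateField.normalClosure ℚ F (AlgebraicClosure ℚ)) :=
    normalClosure.normal ℚ F (AlgebraicClosure ℚ)
  have : IsGalois ℚ (IntermediateField.normalClosure ℚ F (AlgebraicClosure ℚ)) :=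
    ⟨⟩
  obtain ⟨ℓ, h1, h2, A, h3, σ, h4, b, h5⟩ :=
    exists_frobenius_pow_of_le (IntermediateField.normalClosure ℚ F (AlgebraicClosure ℚ)) bad g
  exact ⟨ℓ, h1, h2, A, h3, σ, h4, b, fun x hx => h5 x (F.le_normalClosure hx)⟩

end Fermat.Agent.Density
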