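import Mathlib

/-!
A Lipschitz partition of unity for the action of the units on the logarithmic space of a number
field, and the resulting weighted norm power on the mixed space.
-/

set_option autoImplicit false
set_option maxSynthPendingDepth 3

open NumberField NumberField.mixedEmbedding NumberField.Units NumberField.Units.dirichletUnitTheorem
open NumberField.mixedEmbedding.fundamentalCone
open Filter
open scoped Topology Classical

noncomputable section

namespace Fermat.Agent.Density

variable (K : Type*) [Field K] [NumberField K]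

/-- The logarithmic embedding of a unit. -/
def uLog (u : (𝓞 K)ˣ) : logSpace K := logEmbedding K (Additive.ofMul u)

theorem uLog_mul (u v : (𝓞 K)ˣ) : uLog K (u * v) = uLog K u + uLog K v := map_add _ _ _

theorem finite_uLog_ball (r : ℝ) : {u : (𝓞 K)ˣ | ‖uLog K u‖ ≤ r}.Finite := by
  classical
  set S := {u : (𝓞 K)ˣ | ‖uLog K u‖ ≤ r}
  have himg : (uLog K '' S).Finite := by
    refine (unitLattice_inter_ball_finite K r).subset ?_
    rintro _ ⟨u, hu, rfl⟩
    refine ⟨⟨Additive.ofMul u, trivial, rfl⟩, ?_⟩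
    simpa [Metric.mem_closedBall, dist_zero_right, S] using hu
  refine (himg.biUnion fun l _ => ?_).subset
    (fun u hu => Set.mem_biUnion (x := uLog K u) (Set.mem_image_of_mem _ hu) rfl :
      S ⊆ ⋃ l ∈ uLog K '' S, {u | uLog K u = l})
  rcases Set.eq_empty_or_nonempty {u : (𝓞 K)ˣ | uLog K u = l} with h | ⟨u₀, hu₀⟩
  · rw [h]; exact Set.finite_empty
  have ht : (torsion K : Set (𝓞 K)ˣ).Finite :=
    Set.finite_coe_iff.mp (inferInstanceAs (Finite (torsion K)))
  refine Set.Finite.subset (ht.image (fun z => u₀ * z))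
    fun u hu => ⟨u₀⁻¹ * u, ?_, mul_inv_cancel_left _ _⟩
  rw [SetLike.mem_coe, ← logEmbedding_eq_zero_iff]
  show uLog K (u₀⁻¹ * u) = 0
  have h0 : uLog K u₀⁻¹ + uLog K u₀ = 0 := by
    rw [← uLog_mul, inv_mul_cancel]; exact map_zero _
  rw [uLog_mul, show uLog K u = l from hu, ← show uLog K u₀ = l from hu₀, h0]

theorem exists_covering : ∃ D : ℝ, 0 ≤ D ∧ ∀ v : logSpace K, ∃ u : (𝓞 K)ˣ, ‖v + uLog K u‖ ≤ D := by
  classical
  let B := (basisUnitLattice K).ofZLatticeBasis ℝ (unitLattice K)
  obtain ⟨D, hD⟩ := isBounded_iff_forall_norm_le.mp (ZSpan.fundamentalDomain_isBounded B)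
  refine ⟨max D 0, le_max_right _ _, fun v => ?_⟩
  obtain ⟨⟨l, hl⟩, hmem, -⟩ := ZSpan.exist_unique_vadd_mem_fundamentalDomain B v
  have hl' : l ∈ unitLattice K := by
    rwa [Module.Basis.ofZLatticeBasis_span] at hl
  obtain ⟨u, -, hu⟩ := hl'
  refine ⟨Additive.toMul u, le_trans ?_ (le_max_left _ _)⟩
  refine hD _ ?_
  show v + logEmbedding K u ∈ _
  rw [add_comm, show logEmbedding K u = l from hu]
  exact hmem

/-- A covering radius, plus one. -/
def tentRad : ℝ := (exists_covering K).choose + 1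

theorem one_le_tentRad : 1 ≤ tentRad K := by
  have := (exists_covering K).choose_spec.1
  rw [tentRad]; linarith

/-- A tent function. -/
def tent (v : logSpace K) : ℝ := max 0 (tentRad K - ‖v‖)

theorem tent_nonneg (v : logSpace K) : 0 ≤ tent K v := le_max_left _ _

theorem tent_le (v : logSpace K) : tent K v ≤ tentRad K :=
  max_le (zero_le_one.trans (one_le_tentRad K)) (by linarith [norm_nonneg v])

theorem tent_lipschitz (v w : logSpace K) : |tent K v - tent K w| ≤ ‖v - w‖ := by
  refine (abs_max_sub_max_le_max _ _ _ _).trans ?_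
  rw [sub_self, abs_zero, max_eq_right (abs_nonneg _), sub_sub_sub_cancel_left, abs_sub_comm]
  exact abs_norm_sub_norm_le v w

theorem norm_lt_of_tent_ne_zero {v : logSpace K} (h : tent K v ≠ 0) : ‖v‖ < tentRad K := by
  by_contra hle
  push Not at hle
  exact h (max_eq_left (by linarith))

theorem finite_support (v : logSpace K) :
    (Function.support fun u : (𝓞 K)ˣ => tent K (v + uLog K u)).Finite := by
  refine (finite_uLog_ball K (tentRad K + ‖v‖)).subset fun u hu => ?_
  have h := norm_lt_of_tent_ne_zero K hu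
  have := norm_add_le (v + uLog K u) (-v)
  rw [norm_neg, add_neg_cancel_comm] at this
  show ‖uLog K u‖ ≤ _
  linarith

theorem summable_tent (v : logSpace K) : Summable fun u => tent K (v + uLog K u) :=
  summable_of_hasFiniteSupport (finite_support K v)

/-- The periodisation of the tent. -/
def tentSum (v : logSpace K) : ℝ := ∑' u : (𝓞 K)ˣ, tent K (v + uLog K u)

theorem one_le_tentSum (v : logSpace K) : 1 ≤ tentSum K v := by
  obtain ⟨u, hu⟩ := (exists_covering K).choose_spec.2 v
  refine le_trans ?_ ((summable_tent K v).le_tsum u fun _ _ => tent_nonneg K _)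
  refine le_max_of_le_right ?_
  rw [tentRad]; linarith

theorem tentSum_shift (v : logSpace K) (u : (𝓞 K)ˣ) : tentSum K (v + uLog K u) = tentSum K v := by
  rw [tentSum, tentSum, ← (Equiv.mulLeft u).tsum_eq (fun w => tent K (v + uLog K w))]
  exact tsum_congr fun w => by rw [Equiv.coe_mulLeft, uLog_mul, add_assoc]

/-- The weight. -/
def uWgt (v : logSpace K) : ℝ := tent K v / tentSum K v

theorem uWgt_nonneg (v : logSpace K) : 0 ≤ uWgt K v :=
  div_nonneg (tent_nonneg K v) (zero_le_one.trans (one_le_tentSum K v))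

theorem uWgt_le (v : logSpace K) : uWgt K v ≤ tentRad K :=
  (div_le_self (tent_nonneg K v) (one_le_tentSum K v)).trans (tent_le K v)

theorem norm_lt_of_uWgt_ne_zero {v : logSpace K} (h : uWgt K v ≠ 0) : ‖v‖ < tentRad K :=
  norm_lt_of_tent_ne_zero K fun h0 => h (by rw [uWgt, h0, zero_div])

theorem hasSum_uWgt (v : logSpace K) : HasSum (fun u : (𝓞 K)ˣ => uWgt K (v + uLog K u)) 1 := by
  have h := (summable_tent K v).hasSum.div_const (tentSum K v)
  rw [← tentSum, div_self (zero_lt_one.trans_le (one_le_tentSum K v)).ne'] at h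
  refine h.congr_fun fun u => ?_
  rw [uWgt, tentSum_shift]

/-- A uniform bound on the number of active units. -/
def actCount : ℕ := (finite_uLog_ball K (2 * tentRad K)).toFinset.card

theorem card_active_le (v : logSpace K) :
    (finite_support K v).toFinset.card ≤ actCount K := by
  classical
  rcases (finite_support K v).toFinset.eq_empty_or_nonempty with h | ⟨u₀, hu₀⟩
  · simp [h]
  refine Finset.card_le_card_of_injOn (fun u => u₀⁻¹ * u) (fun u hu => ?_)
    fun a _ b _ hab => mul_left_cancel hab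
  simp only [Finset.mem_coe, Set.Finite.mem_toFinset] at hu hu₀ ⊢
  show ‖uLog K (u₀⁻¹ * u)‖ ≤ _
  have e : uLog K (u₀⁻¹ * u) = (v + uLog K u) - (v + uLog K u₀) := by
    have h0 : uLog K u₀⁻¹ + uLog K u₀ = 0 := by rw [← uLog_mul, inv_mul_cancel]; exact map_zero _
    rw [uLog_mul, eq_neg_of_add_eq_zero_left h0]; abel
  rw [e]
  linarith [norm_sub_le (v + uLog K u) (v + uLog K u₀), norm_lt_of_tent_ne_zero K hu,
    norm_lt_of_tent_ne_zero K hu₀]

theorem tentSum_lipschitz (v w : logSpace K) :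
    |tentSum K v - tentSum K w| ≤ 2 * actCount K * ‖v - w‖ := by
  classical
  set S := (finite_support K v).toFinset ∪ (finite_support K w).toFinset
  have hv : tentSum K v = ∑ u ∈ S, tent K (v + uLog K u) := tsum_eq_sum fun u hu => by
    by_contra h
    exact hu (Finset.mem_union_left _ ((finite_support K v).mem_toFinset.mpr h))
  have hw : tentSum K w = ∑ u ∈ S, tent K (w + uLog K u) := tsum_eq_sum fun u hu => by
    by_contra h
    exact hu (Finset.mem_union_right _ ((finite_support K w).mem_toFinset.mpr h))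
  rw [hv, hw, ← Finset.sum_sub_distrib]
  refine ((Finset.abs_sum_le_sum_abs _ _).trans (Finset.sum_le_card_nsmul _ _ ‖v - w‖ fun u _ => ?_)).trans ?_
  · refine (tent_lipschitz K _ _).trans (le_of_eq ?_)
    rw [add_sub_add_right_eq_sub]
  · rw [nsmul_eq_mul]
    refine mul_le_mul_of_nonneg_right ?_ (norm_nonneg _)
    have : S.card ≤ 2 * actCount K :=
      (Finset.card_union_le _ _).trans (by linarith [card_active_le K v, card_active_le K w])
    exact_mod_cast this

/-- The Lipschitz constant. -/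
def wgtLip : ℝ := 1 + tentRad K * (2 * actCount K)

theorem wgtLip_nonneg : 0 ≤ wgtLip K := by
  have := one_le_tentRad K
  rw [wgtLip]; positivity

theorem uWgt_lipschitz (v w : logSpace K) : |uWgt K v - uWgt K w| ≤ wgtLip K * ‖v - w‖ := by
  have hv := one_le_tentSum K v
  have hw := one_le_tentSum K w
  have e : uWgt K v - uWgt K w = (tent K v - tent K w) / tentSum K v +
      tent K w * (tentSum K w - tentSum K v) / (tentSum K v * tentSum K w) := by
    rw [uWgt, uWgt]; field_simp; ring
  rw [e, wgtLip, add_mul, one_mul]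
  refine (abs_add_le _ _).trans (add_le_add ?_ ?_)
  · rw [abs_div, abs_of_pos (by linarith : 0 < tentSum K v)]
    exact (div_le_self (abs_nonneg _) hv).trans (tent_lipschitz K v w)
  · rw [abs_div, abs_mul, abs_of_nonneg (tent_nonneg K w),
      abs_of_pos (mul_pos (by linarith : 0 < tentSum K v) (by linarith : 0 < tentSum K w))]
    refine (div_le_self (mul_nonneg (tent_nonneg K w) (abs_nonneg _)) ?_).trans ?_
    · nlinarith
    · rw [mul_assoc, abs_sub_comm]
      exact mul_le_mul (tent_le K w) (tentSum_lipschitz K v w) (abs_nonneg _)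
        (zero_le_one.trans (one_le_tentRad K))

/-- The weighted norm power. -/
def wNormPow (s : ℝ) (x : mixedSpace K) : ℝ :=
  mixedEmbedding.norm x ^ (-s) * uWgt K (logMap x)

theorem wNormPow_nonneg (s : ℝ) (x : mixedSpace K) : 0 ≤ wNormPow K s x :=
  mul_nonneg (Real.rpow_nonneg (mixedEmbedding.norm_nonneg x) _) (uWgt_nonneg K _)

theorem sum_mult_log {x : mixedSpace K} (hx : mixedEmbedding.norm x ≠ 0) :
    ∑ w : InfinitePlace K, (w.mult : ℝ) * (Real.log (normAtPlace w x) -
      Real.log (mixedEmbedding.norm x) / Module.finrank ℚ K) = 0 := by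
  classical
  simp only [mul_sub, Finset.sum_sub_distrib, ← Finset.sum_mul]
  have h1 : Real.log (mixedEmbedding.norm x) =
      ∑ w : InfinitePlace K, (w.mult : ℝ) * Real.log (normAtPlace w x) := by
    rw [mixedEmbedding.norm_apply, Real.log_prod]
    · exact Finset.sum_congr rfl fun w _ => Real.log_pow _ _
    · exact fun w _ => pow_ne_zero _ (mixedEmbedding.norm_ne_zero_iff.mp hx w)
  have h2 : (∑ w : InfinitePlace K, (w.mult : ℝ)) = Module.finrank ℚ K := by
    exact_mod_cast InfinitePlace.sum_mult_eq (K := K)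
  rw [← h1, h2, mul_div_cancel₀ _ (Nat.cast_ne_zero.mpr Module.finrank_pos.ne'), sub_self]

/-- On the support of the weight all places are comparable. -/
theorem exists_cone : ∃ δ : ℝ, 0 < δ ∧ δ ≤ 1 ∧ ∀ (x : mixedSpace K) (w : InfinitePlace K),
    mixedEmbedding.norm x ≠ 0 → uWgt K (logMap x) ≠ 0 → δ * ‖x‖ ≤ normAtPlace w x := by
  classical
  set R := tentRad K
  set n : ℝ := (Fintype.card (InfinitePlace K) : ℝ) with hn
  have hR : 0 ≤ R := zero_le_one.trans (one_le_tentRad K)
  refine ⟨Real.exp (-(2 * R * (n + 1))), Real.exp_pos _,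
    Real.exp_le_one_iff.mpr (by
      have : 0 ≤ n := Nat.cast_nonneg _
      nlinarith), fun x w hx hwx => ?_⟩
  have hv := norm_lt_of_uWgt_ne_zero K hwx
  set c := Real.log (mixedEmbedding.norm x) / Module.finrank ℚ K
  let a : InfinitePlace K → ℝ := fun w => (w.mult : ℝ) * (Real.log (normAtPlace w x) - c)
  have ha : ∀ w : InfinitePlace K, w ≠ w₀ → |a w| ≤ R := fun w hw => by
    have := (norm_le_pi_norm (logMap x) ⟨w, hw⟩).trans hv.le
    rw [Real.norm_eq_abs, logMap_apply, ← div_eq_mul_inv] at this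
    exact this
  have hsum : ∑ w, a w = 0 := sum_mult_log K hx
  have ha0 : |a w₀| ≤ n * R := by
    rw [← Finset.add_sum_erase _ _ (Finset.mem_univ (w₀ : InfinitePlace K))] at hsum
    rw [eq_neg_of_add_eq_zero_left hsum, abs_neg]
    refine (Finset.abs_sum_le_sum_abs _ _).trans
      ((Finset.sum_le_card_nsmul _ _ R fun w hw => ha w (Finset.ne_of_mem_erase hw)).trans ?_)
    rw [nsmul_eq_mul]
    exact mul_le_mul_of_nonneg_right (Nat.cast_le.mpr (Finset.card_le_univ _)) hR
  have hb : ∀ w, |Real.log (normAtPlace w x) - c| ≤ (n + 1) * R := by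
    intro w
    have h1 : |a w| ≤ (n + 1) * R := by
      have : 0 ≤ n := Nat.cast_nonneg _
      by_cases hw : w = w₀
      · rw [hw]; nlinarith
      · nlinarith [ha w hw]
    simp only [a, abs_mul, Nat.abs_cast] at h1
    refine le_trans (le_mul_of_one_le_left (abs_nonneg _) ?_) h1
    exact_mod_cast InfinitePlace.mult_pos (w := w)
  have hpos : ∀ w, 0 < normAtPlace w x := fun w =>
    lt_of_le_of_ne (normAtPlace_nonneg w x) (Ne.symm (mixedEmbedding.norm_ne_zero_iff.mp hx w))
  rw [norm_eq_sup'_normAtPlace]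
  obtain ⟨w', -, hw'⟩ := Finset.exists_mem_eq_sup' Finset.univ_nonempty
    (fun w : InfinitePlace K => normAtPlace w x)
  rw [hw', ← Real.log_le_log_iff (mul_pos (Real.exp_pos _) (hpos w')) (hpos w),
    Real.log_mul (Real.exp_pos _).ne' (hpos w').ne', Real.log_exp]
  linarith [(abs_le.mp (hb w)).1, (abs_le.mp (hb w')).2]

theorem abs_log_sub_log_le {a b η : ℝ} (hη : 0 < η) (ha : η ≤ a) (hb : η ≤ b) :
    |Real.log a - Real.log b| ≤ |a - b| / η := by
  rcases le_total b a with h | h
  · rw [abs_of_nonneg (sub_nonneg.mpr (Real.log_le_log (hη.trans_le hb) h)),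
      abs_of_nonneg (sub_nonneg.mpr h), ← Real.log_div (hη.trans_le ha).ne' (hη.trans_le hb).ne']
    refine (Real.log_le_sub_one_of_pos (div_pos (hη.trans_le ha) (hη.trans_le hb))).trans ?_
    rw [div_sub_one (hη.trans_le hb).ne']
    exact div_le_div_of_nonneg_left (sub_nonneg.mpr h) hη hb
  · rw [abs_sub_comm, abs_of_nonneg (sub_nonneg.mpr (Real.log_le_log (hη.trans_le ha) h)),
      abs_sub_comm a, abs_of_nonneg (sub_nonneg.mpr h),
      ← Real.log_div (hη.trans_le hb).ne' (hη.trans_le ha).ne']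
    refine (Real.log_le_sub_one_of_pos (div_pos (hη.trans_le hb) (hη.trans_le ha))).trans ?_
    rw [div_sub_one (hη.trans_le ha).ne']
    exact div_le_div_of_nonneg_left (sub_nonneg.mpr h) hη ha

theorem abs_exp_sub_exp_le {a b c : ℝ} (ha : a ≤ c) (hb : b ≤ c) :
    |Real.exp a - Real.exp b| ≤ Real.exp c * |a - b| := by
  have key : ∀ a b : ℝ, b ≤ a → a ≤ c → Real.exp a - Real.exp b ≤ Real.exp c * (a - b) := by
    intro a b hba hac
    have h1 := mul_le_mul_of_nonneg_left (Real.add_one_le_exp (b - a)) (Real.exp_pos a).le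
    rw [← Real.exp_add, add_sub_cancel] at h1
    nlinarith [mul_le_mul_of_nonneg_right (Real.exp_le_exp.mpr hac) (sub_nonneg.mpr hba)]
  rcases le_total b a with h | h
  · rw [abs_of_nonneg (sub_nonneg.mpr (Real.exp_le_exp.mpr h)), abs_of_nonneg (sub_nonneg.mpr h)]
    exact key a b h ha
  · rw [abs_sub_comm, abs_of_nonneg (sub_nonneg.mpr (Real.exp_le_exp.mpr h)), abs_sub_comm,
      abs_of_nonneg (sub_nonneg.mpr h)]
    exact key b a h hb

theorem abs_normAtPlace_sub_le (w : InfinitePlace K) (x t : mixedSpace K) :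
    |normAtPlace w (x + t) - normAtPlace w x| ≤ ‖t‖ := by
  classical
  have hle : ∀ z, normAtPlace w z ≤ ‖z‖ := fun z => by
    rw [norm_eq_sup'_normAtPlace]
    exact Finset.le_sup' (fun w => normAtPlace w z) (Finset.mem_univ w)
  rw [abs_le]
  have h1 := normAtPlace_add_le w x t
  have h2 := normAtPlace_add_le w (x + t) (-t)
  rw [add_neg_cancel_right, normAtPlace_neg] at h2
  constructor <;> linarith [hle t]

/-- The weighted norm power changes little under translation. -/
theorem exists_translate_bound : ∃ (δ C₀ : ℝ), 0 < δ ∧ 0 ≤ C₀ ∧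
    ∀ (x t : mixedSpace K), 4 * ‖t‖ ≤ δ * ‖x‖ → 1 ≤ ‖x‖ →
      mixedEmbedding.norm x ≠ 0 → mixedEmbedding.norm (x + t) ≠ 0 →
      (uWgt K (logMap x) ≠ 0 ∨ uWgt K (logMap (x + t)) ≠ 0 →
        (∀ w, δ / 4 * ‖x‖ ≤ normAtPlace w x) ∧ (∀ w, δ / 4 * ‖x‖ ≤ normAtPlace w (x + t))) ∧
      ∀ s ∈ Set.Icc (1 : ℝ) 2, |wNormPow K s (x + t) - wNormPow K s x| ≤
        C₀ * ‖t‖ / ‖x‖ ^ (Module.finrank ℚ K + 1) := by
  classical
  obtain ⟨δ, hδ, hδ1, hcone⟩ := exists_cone K
  set n := Module.finrank ℚ K with hn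
  set η := δ / 4
  have hη : 0 < η := by positivity
  have hη1 : η ≤ 1 := by simp only [η]; linarith
  refine ⟨δ, (1 / η ^ (2 * n)) * ((2 * n * tentRad K) + 4 * wgtLip K) / η, hδ,
    div_nonneg (mul_nonneg (by positivity)
      (add_nonneg (mul_nonneg (by positivity) (zero_le_one.trans (one_le_tentRad K)))
        (mul_nonneg (by norm_num) (wgtLip_nonneg K)))) hη.le,
    fun x t ht hx1 hx hxt => ?_⟩
  have hnear : uWgt K (logMap x) ≠ 0 ∨ uWgt K (logMap (x + t)) ≠ 0 →
      (∀ w, η * ‖x‖ ≤ normAtPlace w x) ∧ (∀ w, η * ‖x‖ ≤ normAtPlace w (x + t)) := by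
    intro h
    have hxpos : 0 ≤ ‖x‖ := norm_nonneg x
    have key : ∀ w, 2 * (η * ‖x‖) ≤ normAtPlace w x ∨ 2 * (η * ‖x‖) ≤ normAtPlace w (x + t) := by
      intro w
      rcases h with h | h
      · left
        have := hcone x w hx h
        simp only [η]; nlinarith
      · right
        have h1 := hcone (x + t) w hxt h
        have h2 : ‖x‖ - ‖t‖ ≤ ‖x + t‖ := by
          have := norm_sub_le (x + t) t
          rw [add_sub_cancel_right] at this
          linarith
        have h3 : δ * ‖x‖ - δ * ‖t‖ ≤ δ * ‖x + t‖ := by nlinarith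
        have h4 : δ * ‖t‖ ≤ ‖t‖ := mul_le_of_le_one_left (norm_nonneg t) hδ1
        simp only [η]; nlinarith
    refine ⟨fun w => ?_, fun w => ?_⟩ <;>
    · have h5 := abs_le.mp (abs_normAtPlace_sub_le K w x t)
      rcases key w with h' | h' <;> simp only [η] at h' ⊢ <;> nlinarith
  refine ⟨hnear, fun s hs => ?_⟩
  by_cases hw : uWgt K (logMap x) ≠ 0 ∨ uWgt K (logMap (x + t)) ≠ 0
  swap
  · push Not at hw
    rw [wNormPow, wNormPow, hw.1, hw.2, mul_zero, mul_zero, sub_zero, abs_zero]
    exact div_nonneg (mul_nonneg (div_nonneg (mul_nonneg (by positivity)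
      (add_nonneg (mul_nonneg (by positivity) (zero_le_one.trans (one_le_tentRad K)))
        (mul_nonneg (by norm_num) (wgtLip_nonneg K)))) hη.le) (norm_nonneg t)) (by positivity)
  obtain ⟨hnx, hnt⟩ := hnear hw
  have hηx : 0 < η * ‖x‖ := mul_pos hη (by linarith)
  set e := ‖t‖ / (η * ‖x‖) with he
  have he0 : 0 ≤ e := div_nonneg (norm_nonneg t) hηx.le
  have hlog : ∀ w, |Real.log (normAtPlace w (x + t)) - Real.log (normAtPlace w x)| ≤ e := fun w =>
    (abs_log_sub_log_le hηx (hnt w) (hnx w)).trans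
      (div_le_div_of_nonneg_right (abs_normAtPlace_sub_le K w x t) hηx.le)
  have hlogN : ∀ z : mixedSpace K, mixedEmbedding.norm z ≠ 0 →
      Real.log (mixedEmbedding.norm z) =
        ∑ w : InfinitePlace K, (w.mult : ℝ) * Real.log (normAtPlace w z) := fun z hz => by
    rw [mixedEmbedding.norm_apply, Real.log_prod]
    · exact Finset.sum_congr rfl fun w _ => Real.log_pow _ _
    · exact fun w _ => pow_ne_zero _ (mixedEmbedding.norm_ne_zero_iff.mp hz w)
  have hmult : (∑ w : InfinitePlace K, (w.mult : ℝ)) = n := by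
    exact_mod_cast InfinitePlace.sum_mult_eq (K := K)
  have hN : |Real.log (mixedEmbedding.norm (x + t)) - Real.log (mixedEmbedding.norm x)| ≤ n * e := by
    rw [hlogN _ hxt, hlogN _ hx, ← Finset.sum_sub_distrib, ← hmult, Finset.sum_mul]
    refine (Finset.abs_sum_le_sum_abs _ _).trans (Finset.sum_le_sum fun w _ => ?_)
    rw [← mul_sub, abs_mul, Nat.abs_cast]
    exact mul_le_mul_of_nonneg_left (hlog w) (Nat.cast_nonneg _)
  have hlogMap : ‖logMap (x + t) - logMap x‖ ≤ 4 * e := by
    refine (pi_norm_le_iff_of_nonneg (by positivity)).mpr fun w => ?_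
    rw [Pi.sub_apply, Real.norm_eq_abs, logMap_apply, logMap_apply, ← mul_sub, abs_mul,
      Nat.abs_cast]
    have hnpos : (0 : ℝ) < n := Nat.cast_pos.mpr Module.finrank_pos
    have h1 : |Real.log (normAtPlace w.val (x + t)) - Real.log (mixedEmbedding.norm (x + t)) *
        (n : ℝ)⁻¹ - (Real.log (normAtPlace w.val x) - Real.log (mixedEmbedding.norm x) *
        (n : ℝ)⁻¹)| ≤ 2 * e := by
      rw [show ∀ a b c d : ℝ, a - b * (n : ℝ)⁻¹ - (c - d * (n : ℝ)⁻¹) =
        (a - c) - (b - d) * (n : ℝ)⁻¹ from fun a b c d => by ring]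
      refine (abs_sub _ _).trans ?_
      rw [abs_mul, abs_inv, Nat.abs_cast]
      have h2 := mul_le_mul_of_nonneg_right hN (inv_nonneg.mpr hnpos.le)
      rw [mul_comm (n : ℝ) e, mul_assoc, mul_inv_cancel₀ hnpos.ne', mul_one] at h2
      linarith [hlog w.val]
    have hm : (w.val.mult : ℝ) ≤ 2 := by
      unfold InfinitePlace.mult; split_ifs <;> norm_num
    nlinarith [abs_nonneg (Real.log (normAtPlace w.val (x + t)) - Real.log (mixedEmbedding.norm (x + t)) *
        (n : ℝ)⁻¹ - (Real.log (normAtPlace w.val x) - Real.log (mixedEmbedding.norm x) *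
        (n : ℝ)⁻¹))]
  -- the power of the norm
  have hxn : 0 < ‖x‖ ^ n := pow_pos (by linarith) _
  set B := 1 / (η ^ (2 * n) * ‖x‖ ^ n) with hBdef
  have hbound : ∀ z : mixedSpace K, mixedEmbedding.norm z ≠ 0 →
      (∀ w, η * ‖x‖ ≤ normAtPlace w z) →
      -s * Real.log (mixedEmbedding.norm z) ≤ Real.log B := by
    intro z hz hzw
    rw [hBdef, one_div, Real.log_inv, Real.log_mul (pow_pos hη _).ne' hxn.ne', Real.log_pow,
      Real.log_pow]
    have h1 : (n : ℝ) * Real.log (η * ‖x‖) ≤ Real.log (mixedEmbedding.norm z) := by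
      rw [hlogN z hz, ← hmult, Finset.sum_mul]
      exact Finset.sum_le_sum fun w _ =>
        mul_le_mul_of_nonneg_left (Real.log_le_log hηx (hzw w)) (Nat.cast_nonneg _)
    rw [Real.log_mul hη.ne' (by linarith : ‖x‖ ≠ 0)] at h1
    have hlη : Real.log η ≤ 0 := Real.log_nonpos hη.le hη1
    have hlx : 0 ≤ Real.log ‖x‖ := Real.log_nonneg hx1
    have hn0 : (0 : ℝ) ≤ n := Nat.cast_nonneg _
    have h2 := mul_le_mul_of_nonneg_left h1 (by linarith [hs.1] : (0 : ℝ) ≤ s)
    push_cast
    nlinarith [mul_nonneg (sub_nonneg.mpr hs.2) (mul_nonneg hn0 (neg_nonneg.mpr hlη)),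
      mul_nonneg (sub_nonneg.mpr hs.1) (mul_nonneg hn0 hlx)]
  have hpowdef : ∀ z : mixedSpace K, mixedEmbedding.norm z ≠ 0 →
      mixedEmbedding.norm z ^ (-s) = Real.exp (-s * Real.log (mixedEmbedding.norm z)) := fun z hz => by
    rw [Real.rpow_def_of_pos (lt_of_le_of_ne (mixedEmbedding.norm_nonneg z) (Ne.symm hz)), mul_comm]
  have hBpos : 0 < B := by positivity
  have hP : |mixedEmbedding.norm (x + t) ^ (-s) - mixedEmbedding.norm x ^ (-s)| ≤ B * (2 * n * e) := by
    rw [hpowdef _ hx, hpowdef _ hxt]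
    refine (abs_exp_sub_exp_le (hbound _ hxt hnt) (hbound _ hx hnx)).trans ?_
    rw [Real.exp_log hBpos, ← mul_sub, abs_mul, abs_neg, abs_of_nonneg (by linarith [hs.1] : (0:ℝ) ≤ s)]
    refine mul_le_mul_of_nonneg_left ?_ hBpos.le
    rw [mul_assoc]
    exact mul_le_mul hs.2 hN (abs_nonneg _) zero_le_two
  have hPx : mixedEmbedding.norm x ^ (-s) ≤ B := by
    rw [hpowdef _ hx]
    exact (Real.exp_le_exp.mpr (hbound _ hx hnx)).trans (Real.exp_log hBpos).le
  have e0 : wNormPow K s (x + t) - wNormPow K s x =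
      (mixedEmbedding.norm (x + t) ^ (-s) - mixedEmbedding.norm x ^ (-s)) * uWgt K (logMap (x + t)) +
      mixedEmbedding.norm x ^ (-s) * (uWgt K (logMap (x + t)) - uWgt K (logMap x)) := by
    rw [wNormPow, wNormPow]; ring
  rw [e0]
  refine (abs_add_le _ _).trans ?_
  have t1 : |(mixedEmbedding.norm (x + t) ^ (-s) - mixedEmbedding.norm x ^ (-s)) *
      uWgt K (logMap (x + t))| ≤ B * (2 * n * e) * tentRad K := by
    rw [abs_mul, abs_of_nonneg (uWgt_nonneg K _)]
    exact mul_le_mul hP (uWgt_le K _) (uWgt_nonneg K _) (by positivity)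
  have t2 : |mixedEmbedding.norm x ^ (-s) * (uWgt K (logMap (x + t)) - uWgt K (logMap x))| ≤
      B * (wgtLip K * (4 * e)) := by
    rw [abs_mul, abs_of_nonneg (Real.rpow_nonneg (mixedEmbedding.norm_nonneg x) _)]
    exact mul_le_mul hPx ((uWgt_lipschitz K _ _).trans
      (mul_le_mul_of_nonneg_left hlogMap (wgtLip_nonneg K))) (abs_nonneg _) hBpos.le
  refine (add_le_add t1 t2).trans (le_of_eq ?_)
  rw [hBdef, he, pow_succ]
  have hne : ‖x‖ ≠ 0 := by linarith
  field_simp

end Fermat.Agent.Density
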