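import Mathlib
import Fermat.Agent.Density.EulerSum
import Fermat.Agent.Density.UnitWeight

/-!
The sums `∑ ψ(N I) N(I)^{-s}` over the ideals of a number field have a limit as `s → 1+`, as soon
as `ψ ∘ N` is not trivial on the primes.

Each class is unfolded to a weighted sum over a lattice, which is compared with the sum over the
sublattice cut out by a prime `v` with `ψ(N v) ≠ 1`.
-/

set_option autoImplicit false
set_option maxSynthPendingDepth 3

open NumberField Module IsDedekindDomain Filter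
open NumberField.mixedEmbedding NumberField.mixedEmbedding.fundamentalCone
open scoped nonZeroDivisors Topology Classical

noncomputable section

namespace Fermat.Agent.Density

variable {E : Type*} [Field E] [NumberField E]

/-- An algebraic integer in the mixed space. -/
def intPt (x : 𝓞 E) : mixedSpace E := mixedEmbedding E (x : E)

lemma intPt_add (x y : 𝓞 E) : intPt (x + y) = intPt x + intPt y := map_add (mixedEmbedding E) _ _

lemma intPt_mul (x y : 𝓞 E) : intPt (x * y) = intPt x * intPt y := map_mul (mixedEmbedding E) _ _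

lemma intPt_eq_zero {x : 𝓞 E} : intPt x = 0 ↔ x = 0 := by simp [intPt]

/-- The absolute norm of an element. -/
def natNorm (x : 𝓞 E) : ℕ := (Algebra.norm ℤ x).natAbs

lemma natNorm_eq_absNorm (x : 𝓞 E) : natNorm x = Ideal.absNorm (Ideal.span {x}) :=
  (Ideal.absNorm_span_singleton x).symm

lemma one_le_natNorm {x : 𝓞 E} (hx : x ≠ 0) : 1 ≤ natNorm x :=
  Nat.one_le_iff_ne_zero.2 (Int.natAbs_ne_zero.2 (Algebra.norm_ne_zero_iff.2 hx))

lemma norm_intPt (x : 𝓞 E) : mixedEmbedding.norm (intPt x) = (natNorm x : ℝ) := by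
  rw [intPt, norm_eq_norm, ← Algebra.coe_norm_int, natNorm, Nat.cast_natAbs]
  simp

lemma norm_intPt_ne_zero {x : 𝓞 E} (hx : x ≠ 0) : mixedEmbedding.norm (intPt x) ≠ 0 := by
  rw [norm_intPt]
  exact Nat.cast_ne_zero.2 (Nat.one_le_iff_ne_zero.1 (one_le_natNorm hx))

lemma absNorm_dvd_natNorm {J : Ideal (𝓞 E)} {x : 𝓞 E} (hx : x ∈ J) :
    Ideal.absNorm J ∣ natNorm x := by
  rw [natNorm_eq_absNorm]
  exact map_dvd Ideal.absNorm (Ideal.dvd_iff_le.2 ((Ideal.span_singleton_le_iff_mem _).2 hx))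

variable (E) in
/-- A decay exponent. -/
def latExp : ℝ := -((finrank ℚ E + 1 : ℕ) : ℝ)

variable (E) in
lemma summable_norm_intPt : Summable fun x : 𝓞 E => ‖intPt x‖ ^ latExp E := by
  set f := (((mixedEmbedding E).comp (algebraMap (𝓞 E) E)).toIntAlgHom.toLinearMap) with hf
  have hinj : Function.Injective f := fun a b h =>
    RingOfIntegers.ext (mixedEmbedding_injective E h)
  have hr : latExp E < -(Module.finrank ℤ (mixedEmbedding.integerLattice E) : ℝ) := by
    rw [ZLattice.rank ℝ, mixedEmbedding.finrank, latExp]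
    push_cast
    linarith
  have h := ZLattice.summable_norm_rpow (mixedEmbedding.integerLattice E) _ hr
  exact ((LinearEquiv.ofInjective f hinj).toEquiv.summable_iff.2 h)

variable (E) in
lemma finite_intPt_ball (R : ℝ) : {x : 𝓞 E | ‖intPt x‖ ≤ R}.Finite := by
  set R' := max R 1
  have hR : 0 < R' := zero_lt_one.trans_le (le_max_right _ _)
  have h := (summable_norm_intPt E).tendsto_cofinite_zero.eventually
    (eventually_lt_nhds (Real.rpow_pos_of_pos hR (latExp E)))
  rw [Filter.eventually_cofinite] at h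
  refine (h.insert 0).subset fun x hx => ?_
  rcases eq_or_ne x 0 with rfl | hx0
  · exact Set.mem_insert _ _
  refine Set.mem_insert_of_mem _ ?_
  show ¬ ‖intPt x‖ ^ latExp E < R' ^ latExp E
  refine not_lt.2 (Real.rpow_le_rpow_of_nonpos ?_ (le_trans hx (le_max_left _ _)) ?_)
  · exact norm_pos_iff.2 (by rwa [Ne, intPt_eq_zero])
  · rw [latExp]; simp only [neg_nonpos]; positivity

/-- The norm is periodic modulo `M`. -/
lemma norm_congr (M : ℕ) (x y : 𝓞 E) :
    ((Algebra.norm ℤ (x + (M : 𝓞 E) * y) : ℤ) : ZMod M) = ((Algebra.norm ℤ x : ℤ) : ZMod M) := by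
  set b := RingOfIntegers.basis E
  rw [Algebra.norm_eq_matrix_det b, Algebra.norm_eq_matrix_det b, ← eq_intCast (Int.castRingHom _),
    ← eq_intCast (Int.castRingHom (ZMod M)), RingHom.map_det, RingHom.map_det]
  congr 1
  rw [map_add, map_mul, map_natCast, map_add, map_mul, map_natCast]
  have h0 : ((M : ℕ) : Matrix (Free.ChooseBasisIndex ℤ (𝓞 E)) (Free.ChooseBasisIndex ℤ (𝓞 E))
      (ZMod M)) = 0 := by
    rw [← Matrix.diagonal_natCast]
    simp
  rw [h0, zero_mul, add_zero]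

/-- The sign of the norm is constant on segments avoiding the null locus. -/
lemma norm_mul_norm_pos {x t : 𝓞 E}
    (h : ∀ r ∈ Set.Icc (0 : ℝ) 1, mixedEmbedding.norm (intPt x + r • intPt t) ≠ 0) :
    0 < Algebra.norm ℤ x * Algebra.norm ℤ (x + t) := by
  set b := RingOfIntegers.basis E
  set A : Matrix _ _ ℝ := (Algebra.leftMulMatrix b x).map (Int.cast : ℤ → ℝ) with hA
  set B : Matrix _ _ ℝ := (Algebra.leftMulMatrix b t).map (Int.cast : ℤ → ℝ) with hB
  set P : ℝ → ℝ := fun r => (A + r • B).det with hP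
  have hcont : Continuous P := by
    refine Continuous.matrix_det ?_
    fun_prop
  have hint : ∀ z : 𝓞 E, ((Algebra.leftMulMatrix b z).map (Int.cast : ℤ → ℝ)).det =
      ((Algebra.norm ℤ z : ℤ) : ℝ) := by
    intro z
    rw [Algebra.norm_eq_matrix_det b]
    exact ((Int.castRingHom ℝ).map_det _).symm
  have habs : ∀ r, |P r| = mixedEmbedding.norm (intPt x + r • intPt t) := by
    refine congrFun ((Rat.denseRange_cast (𝕜 := ℝ)).equalizer
      (continuous_abs.comp hcont) ?_ (funext fun q => ?_))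
    · exact (mixedEmbedding.continuous_norm E).comp (by fun_prop)
    set a := q.num
    set c := q.den
    have hc : (0 : ℝ) < c := Nat.cast_pos.2 q.den_pos
    have hq : (q : ℝ) = (a : ℝ) / c := Rat.cast_def q
    set z : 𝓞 E := c • x + a • t
    have hmat : (Algebra.leftMulMatrix b z).map (Int.cast : ℤ → ℝ) =
        (c : ℝ) • (A + (q : ℝ) • B) := by
      rw [smul_add, smul_smul, hq, mul_div_cancel₀ _ hc.ne', map_add, map_nsmul, map_zsmul, hA, hB]
      ext i j
      simp only [Matrix.map_apply, Matrix.add_apply, Matrix.smul_apply]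
      simp
    have hpt : intPt z = (c : ℝ) • (intPt x + (q : ℝ) • intPt t) := by
      rw [smul_add, smul_smul, hq, mul_div_cancel₀ _ hc.ne', intPt_add, Nat.cast_smul_eq_nsmul,
        Int.cast_smul_eq_zsmul]
      simp [intPt]
    have h1 := hint z
    rw [hmat, Matrix.det_smul] at h1
    have h2 := norm_intPt z
    rw [hpt, mixedEmbedding.norm_smul, natNorm, Nat.cast_natAbs, Int.cast_abs, ← h1, abs_mul,
      abs_pow, abs_of_pos hc, ← Module.finrank_eq_card_basis b, RingOfIntegers.rank] at h2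
    exact (mul_left_cancel₀ (pow_ne_zero _ hc.ne') h2).symm
  have h0 : P 0 = ((Algebra.norm ℤ x : ℤ) : ℝ) := by
    simp only [hP, zero_smul, add_zero, hA]; exact hint x
  have h1 : P 1 = ((Algebra.norm ℤ (x + t) : ℤ) : ℝ) := by
    rw [← hint (x + t), map_add, hP, hA, hB]
    simp [Matrix.map_add]
  have hne : ∀ r ∈ Set.Icc (0 : ℝ) 1, P r ≠ 0 := fun r hr h' => by
    have := habs r
    rw [h', abs_zero] at this
    exact h r hr this.symm
  have hpos : 0 < P 0 * P 1 := by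
    rcases lt_trichotomy (P 0 * P 1) 0 with hlt | heq | hgt
    · exfalso
      have hsub := intermediate_value_uIcc (a := (0 : ℝ)) (b := 1) hcont.continuousOn
      rw [Set.uIcc_of_le zero_le_one] at hsub
      obtain ⟨r, hr, hr0⟩ := hsub (show (0 : ℝ) ∈ Set.uIcc (P 0) (P 1) by
        rw [Set.mem_uIcc]
        rcases mul_neg_iff.1 hlt with ⟨p, q⟩ | ⟨p, q⟩
        · exact Or.inr ⟨q.le, p.le⟩
        · exact Or.inl ⟨p.le, q.le⟩)
      exact hne r hr hr0
    · exfalso
      rcases mul_eq_zero.1 heq with e | e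
      · exact hne 0 (Set.left_mem_Icc.2 zero_le_one) e
      · exact hne 1 (Set.right_mem_Icc.2 zero_le_one) e
    · exact hgt
  rw [h0, h1, ← Int.cast_mul, Int.cast_pos] at hpos
  exact hpos

lemma natNorm_congr {M : ℕ} {x y : 𝓞 E}
    (h : ∀ r ∈ Set.Icc (0 : ℝ) 1,
      mixedEmbedding.norm (intPt x + r • intPt ((M : 𝓞 E) * y)) ≠ 0) :
    natNorm (x + (M : 𝓞 E) * y) ≡ natNorm x [MOD M] := by
  rw [← ZMod.natCast_eq_natCast_iff]
  have hc := norm_congr M x y
  have hs := norm_mul_norm_pos h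
  unfold natNorm
  rcases mul_pos_iff.1 hs with ⟨p, q⟩ | ⟨p, q⟩
  · rw [← Int.cast_natCast, Int.natAbs_of_nonneg q.le, hc, ← Int.cast_natCast (R := ZMod M)
      (Algebra.norm ℤ x).natAbs, Int.natAbs_of_nonneg p.le]
  · rw [← Int.cast_natCast, Int.ofNat_natAbs_of_nonpos q.le, Int.cast_neg, hc,
      ← Int.cast_natCast (R := ZMod M) (Algebra.norm ℤ x).natAbs,
      Int.ofNat_natAbs_of_nonpos p.le, Int.cast_neg]

variable {m : ℕ} [NeZero m] (ψ : DirichletCharacter ℂ m)

/-- `ψ(N I) N(I)^{-s}`. -/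
def normCharPow (s : ℝ) : (Ideal (𝓞 E))⁰ →* ℂ where
  toFun I := ψ ((Ideal.absNorm (I : Ideal (𝓞 E)) : ℕ) : ZMod m) * (normPow s I : ℂ)
  map_one' := by simp
  map_mul' I J := by
    rw [Submonoid.coe_mul, map_mul, Nat.cast_mul, map_mul, map_mul, Complex.ofReal_mul]
    ring

lemma normCharPow_apply (s : ℝ) (I : (Ideal (𝓞 E))⁰) : normCharPow ψ s I =
    ψ ((Ideal.absNorm (I : Ideal (𝓞 E)) : ℕ) : ZMod m) * (normPow s I : ℂ) := rfl

lemma norm_normCharPow_le (s : ℝ) (I : (Ideal (𝓞 E))⁰) :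
    ‖normCharPow ψ s I‖ ≤ normPow s I := by
  rw [normCharPow_apply, norm_mul, Complex.norm_of_nonneg (normPow_pos s I).le]
  exact mul_le_of_le_one_left (normPow_pos s I).le (ψ.norm_le_one _)

lemma summable_normCharPow {s : ℝ} (hs : 1 < s) : Summable fun I => ‖normCharPow (E := E) ψ s I‖ :=
  Summable.of_nonneg_of_le (fun _ => norm_nonneg _) (norm_normCharPow_le ψ s) (summable_normPow hs)

/-- The character on a lattice. -/
def latChar (J : Ideal (𝓞 E)) (x : 𝓞 E) : ℂ :=
  ψ ((natNorm x / Ideal.absNorm J : ℕ) : ZMod m)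

/-- The weighted summand on a lattice. -/
def latTerm (J : Ideal (𝓞 E)) (s : ℝ) (x : 𝓞 E) : ℂ :=
  latChar ψ J x * (wNormPow E s (intPt x) : ℂ)

lemma latTerm_zero (J : Ideal (𝓞 E)) {s : ℝ} (hs : s ≠ 0) : latTerm ψ J s (0 : 𝓞 E) = 0 := by
  rw [latTerm, wNormPow, norm_intPt]
  simp [natNorm, Real.zero_rpow (neg_ne_zero.2 hs)]

/-- A weighted lattice sum is a sum over the ideals of a class. -/
theorem hasSum_latTerm (J : (Ideal (𝓞 E))⁰) {s : ℝ} (hs : 1 < s) :
    HasSum (((J : Ideal (𝓞 E)) : Set (𝓞 E)).indicator (latTerm ψ (J : Ideal (𝓞 E)) s))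
      (((Ideal.absNorm (J : Ideal (𝓞 E)) : ℝ) ^ (-s) : ℝ) *
        ∑' I : {I : (Ideal (𝓞 E))⁰ // ClassGroup.mk0 I = (ClassGroup.mk0 J)⁻¹},
          normCharPow ψ s I.1) := by
  set T := {I : (Ideal (𝓞 E))⁰ // ClassGroup.mk0 I = (ClassGroup.mk0 J)⁻¹}
  have hp : ∀ I : T, ((I.1 * J : (Ideal (𝓞 E))⁰) : Ideal (𝓞 E)).IsPrincipal := fun I => by
    rw [← ClassGroup.mk0_eq_one_iff (I.1 * J).2, Subtype.coe_eta, map_mul, I.2, inv_mul_cancel]
  choose g hg using fun I => (hp I).principal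
  have hg' : ∀ I : T, Ideal.span {g I} = (I.1 : Ideal (𝓞 E)) * (J : Ideal (𝓞 E)) := fun I => by
    rw [← Submonoid.coe_mul, hg I, Ideal.submodule_span_eq]
  have hg0 : ∀ I, g I ≠ 0 := fun I h => by
    have h1 := hg' I
    rw [h, Ideal.span_singleton_zero] at h1
    exact mem_nonZeroDivisors_iff_ne_zero.1 (I.1 * J).2 (by rw [Submonoid.coe_mul, ← h1]; rfl)
  set e : T × (𝓞 E)ˣ → 𝓞 E := fun p => g p.1 * (p.2 : 𝓞 E) with he
  have hspan : ∀ p, Ideal.span {e p} = (p.1.1 : Ideal (𝓞 E)) * (J : Ideal (𝓞 E)) := fun p => by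
    rw [he, Ideal.span_singleton_mul_right_unit p.2.isUnit, hg']
  have hinj : Function.Injective e := by
    intro p q h
    have h1 := hspan p
    rw [h, hspan q] at h1
    have h2 : q.1 = p.1 := Subtype.ext (Subtype.ext (mul_right_cancel₀
      (mem_nonZeroDivisors_iff_ne_zero.1 J.2) h1))
    refine Prod.ext h2.symm (Units.ext ?_)
    simp only [he, h2] at h
    exact mul_left_cancel₀ (hg0 _) h
  have hmem : ∀ p, e p ∈ (J : Ideal (𝓞 E)) := fun p => by
    rw [← Ideal.span_singleton_le_iff_mem, hspan]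
    exact Ideal.le_of_dvd (dvd_mul_left _ _)
  have hsupp : ∀ x, x ∉ Set.range e →
      ((J : Ideal (𝓞 E)) : Set (𝓞 E)).indicator (latTerm ψ (J : Ideal (𝓞 E)) s) x = 0 := by
    intro x hx
    by_cases hxJ : x ∈ ((J : Ideal (𝓞 E)) : Set (𝓞 E))
    swap
    · exact Set.indicator_of_notMem hxJ _
    rcases eq_or_ne x 0 with rfl | hx0
    · rw [Set.indicator_of_mem hxJ, latTerm_zero ψ _ (by linarith : s ≠ 0)]
    obtain ⟨I, hI⟩ := Ideal.dvd_iff_le.2 ((Ideal.span_singleton_le_iff_mem _).2 hxJ)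
    have hI0 : I ∈ (Ideal (𝓞 E))⁰ := mem_nonZeroDivisors_iff_ne_zero.2 fun h => hx0 (by
      rwa [h, mul_zero, Ideal.zero_eq_bot, Ideal.span_singleton_eq_bot] at hI)
    have hcl : ClassGroup.mk0 (⟨I, hI0⟩ : (Ideal (𝓞 E))⁰) = (ClassGroup.mk0 J)⁻¹ := by
      rw [eq_inv_iff_mul_eq_one, ← map_mul, show (⟨I, hI0⟩ : (Ideal (𝓞 E))⁰) * J =
        ⟨Ideal.span {x}, hI.symm ▸ mul_mem J.2 hI0⟩ from
          Subtype.ext (show I * (J : Ideal (𝓞 E)) = Ideal.span {x} from ((mul_comm _ _).trans hI.symm)), ClassGroup.mk0_eq_one_iff]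
      exact ⟨x, rfl⟩
    have h1 : Ideal.span {g ⟨⟨I, hI0⟩, hcl⟩} = Ideal.span {x} := by
      rw [hg', hI, mul_comm]
    obtain ⟨u, hu⟩ := Ideal.span_singleton_eq_span_singleton.1 h1
    exact absurd ⟨(⟨⟨I, hI0⟩, hcl⟩, u), hu⟩ hx
  rw [← hinj.hasSum_iff hsupp]
  -- the value on the image
  set w : T × (𝓞 E)ˣ → ℝ := fun p =>
    uWgt E (logMap (intPt (g p.1)) + uLog E p.2) with hw
  set c : T → ℂ := fun I =>
    (((Ideal.absNorm (J : Ideal (𝓞 E)) : ℝ) ^ (-s) : ℝ) : ℂ) * normCharPow ψ s I.1 with hcdef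
  have hval : ((J : Ideal (𝓞 E)) : Set (𝓞 E)).indicator (latTerm ψ (J : Ideal (𝓞 E)) s) ∘ e =
      fun p => c p.1 * (w p : ℂ) := by
    funext p
    have hN : natNorm (e p) = Ideal.absNorm (p.1.1 : Ideal (𝓞 E)) *
        Ideal.absNorm (J : Ideal (𝓞 E)) := by
      rw [natNorm_eq_absNorm, hspan, map_mul]
    have hJpos : 0 < Ideal.absNorm (J : Ideal (𝓞 E)) := Nat.pos_of_ne_zero
      (Ideal.absNorm_eq_zero_iff.not.2 (mem_nonZeroDivisors_iff_ne_zero.1 J.2))
    have hlog : logMap (intPt (e p)) = logMap (intPt (g p.1)) + uLog E p.2 := by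
      rw [show e p = g p.1 * (p.2 : 𝓞 E) from rfl, intPt_mul,
        logMap_mul (norm_intPt_ne_zero (hg0 _)) (norm_intPt_ne_zero p.2.ne_zero)]
      congr 1
      exact logMap_eq_logEmbedding p.2
    rw [Function.comp_apply, Set.indicator_of_mem (show e p ∈ _ from hmem p), latTerm, latChar,
      hN, Nat.mul_div_cancel _ hJpos, wNormPow, norm_intPt, hN, hlog, Nat.cast_mul,
      Real.mul_rpow (Nat.cast_nonneg _) (Nat.cast_nonneg _)]
    simp only [hcdef, hw, normCharPow_apply, normPow_apply]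
    push_cast
    ring
  rw [hval]
  have hfib : ∀ I : T, HasSum (fun u => c I * (w (I, u) : ℂ)) (c I) := fun I => by
    have h := (Complex.ofRealCLM.hasSum (hasSum_uWgt E (logMap (intPt (g I))))).mul_left (c I)
    simpa [hw] using h
  have hcs : Summable fun I : T => ‖c I‖ := by
    simp only [hcdef, norm_mul]
    exact ((summable_normCharPow ψ hs).subtype _).mul_left _
  have hreal : Summable fun p : T × (𝓞 E)ˣ => ‖c p.1‖ * w p := by
    refine (summable_prod_of_nonneg fun p => mul_nonneg (norm_nonneg _) (uWgt_nonneg E _)).2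
      ⟨fun I => ((hasSum_uWgt E (logMap (intPt (g I)))).summable.mul_left ‖c I‖),
        hcs.congr fun I => ?_⟩
    show ‖c I‖ = ∑' u, ‖c I‖ * uWgt E (logMap (intPt (g I)) + uLog E u)
    rw [tsum_mul_left, (hasSum_uWgt E (logMap (intPt (g I)))).tsum_eq, mul_one]
  have hsum : Summable fun p : T × (𝓞 E)ˣ => c p.1 * (w p : ℂ) :=
    Summable.of_norm (hreal.congr fun p => by
      rw [norm_mul (c p.1) (w p : ℂ), Complex.norm_of_nonneg (show 0 ≤ w p from uWgt_nonneg E _)])
  have h := (hsum.hasSum.prod_fiberwise hfib).tsum_eq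
  rw [show (∑' I, c I) = _ from tsum_mul_left] at h
  rw [h]
  exact hsum.hasSum

/-- The difference of the two lattice sums has a limit. -/
theorem exists_tendsto_shift (J J' : Ideal (𝓞 E)) {t : 𝓞 E} {y : 𝓞 E}
    (hle : J' ≤ J) (hty : t = ((m * Ideal.absNorm J : ℕ) : 𝓞 E) * y) (htJ : t ∈ J)
    (hJ : J ≠ ⊥) :
    ∃ l : ℂ, Tendsto (fun s => ∑' x, (J' : Set (𝓞 E)).indicator
      (fun x => latTerm ψ J s x - latTerm ψ J s (x + t)) x) (𝓝[>] 1) (𝓝 l) := by
  obtain ⟨δ, C₀, hδ, hC₀, hmain⟩ := exists_translate_bound E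
  have hJpos : 0 < Ideal.absNorm J := Nat.pos_of_ne_zero (Ideal.absNorm_eq_zero_iff.not.2 hJ)
  set T : ℝ := ‖intPt t‖ with hT
  have hT0 : 0 ≤ T := norm_nonneg _
  set R : ℝ := max (max (8 * T / δ) 1) (T + 1) with hR
  have hsmall := finite_intPt_ball E R
  have hbnd : ∀ (s : ℝ) (x : 𝓞 E), 1 ≤ s → ‖latTerm ψ J s x‖ ≤ tentRad E := by
    intro s x hs
    rw [latTerm, norm_mul, Complex.norm_of_nonneg (wNormPow_nonneg E s _)]
    refine (mul_le_of_le_one_left (wNormPow_nonneg E s _) (ψ.norm_le_one _)).trans ?_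
    rw [wNormPow, norm_intPt]
    rcases eq_or_ne x 0 with rfl | hx
    · rw [show natNorm (0 : 𝓞 E) = 0 by simp [natNorm], Nat.cast_zero,
        Real.zero_rpow (by linarith : -s ≠ 0), zero_mul]
      exact zero_le_one.trans (one_le_tentRad E)
    · refine (mul_le_of_le_one_left (uWgt_nonneg E _) ?_).trans (uWgt_le E _)
      exact Real.rpow_le_one_of_one_le_of_nonpos (Nat.one_le_cast.2 (one_le_natNorm hx))
        (by linarith)
  set bound : 𝓞 E → ℝ := fun x => C₀ * T * ‖intPt x‖ ^ latExp E +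
    {x : 𝓞 E | ‖intPt x‖ ≤ R}.indicator (fun _ => 2 * tentRad E) x with hbound
  have hbsum : Summable bound :=
    ((summable_norm_intPt E).mul_left _).add
      (summable_of_hasFiniteSupport (hsmall.subset Set.support_indicator_subset))
  refine ⟨_, tendsto_tsum_of_dominated_convergence hbsum
    (g := (J' : Set (𝓞 E)).indicator fun x => latTerm ψ J 1 x - latTerm ψ J 1 (x + t))
    (fun x => ?_) ?_⟩
  · by_cases hx : x ∈ (J' : Set (𝓞 E))
    · simp only [Set.indicator_of_mem hx]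
      have key : ∀ z : 𝓞 E, Tendsto (fun s => latTerm ψ J s z) (𝓝[>] 1) (𝓝 (latTerm ψ J 1 z)) := by
        intro z
        rcases eq_or_ne z 0 with rfl | hz
        · rw [latTerm_zero ψ J (one_ne_zero : (1 : ℝ) ≠ 0)]
          refine tendsto_const_nhds.congr' ?_
          filter_upwards [self_mem_nhdsWithin] with s (hs : 1 < s)
          rw [latTerm_zero ψ J (by linarith : s ≠ 0)]
        refine Tendsto.const_mul _ ((Complex.continuous_ofReal.tendsto _).comp ?_)
        refine Tendsto.mul_const _ ?_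
        exact (((Real.continuous_const_rpow (norm_intPt_ne_zero hz)).comp continuous_neg).tendsto
          1).mono_left nhdsWithin_le_nhds
      exact (key x).sub (key (x + t))
    · simp only [Set.indicator_of_notMem hx]
      exact tendsto_const_nhds
  · filter_upwards [Ioc_mem_nhdsGT one_lt_two] with s hs x
    by_cases hx : x ∈ (J' : Set (𝓞 E))
    swap
    · rw [Set.indicator_of_notMem hx, norm_zero]
      exact add_nonneg (mul_nonneg (mul_nonneg hC₀ hT0) (Real.rpow_nonneg (norm_nonneg _) _))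
        (Set.indicator_nonneg (fun _ _ => by linarith [one_le_tentRad E]) _)
    rw [Set.indicator_of_mem hx]
    by_cases hsm : ‖intPt x‖ ≤ R
    · refine (norm_sub_le _ _).trans ?_
      rw [hbound]
      simp only [Set.indicator_of_mem (show x ∈ {x : 𝓞 E | ‖intPt x‖ ≤ R} from hsm)]
      linarith [hbnd s x hs.1.le, hbnd s (x + t) hs.1.le,
        mul_nonneg (mul_nonneg hC₀ hT0) (Real.rpow_nonneg (norm_nonneg (intPt x)) (latExp E))]
    push Not at hsm
    have hbig : 8 * T < δ * ‖intPt x‖ := by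
      have := ((le_max_left _ _).trans (le_max_left _ _)).trans_lt hsm
      rw [div_lt_iff₀ hδ] at this
      linarith
    have h1 : 1 ≤ ‖intPt x‖ := (((le_max_right _ _).trans (le_max_left _ _)).trans_lt hsm).le
    have hxne : x ≠ 0 := by
      rintro rfl
      rw [intPt_eq_zero.2 rfl, norm_zero] at h1
      linarith
    have hxtne : x + t ≠ 0 := by
      intro h
      have h2 : intPt x = -intPt t := by
        rw [eq_neg_iff_add_eq_zero, ← intPt_add, h, intPt_eq_zero.2 rfl]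
      rw [h2, norm_neg] at hsm
      linarith [(le_max_right (max (8 * T / δ) 1) (T + 1))]
    obtain ⟨hnear, hdiff⟩ := hmain (intPt x) (intPt t) (by linarith) h1 (norm_intPt_ne_zero hxne)
      (by rw [← intPt_add]; exact norm_intPt_ne_zero hxtne)
    rw [← intPt_add] at hnear hdiff
    have hnum : C₀ * ‖intPt t‖ / ‖intPt x‖ ^ (finrank ℚ E + 1) =
        C₀ * T * ‖intPt x‖ ^ latExp E := by
      rw [latExp, Real.rpow_neg (norm_nonneg _), Real.rpow_natCast, ← div_eq_mul_inv]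
    have hD := hdiff s ⟨hs.1.le, hs.2⟩
    rw [hnum] at hD
    refine le_trans ?_ (le_add_of_nonneg_right
      (Set.indicator_nonneg (fun _ _ => by linarith [one_le_tentRad E]) _))
    by_cases hw : uWgt E (logMap (intPt x)) ≠ 0 ∨ uWgt E (logMap (intPt (x + t))) ≠ 0
    · obtain ⟨hnx, -⟩ := hnear hw
      have hchar : latChar ψ J (x + t) = latChar ψ J x := by
        have hmod : natNorm (x + t) ≡ natNorm x [MOD m * Ideal.absNorm J] := by
          rw [hty]
          refine natNorm_congr fun r hr => ?_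
          rw [← hty]
          refine mixedEmbedding.norm_ne_zero_iff.2 fun w => ne_of_gt ?_
          have h3 := abs_le.1 (abs_normAtPlace_sub_le E w (intPt x) (r • intPt t))
          rw [_root_.norm_smul, Real.norm_of_nonneg hr.1] at h3
          nlinarith [hnx w, hr.2, hT0]
        obtain ⟨a, ha⟩ := absNorm_dvd_natNorm (add_mem (hle hx) htJ)
        obtain ⟨b, hb⟩ := absNorm_dvd_natNorm (hle hx)
        rw [latChar, latChar, ha, hb, Nat.mul_div_cancel_left _ hJpos,
          Nat.mul_div_cancel_left _ hJpos]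
        rw [ha, hb, mul_comm m] at hmod
        rw [(ZMod.natCast_eq_natCast_iff _ _ _).2 (Nat.ModEq.mul_left_cancel' hJpos.ne' hmod)]
      rw [latTerm, latTerm, hchar, ← mul_sub, norm_mul, ← Complex.ofReal_sub, Complex.norm_real,
        Real.norm_eq_abs, abs_sub_comm]
      exact (mul_le_of_le_one_left (abs_nonneg _) (ψ.norm_le_one _)).trans hD
    · push Not at hw
      rw [latTerm, latTerm, wNormPow, wNormPow, hw.1, hw.2]
      simp only [mul_zero, Complex.ofReal_zero, sub_self, norm_zero]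
      exact mul_nonneg (mul_nonneg hC₀ hT0) (Real.rpow_nonneg (norm_nonneg _) _)

/-- The sum over a class. -/
def classCharSum (s : ℝ) (C : ClassGroup (𝓞 E)) : ℂ :=
  ∑' I : {I : (Ideal (𝓞 E))⁰ // ClassGroup.mk0 I = C}, normCharPow ψ s I.1

/-- The sum over all ideals. -/
def normCharSum (E : Type*) [Field E] [NumberField E] {m : ℕ} (ψ : DirichletCharacter ℂ m)
    (s : ℝ) : ℂ :=
  ∑' I : (Ideal (𝓞 E))⁰, ψ ((Ideal.absNorm (I : Ideal (𝓞 E)) : ℕ) : ZMod m) * (normPow s I : ℂ)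

lemma sum_classCharSum {s : ℝ} (hs : 1 < s) :
    ∑ C : ClassGroup (𝓞 E), classCharSum ψ s C = normCharSum E ψ s := by
  have h := (summable_normCharPow (E := E) ψ hs).of_norm
  rw [show normCharSum E ψ s = ∑' I, normCharPow (E := E) ψ s I from rfl,
    ← (Equiv.sigmaFiberEquiv (ClassGroup.mk0 (R := 𝓞 E))).tsum_eq,
    show (∑' c, normCharPow ψ s ((Equiv.sigmaFiberEquiv (ClassGroup.mk0 (R := 𝓞 E))) c)) =
      ∑' C, classCharSum ψ s C from
      ((Equiv.sigmaFiberEquiv (ClassGroup.mk0 (R := 𝓞 E))).summable_iff.2 h).tsum_sigma,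
    tsum_fintype]

lemma card_map_quotient (J J' : Ideal (𝓞 E)) (hle : J' ≤ J) (hJ' : J' ≠ ⊥) :
    Nat.card (J.map (Ideal.Quotient.mk J')) * Ideal.absNorm J = Ideal.absNorm J' := by
  have : Finite (𝓞 E ⧸ J') := Ideal.finiteQuotientOfFreeOfNeBot J' hJ'
  have h := Submodule.card_eq_card_quotient_mul_card
    (J.map (Ideal.Quotient.mk J') : Submodule (𝓞 E ⧸ J') (𝓞 E ⧸ J'))
  rw [show Ideal.absNorm J' = Nat.card (𝓞 E ⧸ J') from
    (Ideal.absNorm_apply _).trans (Submodule.cardQuot_apply _), h]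
  congr 1
  rw [Ideal.absNorm_apply, Submodule.cardQuot_apply]
  exact Nat.card_congr (DoubleQuot.quotQuotEquivQuotOfLE hle).toEquiv.symm

/-- The lattice comparison for a single class. -/
theorem exists_tendsto_class (J : (Ideal (𝓞 E))⁰) (v : HeightOneSpectrum (𝓞 E))
    (hv : resChar v ∉ (m * Ideal.absNorm (J : Ideal (𝓞 E))).primeFactors) :
    ∃ l : ℂ, Tendsto (fun s : ℝ =>
      (Ideal.absNorm v.asIdeal : ℂ) *
        ∑' x, (((toIdl v * J : (Ideal (𝓞 E))⁰) : Ideal (𝓞 E)) : Set (𝓞 E)).indicator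
          (latTerm ψ (J : Ideal (𝓞 E)) s) x -
        ∑' x, ((J : Ideal (𝓞 E)) : Set (𝓞 E)).indicator (latTerm ψ (J : Ideal (𝓞 E)) s) x)
      (𝓝[>] 1) (𝓝 l) := by
  obtain ⟨hℓ, hℓv, -⟩ := exists_absNorm_eq v
  set ℓ := resChar v
  set NJ := Ideal.absNorm (J : Ideal (𝓞 E)) with hNJ
  have hJ : (J : Ideal (𝓞 E)) ≠ ⊥ := mem_nonZeroDivisors_iff_ne_zero.1 J.2
  set M := m * NJ with hM
  have hM0 : M ≠ 0 := mul_ne_zero (NeZero.ne m) (Ideal.absNorm_eq_zero_iff.not.2 hJ)
  obtain ⟨a, b, hab⟩ := Nat.isCoprime_iff_coprime.2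
    (hℓ.coprime_iff_not_dvd.2 fun h => hv (Nat.mem_primeFactors.2 ⟨hℓ, h, hM0⟩))
  set J' := ((toIdl v * J : (Ideal (𝓞 E))⁰) : Ideal (𝓞 E)) with hJ'def
  have hJ'eq : J' = v.asIdeal * (J : Ideal (𝓞 E)) := rfl
  have hle : J' ≤ (J : Ideal (𝓞 E)) := Ideal.le_of_dvd ⟨v.asIdeal, by rw [hJ'eq, mul_comm]⟩
  have hJ'0 : J' ≠ ⊥ := mem_nonZeroDivisors_iff_ne_zero.1 (toIdl v * J).2
  have : Finite (𝓞 E ⧸ J') := Ideal.finiteQuotientOfFreeOfNeBot J' hJ'0
  set π := Ideal.Quotient.mk J'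
  set Q := ((J : Ideal (𝓞 E)).map π : Set (𝓞 E ⧸ J')).toFinite.toFinset with hQdef
  have hQmem : ∀ q, q ∈ Q ↔ q ∈ (J : Ideal (𝓞 E)).map π := fun q => Set.Finite.mem_toFinset _
  have hQcard : Q.card = Ideal.absNorm v.asIdeal := by
    have h := card_map_quotient (J : Ideal (𝓞 E)) J' hle hJ'0
    rw [hJ'eq, map_mul] at h
    rw [hQdef, ← Nat.card_eq_card_finite_toFinset]
    exact Nat.eq_of_mul_eq_mul_right (Nat.pos_of_ne_zero (Ideal.absNorm_eq_zero_iff.not.2 hJ)) h
  have hrep : ∀ q ∈ Q, ∃ t y : 𝓞 E, t = ((M : ℕ) : 𝓞 E) * y ∧ t ∈ (J : Ideal (𝓞 E)) ∧ π t = q := by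
    intro q hq
    obtain ⟨y, hy, rfl⟩ :=
      (Ideal.mem_map_iff_of_surjective π Ideal.Quotient.mk_surjective).1 ((hQmem q).1 hq)
    refine ⟨_, (b : 𝓞 E) * y, rfl, Ideal.mul_mem_left _ _ (Ideal.mul_mem_left _ _ hy), ?_⟩
    rw [Ideal.Quotient.eq]
    have e : ((M : ℕ) : 𝓞 E) * ((b : 𝓞 E) * y) - y = -((a : 𝓞 E) * ((ℓ : 𝓞 E) * y)) := by
      have h1 : (a : 𝓞 E) * (ℓ : 𝓞 E) + (b : 𝓞 E) * (M : 𝓞 E) = 1 := by
        have := congrArg (Int.cast : ℤ → 𝓞 E) hab
        push_cast at this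
        exact this
      linear_combination y * h1
    rw [e, hJ'eq]
    exact neg_mem (Ideal.mul_mem_left _ _ (Ideal.mul_mem_mul hℓv hy))
  choose! t y hty htJ hπt using hrep
  choose! l hl using fun q (hq : q ∈ Q) =>
    exists_tendsto_shift ψ (J : Ideal (𝓞 E)) J' hle (hty q hq) (htJ q hq) hJ
  refine ⟨∑ q ∈ Q, l q, (tendsto_finsetSum Q hl).congr' ?_⟩
  filter_upwards [self_mem_nhdsWithin] with s (hs : 1 < s)
  set F := latTerm ψ (J : Ideal (𝓞 E)) s
  have hF : Summable ((((J : Ideal (𝓞 E)) : Set (𝓞 E))).indicator F) :=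
    (hasSum_latTerm ψ J hs).summable
  have hF' : Summable ((J' : Set (𝓞 E)).indicator F) := by
    have := hF.indicator (J' : Set (𝓞 E))
    rwa [Set.indicator_indicator, Set.inter_eq_left.2 (fun x hx => hle hx)] at this
  have hshiftsum : ∀ q ∈ Q, Summable ((J' : Set (𝓞 E)).indicator fun x => F (x + t q)) := by
    intro q hq
    have := (((Equiv.addRight (t q)).summable_iff).2 hF).indicator (J' : Set (𝓞 E))
    refine this.congr fun x => ?_
    by_cases hx : x ∈ (J' : Set (𝓞 E))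
    · rw [Set.indicator_of_mem hx, Set.indicator_of_mem hx, Function.comp_apply,
        Equiv.coe_addRight, Set.indicator_of_mem (show x + t q ∈ _ from add_mem (hle hx) (htJ q hq))]
    · rw [Set.indicator_of_notMem hx, Set.indicator_of_notMem hx]
  have hsplit : ∀ x, ((J : Ideal (𝓞 E)) : Set (𝓞 E)).indicator F x =
      ∑ q ∈ Q, (J' : Set (𝓞 E)).indicator (fun x => F (x + t q)) (x - t q) := by
    intro x
    have hiff : ∀ q ∈ Q, x - t q ∈ (J' : Set (𝓞 E)) ↔ π x = q := fun q hq =>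
      ⟨fun h => ((Ideal.Quotient.eq (I := J')).2 h).trans (hπt q hq),
        fun h => (Ideal.Quotient.eq (I := J')).1 (h.trans (hπt q hq).symm)⟩
    by_cases hx : x ∈ (J : Ideal (𝓞 E))
    · have hq : π x ∈ Q := (hQmem _).2 (Ideal.mem_map_of_mem π hx)
      rw [Set.indicator_of_mem (show x ∈ _ from hx), Finset.sum_eq_single (π x),
        Set.indicator_of_mem ((hiff _ hq).2 rfl), sub_add_cancel]
      · exact fun q hq' hne => Set.indicator_of_notMem (fun h => hne ((hiff q hq').1 h).symm) _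
      · exact fun h => absurd hq h
    · rw [Set.indicator_of_notMem (show x ∉ _ from hx)]
      refine (Finset.sum_eq_zero fun q hq => Set.indicator_of_notMem (fun h => hx ?_) _).symm
      have := add_mem (hle h) (htJ q hq)
      rwa [sub_add_cancel] at this
  have hA : ∑' x, ((J : Ideal (𝓞 E)) : Set (𝓞 E)).indicator F x =
      ∑ q ∈ Q, ∑' x, (J' : Set (𝓞 E)).indicator (fun x => F (x + t q)) x := by
    rw [tsum_congr hsplit, Summable.tsum_finsetSum]
    · refine Finset.sum_congr rfl fun q _ => ?_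
      exact (Equiv.subRight (t q)).tsum_eq
        ((J' : Set (𝓞 E)).indicator fun x => F (x + t q))
    · exact fun q hq => ((Equiv.subRight (t q)).summable_iff).2 (hshiftsum q hq)
  rw [hA, ← hQcard, Finset.sum_congr rfl fun q (hq : q ∈ Q) => show
    ∑' x, (J' : Set (𝓞 E)).indicator (fun x => F x - F (x + t q)) x =
      ∑' x, (J' : Set (𝓞 E)).indicator F x -
        ∑' x, (J' : Set (𝓞 E)).indicator (fun x => F (x + t q)) x by
      rw [← hF'.tsum_sub (hshiftsum q hq)]
      refine tsum_congr fun x => ?_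
      by_cases hx : x ∈ (J' : Set (𝓞 E)) <;> simp [hx],
    Finset.sum_sub_distrib, Finset.sum_const, nsmul_eq_mul]

/-- If `ψ ∘ N` is not trivial then its sum over the ideals has a limit at `1`. -/
theorem exists_normCharSum_tendsto
    (hv : ∀ bad : Finset ℕ, ∃ v : HeightOneSpectrum (𝓞 E),
      resChar v ∉ bad ∧ ψ ((Ideal.absNorm v.asIdeal : ℕ) : ZMod m) ≠ 1) :
    ∃ l : ℂ, Tendsto (normCharSum E ψ) (𝓝[>] 1) (𝓝 l) := by
  choose Jc hJc using fun C : ClassGroup (𝓞 E) =>
    ClassGroup.mk0_surjective (R := 𝓞 E) C⁻¹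
  obtain ⟨v, hbad, hf0⟩ := hv (Finset.univ.biUnion fun C =>
    (m * Ideal.absNorm (Jc C : Ideal (𝓞 E))).primeFactors)
  choose l hl using fun C => exists_tendsto_class ψ (Jc C) v fun h =>
    hbad (Finset.mem_biUnion.2 ⟨C, Finset.mem_univ _, h⟩)
  set f0 := ψ ((Ideal.absNorm v.asIdeal : ℕ) : ZMod m)
  set N0 : ℝ := (Ideal.absNorm v.asIdeal : ℝ) with hN0
  have hN0pos : 0 < N0 := Nat.cast_pos.2
    (Nat.pos_of_ne_zero (Ideal.absNorm_eq_zero_iff.not.2 v.ne_bot))
  set k : ℝ → ℂ := fun s => f0 * ((N0 ^ (1 - s) : ℝ) : ℂ) - 1 with hk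
  have hklim : Tendsto k (𝓝[>] 1) (𝓝 (f0 - 1)) := by
    have h : Continuous fun s : ℝ => ((N0 ^ (1 - s) : ℝ) : ℂ) :=
      Complex.continuous_ofReal.comp ((Real.continuous_const_rpow hN0pos.ne').comp (by fun_prop))
    have h2 := (((h.tendsto 1).const_mul f0).sub_const 1).mono_left
      (nhdsWithin_le_nhds (s := Set.Ioi (1 : ℝ)))
    simpa [hk] using h2
  have hNJ : ∀ C, (0 : ℝ) < Ideal.absNorm (Jc C : Ideal (𝓞 E)) := fun C =>
    Nat.cast_pos.2 (Nat.pos_of_ne_zero (Ideal.absNorm_eq_zero_iff.not.2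
      (mem_nonZeroDivisors_iff_ne_zero.1 (Jc C).2)))
  have hlim : Tendsto (fun s => k s * normCharSum E ψ s) (𝓝[>] 1)
      (𝓝 (∑ C, (((Ideal.absNorm (Jc C : Ideal (𝓞 E)) : ℝ) ^ (1 : ℝ) : ℝ) : ℂ) * l C)) := by
    refine (tendsto_finsetSum Finset.univ fun C _ => Tendsto.mul
      (((Complex.continuous_ofReal.comp (Real.continuous_const_rpow (hNJ C).ne')).tendsto 1).mono_left
        nhdsWithin_le_nhds) (hl C)).congr' ?_
    filter_upwards [self_mem_nhdsWithin] with s (hs : 1 < s)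
    have key : ∀ C, ((Complex.ofReal ∘ fun r : ℝ => (Ideal.absNorm (Jc C : Ideal (𝓞 E)) : ℝ) ^ r) s) *
        ((Ideal.absNorm v.asIdeal : ℂ) *
          ∑' x, (((toIdl v * Jc C : (Ideal (𝓞 E))⁰) : Ideal (𝓞 E)) : Set (𝓞 E)).indicator
            (latTerm ψ (Jc C : Ideal (𝓞 E)) s) x -
          ∑' x, ((Jc C : Ideal (𝓞 E)) : Set (𝓞 E)).indicator
            (latTerm ψ (Jc C : Ideal (𝓞 E)) s) x) =
        f0 * ((N0 ^ (1 - s) : ℝ) : ℂ) * classCharSum ψ s (C * (ClassGroup.mk0 (toIdl v))⁻¹) -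
          classCharSum ψ s C := by
      intro C
      set J := (Jc C : Ideal (𝓞 E)) with hJdef
      set J' := ((toIdl v * Jc C : (Ideal (𝓞 E))⁰) : Ideal (𝓞 E)) with hJ'def
      have hA := (hasSum_latTerm ψ (Jc C) hs).tsum_eq
      have hB := (hasSum_latTerm ψ (toIdl v * Jc C) hs).tsum_eq
      rw [← hJdef, ← classCharSum, hJc C, inv_inv] at hA
      rw [← hJ'def, ← classCharSum, map_mul, hJc C, mul_inv, inv_inv, mul_comm _ C] at hB
      have hconv : ∀ x, (J' : Set (𝓞 E)).indicator (latTerm ψ J s) x =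
          f0 * (J' : Set (𝓞 E)).indicator (latTerm ψ J' s) x := by
        intro x
        by_cases hx : x ∈ (J' : Set (𝓞 E))
        swap
        · rw [Set.indicator_of_notMem hx, Set.indicator_of_notMem hx, mul_zero]
        obtain ⟨r, hr⟩ := absNorm_dvd_natNorm (show x ∈ J' from hx)
        have hJ'n : Ideal.absNorm J' = Ideal.absNorm v.asIdeal * Ideal.absNorm J :=
          map_mul _ v.asIdeal J
        have hJn : 0 < Ideal.absNorm J := Nat.cast_pos.1 (hNJ C)
        have hvn : 0 < Ideal.absNorm v.asIdeal := Nat.cast_pos.1 hN0pos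
        rw [Set.indicator_of_mem hx, Set.indicator_of_mem hx, latTerm, latTerm, latChar, latChar,
          hr, Nat.mul_div_cancel_left _ (hJ'n ▸ Nat.mul_pos hvn hJn), hJ'n,
          show Ideal.absNorm v.asIdeal * Ideal.absNorm J * r =
            Ideal.absNorm J * (Ideal.absNorm v.asIdeal * r) by ring,
          Nat.mul_div_cancel_left _ hJn, Nat.cast_mul, map_mul, mul_assoc]
      have hJ'n : (Ideal.absNorm J' : ℝ) = N0 * (Ideal.absNorm J : ℝ) := by
        rw [hJ'def, Submonoid.coe_mul, map_mul, Nat.cast_mul]; rfl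
      rw [tsum_congr hconv, tsum_mul_left, hA, hB, Function.comp_apply, hJ'n,
        Real.mul_rpow hN0pos.le (hNJ C).le, sub_eq_add_neg 1 s, Real.rpow_add hN0pos,
        Real.rpow_one]
      have hone : ((((Ideal.absNorm J : ℝ) ^ s : ℝ)) : ℂ) *
          (((Ideal.absNorm J : ℝ) ^ (-s) : ℝ) : ℂ) = 1 := by
        rw [← Complex.ofReal_mul, ← Real.rpow_add (hNJ C), add_neg_cancel, Real.rpow_zero,
          Complex.ofReal_one]
      rw [show ((Ideal.absNorm v.asIdeal : ℕ) : ℂ) = (N0 : ℂ) by simp [hN0]]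
      push_cast
      linear_combination (f0 * (N0 : ℂ) * ((N0 ^ (-s) : ℝ) : ℂ) *
        classCharSum ψ s (C * (ClassGroup.mk0 (toIdl v))⁻¹) - classCharSum ψ s C) * hone
    rw [Finset.sum_congr rfl fun C _ => key C, Finset.sum_sub_distrib, ← Finset.mul_sum]
    have hre : ∑ C, classCharSum ψ s (C * (ClassGroup.mk0 (toIdl v))⁻¹) = normCharSum E ψ s := by
      rw [← sum_classCharSum ψ hs]
      exact Equiv.sum_comp (Equiv.mulRight (ClassGroup.mk0 (toIdl v))⁻¹) (classCharSum ψ s)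
    rw [hre, sum_classCharSum ψ hs, hk]
    ring
  have hne : f0 - 1 ≠ 0 := sub_ne_zero.2 hf0
  refine ⟨_, (hlim.div hklim hne).congr' ?_⟩
  filter_upwards [hklim.eventually_ne hne] with s hs
  rw [Pi.div_apply, mul_div_cancel_left₀ _ hs]

end Fermat.Agent.Density
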