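import Mathlib
import Fermat.Agent.Density.NormCharLimit

/-!
The logarithm of the Euler product of `∑ ψ(N I) N(I)^{-s}`: if the sum has a limit at `1`, the
real part of `∑ ψ(N v) N(v)^{-s}` is bounded above, and if it is also bounded below, the sum over
the primes is bounded.
-/

set_option autoImplicit false
set_option maxSynthPendingDepth 3

open NumberField Module IsDedekindDomain Filter
open scoped nonZeroDivisors Topology Classical

noncomputable section

namespace Fermat.Agent.Density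

variable {E : Type*} [Field E] [NumberField E] {m : ℕ} [NeZero m] (ψ : DirichletCharacter ℂ m)

/-- `∑ ψ(N v) N(v)^{-s}` over a set of primes. -/
def charPrimeSum (S : Set (HeightOneSpectrum (𝓞 E))) (s : ℝ) : ℂ :=
  ∑' v, S.indicator (fun v => normCharPow ψ s (toIdl v)) v

lemma summable_charPrime {s : ℝ} (hs : 1 < s) :
    Summable fun v : HeightOneSpectrum (𝓞 E) => normCharPow ψ s (toIdl v) :=
  (summable_normCharPow ψ hs).of_norm.comp_injective toIdl_injective

lemma norm_charPrimeSum_sub_le (S : Set (HeightOneSpectrum (𝓞 E))) {s : ℝ} (hs : 1 < s) :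
    ‖charPrimeSum (E := E) ψ Set.univ s - charPrimeSum ψ S s‖ ≤ primeSum Sᶜ s := by
  rw [charPrimeSum, charPrimeSum, ← ((summable_charPrime ψ hs).indicator _).tsum_sub
    ((summable_charPrime ψ hs).indicator _)]
  refine tsum_of_norm_bounded ((summable_prime hs).indicator Sᶜ).hasSum fun v => ?_
  by_cases hv : v ∈ S
  · simp [hv]
  · simp only [Set.mem_univ, Set.indicator_of_mem, Set.indicator_of_notMem hv, sub_zero,
      Set.indicator_of_mem (show v ∈ Sᶜ from hv)]
    exact norm_normCharPow_le ψ s _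

/-- `∑ -log(1 - ψ(N v) N(v)^{-s})`. -/
def logEuler (E : Type*) [Field E] [NumberField E] {m : ℕ} [NeZero m]
    (ψ : DirichletCharacter ℂ m) (s : ℝ) : ℂ :=
  ∑' v : HeightOneSpectrum (𝓞 E), -Complex.log (1 - normCharPow ψ s (toIdl v))

lemma norm_log_term_sub_le {s : ℝ} (hs : 1 < s) (v : HeightOneSpectrum (𝓞 E)) :
    ‖-Complex.log (1 - normCharPow ψ s (toIdl v)) - normCharPow ψ s (toIdl v)‖ ≤
      normPow 2 (toIdl v) := by
  set z := normCharPow ψ s (toIdl v)
  have hz : ‖z‖ ≤ normPow s (toIdl v) := norm_normCharPow_le ψ s _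
  have hz2 : ‖z‖ ≤ 1 / 2 := hz.trans (normPow_toIdl_le_half v hs)
  have h := Complex.norm_log_one_add_sub_self_le (z := -z) (by rw [norm_neg]; linarith)
  rw [← sub_eq_add_neg, norm_neg, sub_neg_eq_add] at h
  rw [show -Complex.log (1 - z) - z = -(Complex.log (1 - z) + z) by ring, norm_neg]
  refine h.trans (le_trans ?_ (sq_normPow_le v hs))
  have h1 : (1 - ‖z‖)⁻¹ ≤ 2 := by
    rw [inv_le_comm₀ (by linarith) two_pos]; linarith
  calc ‖z‖ ^ 2 * (1 - ‖z‖)⁻¹ / 2 ≤ ‖z‖ ^ 2 * 2 / 2 := by
        gcongr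
    _ = ‖z‖ ^ 2 := by ring
    _ ≤ _ := pow_le_pow_left₀ (norm_nonneg z) hz 2

lemma summable_log_term {s : ℝ} (hs : 1 < s) :
    Summable fun v : HeightOneSpectrum (𝓞 E) => -Complex.log (1 - normCharPow ψ s (toIdl v)) := by
  have h := Summable.of_norm_bounded (summable_prime (K := E) one_lt_two)
    (norm_log_term_sub_le ψ hs)
  refine (h.add (summable_charPrime ψ hs)).congr fun v => ?_
  ring

lemma norm_logEuler_sub_le {s : ℝ} (hs : 1 < s) :
    ‖logEuler E ψ s - charPrimeSum (E := E) ψ Set.univ s‖ ≤ sqConst E := by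
  rw [logEuler, charPrimeSum]
  simp only [Set.indicator_univ]
  rw [← (summable_log_term ψ hs).tsum_sub (summable_charPrime ψ hs)]
  exact tsum_of_norm_bounded (summable_prime (K := E) one_lt_two).hasSum
    (norm_log_term_sub_le ψ hs)

theorem exp_logEuler {s : ℝ} (hs : 1 < s) : Complex.exp (logEuler E ψ s) = normCharSum E ψ s := by
  have h2 : Tendsto (fun S : Finset (HeightOneSpectrum (𝓞 E)) =>
      ∏ v ∈ S, (1 - normCharPow ψ s (toIdl v))) atTop (𝓝 (Complex.exp (-logEuler E ψ s))) := by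
    refine (((Complex.continuous_exp.tendsto _).comp (summable_log_term ψ hs).hasSum.neg)).congr
      fun S => ?_
    rw [Function.comp_apply, Complex.exp_sum]
    refine Finset.prod_congr rfl fun v _ => ?_
    rw [neg_neg, Complex.exp_log]
    rw [sub_ne_zero]
    intro h
    have h3 := (norm_normCharPow_le ψ s (toIdl v)).trans (normPow_toIdl_le_half v hs)
    rw [← h, norm_one] at h3
    linarith
  have h1 := tendsto_eulerProd (normCharPow ψ s) (summable_normCharPow (E := E) ψ hs)
  have h3 := tendsto_nhds_unique h1 (h2.const_mul _)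
  rw [Complex.exp_neg, ← div_eq_mul_inv, eq_div_iff (Complex.exp_ne_zero _), one_mul] at h3
  exact h3

theorem exists_re_le (hlim : ∃ l : ℂ, Tendsto (normCharSum E ψ) (𝓝[>] 1) (𝓝 l)) :
    ∃ B : ℝ, ∀ᶠ s in 𝓝[>] (1 : ℝ), (charPrimeSum (E := E) ψ Set.univ s).re ≤ B := by
  obtain ⟨l, hl⟩ := hlim
  refine ⟨Real.log (‖l‖ + 1) + sqConst E, ?_⟩
  filter_upwards [hl.norm.eventually (eventually_le_nhds (lt_add_one ‖l‖)), self_mem_nhdsWithin]
    with s hs (hs1 : 1 < s)
  rw [← exp_logEuler ψ hs1, Complex.norm_exp] at hs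
  have h1 : (logEuler E ψ s).re ≤ Real.log (‖l‖ + 1) :=
    (Real.le_log_iff_exp_le (by positivity)).2 hs
  have h2 := (Complex.abs_re_le_norm _).trans (norm_logEuler_sub_le (E := E) ψ hs1)
  rw [Complex.sub_re, abs_le] at h2
  linarith [h2.1]

lemma continuousOn_logEuler : ContinuousOn (logEuler E ψ) (Set.Ioi 1) := by
  intro s hs
  obtain ⟨s₀, h1, h2⟩ := exists_between (show (1 : ℝ) < s from hs)
  refine ((continuousOn_tsum (s := Set.Ioi s₀) (fun v => ?_)
    (u := fun v => normPow 2 (toIdl v) + normPow s₀ (toIdl v))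
    ((summable_prime one_lt_two).add (summable_prime h1)) fun v r (hr : s₀ < r) => ?_).continuousAt
      (Ioi_mem_nhds h2)).continuousWithinAt
  · refine ((ContinuousOn.clog ?_ ?_)).neg
    · refine continuousOn_const.sub (Continuous.continuousOn ?_)
      refine continuous_const.mul (Complex.continuous_ofReal.comp ?_)
      refine (Real.continuous_const_rpow ?_).comp continuous_neg
      exact Nat.cast_ne_zero.2 (Ideal.absNorm_eq_zero_iff.not.2 v.ne_bot)
    · intro r (hr : s₀ < r)
      refine Or.inl ?_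
      have h3 := ((Complex.abs_re_le_norm _).trans (norm_normCharPow_le ψ r (toIdl v))).trans
        (normPow_toIdl_le_half v (h1.trans hr))
      rw [abs_le] at h3
      rw [Complex.sub_re, Complex.one_re]
      linarith [h3.2]
  · refine (norm_le_norm_sub_add _ (normCharPow ψ r (toIdl v))).trans
      (add_le_add (norm_log_term_sub_le ψ (h1.trans hr) v)
        ((norm_normCharPow_le ψ r _).trans ?_))
    refine Real.rpow_le_rpow_of_exponent_le (Nat.one_le_cast.2 (Nat.pos_of_ne_zero
      (Ideal.absNorm_eq_zero_iff.not.2 v.ne_bot))) (by linarith)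

/-- If the sum has a limit and the prime sum does not tend to `-∞`, the prime sum is bounded. -/
theorem exists_norm_le (hlim : ∃ l : ℂ, Tendsto (normCharSum E ψ) (𝓝[>] 1) (𝓝 l))
    (hlow : ∃ B : ℝ, ∀ᶠ s in 𝓝[>] (1 : ℝ), B ≤ (charPrimeSum (E := E) ψ Set.univ s).re) :
    ∃ B : ℝ, ∀ᶠ s in 𝓝[>] (1 : ℝ), ‖charPrimeSum (E := E) ψ Set.univ s‖ ≤ B := by
  obtain ⟨l, hl⟩ := hlim
  obtain ⟨B, hB⟩ := hlow
  have hge : ∀ᶠ s in 𝓝[>] (1 : ℝ), Real.exp (B - sqConst E) ≤ ‖normCharSum E ψ s‖ := by
    filter_upwards [hB, self_mem_nhdsWithin] with s hs (hs1 : 1 < s)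
    rw [← exp_logEuler ψ hs1, Complex.norm_exp, Real.exp_le_exp]
    have h2 := (Complex.abs_re_le_norm _).trans (norm_logEuler_sub_le (E := E) ψ hs1)
    rw [Complex.sub_re, abs_le] at h2
    linarith [h2.1]
  have hl0 : l ≠ 0 := by
    intro h
    have := ge_of_tendsto hl.norm hge
    rw [h, norm_zero] at this
    linarith [Real.exp_pos (B - sqConst E)]
  have hdiv : Tendsto (fun s => normCharSum E ψ s / l) (𝓝[>] 1) (𝓝 1) := by
    simpa [hl0] using hl.div_const l
  have hlog : Tendsto (fun s => Complex.log (normCharSum E ψ s / l)) (𝓝[>] 1) (𝓝 0) := by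
    have h := (continuousAt_clog (Or.inl (by norm_num : (0 : ℝ) < (1 : ℂ).re))).tendsto.comp hdiv
    rwa [Complex.log_one] at h
  have hev : ∀ᶠ s in 𝓝[>] (1 : ℝ), normCharSum E ψ s / l ∈ Complex.slitPlane ∧
      ‖Complex.log (normCharSum E ψ s / l)‖ ≤ 1 :=
    (hdiv.eventually (Complex.isOpen_slitPlane.mem_nhds Complex.one_mem_slitPlane)).and
      (hlog.norm.eventually (eventually_le_nhds (by rw [norm_zero]; exact one_pos)))
  obtain ⟨u, hu, husub⟩ := mem_nhdsGT_iff_exists_Ioo_subset.1 hev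
  set g : ℝ → ℂ := fun s => logEuler E ψ s - Complex.log (normCharSum E ψ s / l) with hg
  have hgexp : ∀ s ∈ Set.Ioo 1 u, Complex.exp (g s) = l := fun s hs => by
    have hne : normCharSum E ψ s / l ≠ 0 := Complex.slitPlane_ne_zero (husub hs).1
    rw [hg, Complex.exp_sub, exp_logEuler ψ hs.1, Complex.exp_log hne,
      div_div_eq_mul_div, mul_div_cancel_left₀ _ (fun h => hne (by rw [h, zero_div]))]
  have hLc : ContinuousOn (normCharSum E ψ) (Set.Ioi 1) :=
    ((Complex.continuous_exp.comp_continuousOn (continuousOn_logEuler ψ))).congr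
      fun s hs => (exp_logEuler ψ hs).symm
  have hgc : ContinuousOn g (Set.Ioo 1 u) := by
    refine ((continuousOn_logEuler ψ).mono Set.Ioo_subset_Ioi_self).sub ?_
    exact ((hLc.mono Set.Ioo_subset_Ioi_self).div_const l).clog fun s hs => (husub hs).1
  obtain ⟨s₀, hs₀⟩ : (Set.Ioo 1 u).Nonempty := Set.nonempty_Ioo.2 hu
  have hconst : ∀ s ∈ Set.Ioo 1 u, g s = g s₀ := by
    intro s hs
    obtain ⟨k, hk⟩ := Complex.exp_eq_exp_iff_exists_int.1 ((hgexp s hs).trans (hgexp s₀ hs₀).symm)
    rcases eq_or_ne k 0 with rfl | hk0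
    · simpa using hk
    exfalso
    have him : (g s).im = (g s₀).im + k * (2 * Real.pi) := by rw [hk]; simp
    have hc : ContinuousOn (fun r => (g r).im) (Set.Ioo 1 u) :=
      Complex.continuous_im.comp_continuousOn hgc
    obtain ⟨r, hr, hr'⟩ : ∃ r ∈ Set.Ioo 1 u, (g r).im = (g s₀).im + Real.pi ∨
        (g r).im = (g s₀).im - Real.pi := by
      rcases lt_or_gt_of_ne hk0 with h | h
      · have hk1 : (k : ℝ) ≤ -1 := by exact_mod_cast Int.le_sub_one_of_lt h
        obtain ⟨r, hr, he⟩ := isPreconnected_Ioo.intermediate_value hs hs₀ hc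
          (show (g s₀).im - Real.pi ∈ Set.Icc (g s).im (g s₀).im from
            ⟨by rw [him]; nlinarith [Real.pi_pos], by linarith [Real.pi_pos]⟩)
        exact ⟨r, hr, Or.inr he⟩
      · have hk1 : (1 : ℝ) ≤ k := by exact_mod_cast h
        obtain ⟨r, hr, he⟩ := isPreconnected_Ioo.intermediate_value hs₀ hs hc
          (show (g s₀).im + Real.pi ∈ Set.Icc (g s₀).im (g s).im from
            ⟨by linarith [Real.pi_pos], by rw [him]; nlinarith [Real.pi_pos]⟩)
        exact ⟨r, hr, Or.inl he⟩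
    obtain ⟨j, hj⟩ := Complex.exp_eq_exp_iff_exists_int.1 ((hgexp r hr).trans (hgexp s₀ hs₀).symm)
    have hjim : (g r).im = (g s₀).im + j * (2 * Real.pi) := by rw [hj]; simp
    rcases hr' with e | e
    · have h1 : ((2 * j : ℤ) : ℝ) = ((1 : ℤ) : ℝ) := by
        have := hjim.symm.trans e
        push_cast
        nlinarith [Real.pi_pos]
      have := Int.cast_inj.1 h1
      omega
    · have h1 : ((2 * j : ℤ) : ℝ) = ((-1 : ℤ) : ℝ) := by
        have := hjim.symm.trans e
        push_cast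
        nlinarith [Real.pi_pos]
      have := Int.cast_inj.1 h1
      omega
  refine ⟨‖g s₀‖ + 1 + sqConst E, ?_⟩
  filter_upwards [Ioo_mem_nhdsGT hu] with s hs
  have h1 := norm_logEuler_sub_le (E := E) ψ hs.1
  rw [norm_sub_rev] at h1
  have h2 : logEuler E ψ s = g s₀ + Complex.log (normCharSum E ψ s / l) := by
    rw [← hconst s hs, hg]; ring
  calc ‖charPrimeSum (E := E) ψ Set.univ s‖
      ≤ ‖charPrimeSum (E := E) ψ Set.univ s - logEuler E ψ s‖ + ‖logEuler E ψ s‖ :=
        norm_le_norm_sub_add _ _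
    _ ≤ sqConst E + (‖g s₀‖ + 1) := by
        rw [h2] at h1 ⊢
        exact add_le_add h1 ((norm_add_le _ _).trans (add_le_add_right (husub hs).2 _))
    _ = _ := by ring

end Fermat.Agent.Density
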