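import Mathlib
import Fermat.Agent.Density.LogEuler
import Fermat.Agent.Density.DecompositionCount

/-!
Chebotarev's theorem for elements `γ` of a Galois group on whose cyclic group a cyclotomic
character is injective.
-/

set_option autoImplicit false
set_option maxSynthPendingDepth 3

open NumberField Module IsDedekindDomain Filter
open scoped nonZeroDivisors Topology Pointwise Classical

noncomputable section

namespace Fermat.Agent.Density

variable {M : Type*} [Field M] [NumberField M] [IsGalois ℚ M]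

/-- A Frobenius element at `v`. -/
def frobAt (v : HeightOneSpectrum (𝓞 M)) : M ≃ₐ[ℚ] M := (exists_frob v).choose

lemma frobAt_smul (v : HeightOneSpectrum (𝓞 M)) : frobAt v • v.asIdeal = v.asIdeal :=
  (exists_frob v).choose_spec.1

lemma frobAt_congr (v : HeightOneSpectrum (𝓞 M)) (x : 𝓞 M) :
    frobAt v • x - x ^ resChar v ∈ v.asIdeal :=
  (exists_frob v).choose_spec.2 x

lemma stab_eq_zpowers_frobAt {v : HeightOneSpectrum (𝓞 M)} (hv : IsGood v) :
    stab v = Subgroup.zpowers (frobAt v) := by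
  refine le_antisymm (fun τ hτ => ?_) (Subgroup.zpowers_le.2 (frobAt_smul v))
  obtain ⟨n, hn⟩ := exists_pow_of_mem_stab hv (frobAt_smul v) (frobAt_congr v)
    (MulAction.mem_stabilizer_iff.1 hτ)
  exact ⟨n, by simp [hn]⟩

/-- The good primes with Frobenius element `γ`. -/
def frobPrimes (bad : Finset ℕ) (γ : M ≃ₐ[ℚ] M) : Set (HeightOneSpectrum (𝓞 M)) :=
  {v | resChar v ∉ allBad M bad ∧ frobAt v = γ}

variable {m : ℕ} [NeZero m] {ζ : M} (hζ : IsPrimitiveRoot ζ m)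

include hζ in
lemma autToPow_frobAt {v : HeightOneSpectrum (𝓞 M)} (hv : ¬ resChar v ∣ m) :
    ((hζ.autToPow ℚ (frobAt v) : (ZMod m)ˣ) : ZMod m) = (resChar v : ZMod m) := by
  set a := ((hζ.autToPow ℚ (frobAt v) : (ZMod m)ˣ) : ZMod m)
  by_contra hne
  let z : 𝓞 M := ⟨ζ, hζ.isIntegral (NeZero.pos m)⟩
  have hz : ((z : 𝓞 M) : M) = ζ := rfl
  have hzm : z ^ m = 1 := RingOfIntegers.ext (by simp [hz, hζ.pow_eq_one])
  have hact : frobAt v • z = z ^ a.val := RingOfIntegers.ext (by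
    rw [RingOfIntegers.coe_eq_algebraMap, RingOfIntegers.coe_eq_algebraMap, map_pow]
    exact (hζ.autToPow_spec ℚ (frobAt v)).symm)
  have h1 := frobAt_congr v z
  rw [hact] at h1
  set k := (a - (resChar v : ZMod m)).val
  have hk : k ≠ 0 := fun h => hne (sub_eq_zero.1 ((ZMod.val_eq_zero _).1 h))
  have hkm : k < m := ZMod.val_lt _
  have hsplit : z ^ a.val = z ^ resChar v * z ^ k := by
    rw [← pow_add, pow_eq_pow_mod _ hzm, pow_eq_pow_mod (resChar v + k) hzm]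
    congr 1
    refine (ZMod.natCast_eq_natCast_iff' _ _ _).1 ?_
    simp [k]
  rw [hsplit] at h1
  have hzv : z ∉ v.asIdeal := fun h => v.isPrime.ne_top (v.asIdeal.eq_top_iff_one.2
    (hzm ▸ Ideal.pow_mem_of_mem _ h m (NeZero.pos m)))
  have h2 : z ^ k - 1 ∈ v.asIdeal := by
    have h3 : z ^ resChar v * (z ^ k - 1) ∈ v.asIdeal := by rwa [mul_sub, mul_one]
    exact (v.isPrime.mem_or_mem h3).resolve_left fun h => hzv (v.isPrime.mem_of_pow_mem _ h)
  have hne1 : z ^ k - 1 ≠ 0 := sub_ne_zero.2 fun h => hζ.pow_ne_one_of_pos_of_lt hk hkm (by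
    have := congrArg (fun y : 𝓞 M => (y : M)) h
    simpa [hz] using this)
  have hgeom : ∑ i ∈ Finset.range m, (z ^ k) ^ i = 0 := by
    have h4 := mul_geom_sum (z ^ k) m
    rw [← pow_mul, mul_comm k m, pow_mul, hzm, one_pow, sub_self] at h4
    exact (mul_eq_zero.1 h4).resolve_left hne1
  have hmv : (m : 𝓞 M) ∈ v.asIdeal := by
    have h5 : ∑ i ∈ Finset.range m, ((z ^ k) ^ i - 1) ∈ v.asIdeal := sum_mem fun i _ => by
      rw [← geom_sum_mul (z ^ k) i]
      exact Ideal.mul_mem_left _ _ h2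
    rw [Finset.sum_sub_distrib, hgeom, zero_sub, Finset.sum_const, Finset.card_range,
      nsmul_one] at h5
    exact neg_mem_iff.1 h5
  refine hv ?_
  by_contra hdvd
  obtain ⟨hℓ, hℓv, -⟩ := exists_absNorm_eq v
  obtain ⟨p, q, hpq⟩ := Nat.isCoprime_iff_coprime.2 (hℓ.coprime_iff_not_dvd.2 hdvd)
  refine v.isPrime.ne_top (v.asIdeal.eq_top_iff_one.2 ?_)
  have h6 := congrArg (Int.cast : ℤ → 𝓞 M) hpq
  push_cast at h6
  rw [← h6]
  exact add_mem (Ideal.mul_mem_left _ _ hℓv) (Ideal.mul_mem_left _ _ hmv)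

lemma summable_frobPrimes (bad : Finset ℕ) (γ : M ≃ₐ[ℚ] M) {s : ℝ} (hs : 1 < s) :
    Summable ((frobPrimes bad γ).indicator (weight' s)) := by
  refine Summable.of_nonneg_of_le (fun v => Set.indicator_nonneg (fun _ _ => weight'_nonneg _ _) _)
    (fun v => Set.indicator_le_indicator_of_subset ?_ (fun _ => weight'_nonneg _ _) v)
    (tsum_primesIn (L := M) (⊤ : Subgroup (M ≃ₐ[ℚ] M)) bad Set.univ hs).1
  exact fun w hw => ⟨⟨hw.1, le_top⟩, Set.mem_univ _⟩

include hζ in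
/-- The primes with Frobenius `γ` carry `log (1/(s-1)) + O(1)`, each weighted by the order of `γ`. -/
theorem exists_frobPrimes_bound (bad : Finset ℕ) (hbad : m.primeFactors ⊆ bad) (γ : M ≃ₐ[ℚ] M)
    (hinj : ∀ σ ∈ Subgroup.zpowers γ, hζ.autToPow ℚ σ = 1 → σ = 1) :
    ∃ B : ℝ, ∀ᶠ s in 𝓝[>] (1 : ℝ),
      |∑' v, (frobPrimes bad γ).indicator (weight' s) v - Real.log (1 / (s - 1))| ≤ B := by
  set H := Subgroup.zpowers γ
  set χ := hζ.autToPow ℚ
  set τ := χ γ with hτdef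
  set bad' := allBad M bad with hbad'
  have hgood : ∀ {v : HeightOneSpectrum (𝓞 M)}, resChar v ∉ bad' → ¬ resChar v ∣ m := fun {v} hv hd =>
    hv (Finset.mem_union_left _ (hbad (Nat.mem_primeFactors.2 ⟨(exists_absNorm_eq v).1, hd,
      NeZero.ne m⟩)))
  set h := orderOf τ with hh
  have hcardH : Nat.card H = h := by
    rw [Nat.card_zpowers, hh]
    refine Nat.dvd_antisymm (orderOf_dvd_of_pow_eq_one (hinj _ (pow_mem (Subgroup.mem_zpowers γ) _)
      (by rw [map_pow]; exact pow_orderOf_eq_one _))) (orderOf_map_dvd χ γ)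
  have hh0 : 0 < h := orderOf_pos τ
  set R : (ZMod m)ˣ → Set ℕ := fun a => {n | (n : ZMod m) = (a : ZMod m)} with hR
  have hset : ∀ σ ∈ H, primesIn H bad ∩ {v | resChar v ∈ R (χ σ)} = frobPrimes bad σ := by
    intro σ hσ
    ext v
    constructor
    · rintro ⟨⟨hv, hle⟩, hres⟩
      refine ⟨hv, ?_⟩
      have hφ : frobAt v ∈ H := hle (frobAt_smul v)
      refine inv_mul_eq_one.1 (hinj _ (mul_mem (inv_mem hφ) hσ) ?_)
      rw [map_mul, map_inv, inv_mul_eq_one]
      exact Units.ext ((autToPow_frobAt hζ (hgood hv)).trans hres)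
    · rintro ⟨hv, hσv⟩
      refine ⟨⟨hv, ?_⟩, ?_⟩
      · rw [stab_eq_zpowers_frobAt (isGood_of_notMem hv), hσv]
        exact Subgroup.zpowers_le.2 hσ
      · show (resChar v : ZMod m) = (χ σ : ZMod m)
        rw [← hσv]
        exact (autToPow_frobAt hζ (hgood hv)).symm
  have hone : frobPrimes bad (1 : M ≃ₐ[ℚ] M) = primesIn (⊥ : Subgroup (M ≃ₐ[ℚ] M)) bad := by
    ext v
    refine ⟨fun hv => ⟨hv.1, ?_⟩, fun hv => ⟨hv.1, Subgroup.mem_bot.1 (hv.2 (frobAt_smul v))⟩⟩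
    rw [stab_eq_zpowers_frobAt (isGood_of_notMem hv.1), hv.2]
    simp
  -- the fixed field
  set D : Set (HeightOneSpectrum (𝓞 (fixF H))) := {w | IsDegOne w ∧ resChar w ∉ bad'} with hD
  set X : ℝ → ℝ := fun s => primeSum D s with hX
  set Y : (ZMod m)ˣ → ℝ → ℝ := fun a s =>
    primeSum {w : HeightOneSpectrum (𝓞 (fixF H)) | w ∈ D ∧ resChar w ∈ R a} s with hY
  have hWY : ∀ σ ∈ H, ∀ s : ℝ, 1 < s →
      ∑' v, (frobPrimes bad σ).indicator (weight' s) v = (h : ℝ) * Y (χ σ) s := by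
    intro σ hσ s hs
    rw [← hset σ hσ, (tsum_primesIn H bad (R (χ σ)) hs).2, hcardH]
    congr 2
    ext w
    simp only [hD, Set.mem_ofPred_eq]
    tauto
  obtain ⟨B₀, hB₀⟩ := exists_bound_degOne (K := fixF H) bad'
  obtain ⟨B₁, hB₁⟩ := exists_count (⊥ : Subgroup (M ≃ₐ[ℚ] M)) bad
  obtain ⟨c, C, hc, hζb⟩ := exists_zeta_bounds (K := fixF H)
  have hDval : ∀ w ∈ D, ∃ k : ℕ, (resChar w : ZMod m) = ((τ ^ k : (ZMod m)ˣ) : ZMod m) := by
    intro w hw
    obtain ⟨v, hv⟩ := exists_above H w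
    have hr : resChar v ∉ bad' := by rw [← resChar_below H v, hv]; exact hw.2
    have hle := (stab_le_iff H (isGood_of_notMem hr)).2 (by rw [hv]; exact hw.1)
    obtain ⟨k, hk⟩ := (isOfFinOrder_of_finite γ).mem_powers_iff_mem_zpowers.2 (hle (frobAt_smul v))
    refine ⟨k, ?_⟩
    rw [hτdef, ← map_pow, show γ ^ k = frobAt v from hk, autToPow_frobAt hζ (hgood hr),
      ← resChar_below H v, hv]
  -- orthogonality
  have horth : ∀ (a : (ZMod m)ˣ) (s : ℝ), 1 < s → ((m.totient : ℝ) * Y a s : ℂ) =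
      ∑ ψ : DirichletCharacter ℂ m, ψ ((a : ZMod m)⁻¹) * charPrimeSum ψ D s := by
    intro a s hs
    simp only [hY, charPrimeSum, primeSum, ← tsum_mul_left, Complex.ofReal_tsum]
    rw [← Summable.tsum_finsetSum fun ψ _ => ((summable_charPrime ψ hs).indicator D).mul_left _]
    refine tsum_congr fun w => ?_
    by_cases hw : w ∈ D
    swap
    · rw [Set.indicator_of_notMem (fun h' => hw h'.1)]
      simp [Set.indicator_of_notMem hw]
    have hN : Ideal.absNorm w.asIdeal = resChar w := (isDegOne_iff w).1 hw.1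
    simp only [Set.indicator_of_mem hw, normCharPow_apply, coe_toIdl, hN, ← mul_assoc,
      ← Finset.sum_mul, DirichletCharacter.sum_char_inv_mul_char_eq ℂ a.isUnit]
    by_cases hwa : (a : ZMod m) = (resChar w : ZMod m)
    · rw [if_pos hwa, Set.indicator_of_mem (show w ∈ {w : HeightOneSpectrum (𝓞 (fixF H)) |
        w ∈ D ∧ resChar w ∈ R a} from ⟨hw, hwa.symm⟩)]
      push_cast; rfl
    · rw [if_neg hwa, Set.indicator_of_notMem (fun h' => hwa h'.2.symm)]
      simp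
  set triv := Finset.univ.filter fun ψ : DirichletCharacter ℂ m => ψ (τ : ZMod m) = 1 with htriv
  set nt := Finset.univ.filter fun ψ : DirichletCharacter ℂ m => ¬ ψ (τ : ZMod m) = 1 with hnt
  have htrivP : ∀ ψ ∈ triv, ∀ s, charPrimeSum ψ D s = (X s : ℂ) := by
    intro ψ hψ s
    simp only [hX, primeSum, Complex.ofReal_tsum, charPrimeSum]
    refine tsum_congr fun w => ?_
    by_cases hw : w ∈ D
    · obtain ⟨k, hk⟩ := hDval w hw
      rw [Set.indicator_of_mem hw, Set.indicator_of_mem hw, normCharPow_apply, coe_toIdl,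
        (isDegOne_iff w).1 hw.1, hk, Units.val_pow_eq_pow_val, map_pow,
        (Finset.mem_filter.1 hψ).2, one_pow, one_mul]
    · simp [Set.indicator_of_notMem hw]
  set n := triv.card with hn
  have hcount : (n : ℂ) * (h : ℂ) = (m.totient : ℂ) := by
    have h1 : ∑ ψ : DirichletCharacter ℂ m, ∑ k ∈ Finset.range h, ψ ((τ : ZMod m) ^ k) =
        (m.totient : ℂ) := by
      rw [Finset.sum_comm, Finset.sum_eq_single 0]
      · rw [pow_zero, DirichletCharacter.sum_characters_eq, if_pos rfl]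
      · intro k hk hk0
        rw [DirichletCharacter.sum_characters_eq, if_neg]
        intro h1
        exact pow_ne_one_of_lt_orderOf hk0 (Finset.mem_range.1 hk)
          (Units.ext (by simpa using h1))
      · exact fun h' => absurd (Finset.mem_range.2 hh0) h'
    rw [← Finset.sum_filter_add_sum_filter_not Finset.univ
      fun ψ : DirichletCharacter ℂ m => ψ (τ : ZMod m) = 1] at h1
    have h2 : ∀ ψ ∈ nt, ∑ k ∈ Finset.range h, ψ ((τ : ZMod m) ^ k) = 0 := by
      intro ψ hψ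
      simp only [map_pow]
      have h3 : ψ (τ : ZMod m) ^ h = 1 := by
        rw [← map_pow, ← Units.val_pow_eq_pow_val, hh, pow_orderOf_eq_one, Units.val_one, map_one]
      have h4 := mul_geom_sum (ψ (τ : ZMod m)) h
      rw [h3, sub_self] at h4
      exact (mul_eq_zero.1 h4).resolve_left (sub_ne_zero.2 (Finset.mem_filter.1 hψ).2)
    rw [Finset.sum_eq_zero h2, add_zero] at h1
    rw [← h1, Finset.sum_congr rfl (g := fun _ => (h : ℂ))
      fun ψ hψ => by simp [map_pow, (Finset.mem_filter.1 hψ).2]]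
    simp [hn, htriv]
  have hn0 : 0 < n := Finset.card_pos.2 ⟨1, Finset.mem_filter.2 ⟨Finset.mem_univ _,
    MulChar.one_apply τ.isUnit⟩⟩
  have hntY : ∀ (a : (ZMod m)ˣ), (∃ k : ℕ, a = τ ^ k) → ∀ s : ℝ, 1 < s →
      (((n : ℝ) * ((h : ℝ) * Y a s - X s) : ℝ) : ℂ) =
        ∑ ψ ∈ nt, ψ ((a : ZMod m)⁻¹) * charPrimeSum ψ D s := by
    intro a ⟨k, hk⟩ s hs
    have h1 := horth a s hs
    rw [← Finset.sum_filter_add_sum_filter_not Finset.univ
      fun ψ : DirichletCharacter ℂ m => ψ (τ : ZMod m) = 1,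
      Finset.sum_congr rfl (g := fun _ => (X s : ℂ)) fun ψ hψ => by
        rw [htrivP ψ hψ s, ZMod.inv_coe_unit, hk, ← inv_pow, Units.val_pow_eq_pow_val, map_pow,
          show ψ ((τ⁻¹ : (ZMod m)ˣ) : ZMod m) = 1 by
            have h2 := congrArg ψ τ.inv_mul
            rwa [map_mul, map_one, (Finset.mem_filter.1 hψ).2, mul_one] at h2,
          one_pow, one_mul], Finset.sum_const, nsmul_eq_mul, ← hn, Complex.ofReal_natCast,
      ← hcount] at h1
    push_cast
    linear_combination h1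
  -- nontrivial characters
  have hlimit : ∀ ψ ∈ nt, ∃ l : ℂ,
      Tendsto (normCharSum (fixF H) ψ) (𝓝[>] 1) (𝓝 l) := by
    intro ψ hψ
    refine exists_normCharSum_tendsto ψ fun bad'' => ?_
    obtain ⟨v, hv1, hv2, hv3⟩ := exists_prime_stab_eq_zpowers γ (bad'' ∪ m.primeFactors)
    simp only [Finset.mem_union, not_or] at hv1
    refine ⟨below H v, by rw [resChar_below]; exact hv1.1, ?_⟩
    rw [(isDegOne_iff _).1 ((stab_le_iff H hv2).1 hv3.le), resChar_below,
      ← autToPow_frobAt hζ fun hd =>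
        hv1.2 (Nat.mem_primeFactors.2 ⟨(exists_absNorm_eq v).1, hd, NeZero.ne m⟩)]
    intro h1
    obtain ⟨k, hk⟩ := exists_pow_of_mem_stab hv2 (frobAt_smul v) (frobAt_congr v)
      (MulAction.mem_stabilizer_iff.1 (hv3.symm.le (Subgroup.mem_zpowers γ)))
    refine (Finset.mem_filter.1 hψ).2 ?_
    rw [hτdef, hk, map_pow, Units.val_pow_eq_pow_val, map_pow, h1, one_pow]
  have hle : ∀ ψ ∈ nt, ∃ A : ℝ, ∀ᶠ s in 𝓝[>] (1 : ℝ),
      (charPrimeSum (E := fixF H) ψ Set.univ s).re ≤ A := fun ψ hψ => exists_re_le ψ (hlimit ψ hψ)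
  choose! A hA using hle
  set B₂ := Real.log C + B₀ with hB₂
  have hbase : ∀ᶠ s in 𝓝[>] (1 : ℝ), |X s - Real.log (1 / (s - 1))| ≤ B₀ ∧
      |(h : ℝ) * Y 1 s - X s| ≤ B₁ + B₀ ∧
      ∀ ψ : DirichletCharacter ℂ m,
        ‖charPrimeSum (E := fixF H) ψ Set.univ s - charPrimeSum ψ D s‖ ≤ B₂ := by
    filter_upwards [hB₀, hB₁, hζb, self_mem_nhdsWithin] with s h0 ⟨_, h1⟩ hz (hs : 1 < s)
    refine ⟨h0, ?_, fun ψ => (norm_charPrimeSum_sub_le ψ D hs).trans ?_⟩
    · rw [← hone, hWY 1 (one_mem _) s hs, map_one, Subgroup.card_bot, Nat.cast_one, one_mul] at h1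
      rw [abs_le] at h0 h1 ⊢
      constructor <;> linarith [h0.1, h0.2, h1.1, h1.2]
    · have h2 := primeSum_add_compl D hs
      have h3 := (primeSum_univ_bounds (K := fixF H) hs).1
      have hd : 0 < s - 1 := by linarith
      have hz0 : 0 < zetaSum (fixF H) s := (div_pos hc hd).trans_le hz.1
      have hC : 0 < C := (div_pos_iff_of_pos_right hd).1 (hz0.trans_le hz.2)
      have h4 : Real.log (zetaSum (fixF H) s) ≤ Real.log C + Real.log (1 / (s - 1)) := by
        rw [← Real.log_mul hC.ne' (by positivity), mul_one_div]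
        exact Real.log_le_log hz0 hz.2
      rw [abs_le] at h0
      linarith [h0.1]
  set K₀ : ℝ := n * (B₁ + B₀) + nt.card * B₂ with hK₀
  have hAev : ∀ᶠ s in 𝓝[>] (1 : ℝ), ∀ ψ ∈ nt,
      (charPrimeSum (E := fixF H) ψ Set.univ s).re ≤ A ψ := (eventually_all_finset nt).2 hA
  have hlow : ∀ ψ ∈ nt, ∃ B : ℝ, ∀ᶠ s in 𝓝[>] (1 : ℝ),
      B ≤ (charPrimeSum (E := fixF H) ψ Set.univ s).re := by
    intro ψ hψ
    refine ⟨-K₀ - ∑ χ' ∈ nt.erase ψ, A χ', ?_⟩
    filter_upwards [hAev, hbase, self_mem_nhdsWithin] with s hs ⟨_, h2, h3⟩ (hs1 : 1 < s)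
    have h4 := hntY 1 ⟨0, by simp⟩ s hs1
    have h5 : |(∑ χ' ∈ nt, charPrimeSum (E := fixF H) χ' Set.univ s).re| ≤ K₀ := by
      refine (Complex.abs_re_le_norm _).trans ?_
      refine (norm_le_norm_sub_add _ (∑ χ' ∈ nt, charPrimeSum χ' D s)).trans ?_
      rw [hK₀, add_comm ((n : ℝ) * _)]
      refine add_le_add ?_ (le_of_eq_of_le ?_ (mul_le_mul_of_nonneg_left h2 (Nat.cast_nonneg n)))
      · rw [← Finset.sum_sub_distrib]
        refine (norm_sum_le _ _).trans ((Finset.sum_le_card_nsmul _ _ B₂ fun χ' _ => h3 χ').trans ?_)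
        rw [nsmul_eq_mul]
      · have e : ∑ χ' ∈ nt, charPrimeSum χ' D s = (((n : ℝ) * ((h : ℝ) * Y 1 s - X s) : ℝ) : ℂ) := by
          rw [h4]
          exact Finset.sum_congr rfl fun χ' _ => by simp
        rw [e, Complex.norm_real, Real.norm_eq_abs, abs_mul, Nat.abs_cast]
    rw [Complex.re_sum, ← Finset.add_sum_erase _ _ hψ] at h5
    have h6 := Finset.sum_le_sum fun χ' (hχ' : χ' ∈ nt.erase ψ) => hs χ' (Finset.mem_of_mem_erase hχ')
    linarith [(abs_le.1 h5).1]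
  have hbd : ∀ ψ ∈ nt, ∃ B : ℝ, ∀ᶠ s in 𝓝[>] (1 : ℝ),
      ‖charPrimeSum (E := fixF H) ψ Set.univ s‖ ≤ B := fun ψ hψ =>
    exists_norm_le ψ (hlimit ψ hψ) (hlow ψ hψ)
  choose! B hB using hbd
  refine ⟨(∑ ψ ∈ nt, (B ψ + B₂)) + B₀, ?_⟩
  filter_upwards [(eventually_all_finset nt).2 hB, hbase, self_mem_nhdsWithin]
    with s hs ⟨h1, _, h3⟩ (hs1 : 1 < s)
  have h4 := hntY τ ⟨1, (pow_one τ).symm⟩ s hs1
  have h5 : |(n : ℝ) * ((h : ℝ) * Y τ s - X s)| ≤ ∑ ψ ∈ nt, (B ψ + B₂) := by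
    rw [← Real.norm_eq_abs, ← Complex.norm_real, h4]
    refine (norm_sum_le _ _).trans (Finset.sum_le_sum fun ψ hψ => ?_)
    rw [norm_mul]
    refine (mul_le_of_le_one_left (norm_nonneg _) (ψ.norm_le_one _)).trans ?_
    refine (norm_le_norm_sub_add _ (charPrimeSum (E := fixF H) ψ Set.univ s)).trans ?_
    rw [norm_sub_rev, add_comm]
    exact add_le_add (hs ψ hψ) (h3 ψ)
  have h6 : |(h : ℝ) * Y τ s - X s| ≤ ∑ ψ ∈ nt, (B ψ + B₂) := by
    refine le_trans ?_ h5
    rw [abs_mul, Nat.abs_cast]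
    exact le_mul_of_one_le_left (abs_nonneg _) (Nat.one_le_cast.2 hn0)
  rw [hWY γ (Subgroup.mem_zpowers γ) s hs1]
  rw [abs_le] at h1 h6 ⊢
  constructor <;> linarith [h1.1, h1.2, h6.1, h6.2]

end Fermat.Agent.Density
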