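import Mathlib
import Fermat.Agent.Galois.Places
import Fermat.Agent.Density.CyclotomicCrossing

/-!
Frobenius elements of the absolute Galois group of `ℚ` and Frobenius elements at the primes of a
Galois number field; the count of primes with Frobenius in a given set of automorphisms.
-/

set_option autoImplicit false
set_option maxSynthPendingDepth 3

open NumberField IsDedekindDomain IsLocalRing Filter
open scoped Pointwise Classical Topology

noncomputable section

namespace Fermat.Agent.Density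

open Fermat.Agent.Galois

/-- The rational primes all whose Frobenius elements restrict into `C`. -/
def frobInSet (S : Set GQ) : Set ℕ :=
  {ℓ | ℓ.Prime ∧ ∀ A : ValuationSubring (AlgebraicClosure ℚ), A.LiesOverPrime ℓ →
    ∀ σ : GQ, A.IsFrobeniusAt σ ℓ → σ ∈ S}

variable (L : IntermediateField ℚ (AlgebraicClosure ℚ)) [NumberField L] [IsGalois ℚ L]

/-- Restriction to `L`. -/
def resTo : GQ →* (L ≃ₐ[ℚ] L) :=
  AlgEquiv.restrictNormalHom (F := ℚ) (K₁ := AlgebraicClosure ℚ) L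

lemma resTo_apply (σ : GQ) (x : L) : ((resTo L σ x : L) : AlgebraicClosure ℚ) = σ x :=
  AlgEquiv.restrictNormal_commutes σ L x

lemma resTo_surjective : Function.Surjective (resTo L) :=
  AlgEquiv.restrictNormalHom_surjective (F := ℚ) (K₁ := L) (E := AlgebraicClosure ℚ)

/-- The inclusion of the integers. -/
def toZBarHom : 𝓞 L →+* ZBar where
  toFun x := ⟨((x : L) : AlgebraicClosure ℚ),
    (RingOfIntegers.isIntegral_coe x).map (L.val.restrictScalars ℤ)⟩
  map_one' := Subtype.ext (by simp)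
  map_mul' _ _ := Subtype.ext (by simp)
  map_zero' := Subtype.ext (by simp)
  map_add' _ _ := Subtype.ext (by simp)

lemma toZBarHom_smul (σ : GQ) (x : 𝓞 L) : toZBarHom L (resTo L σ • x) = σ • toZBarHom L x :=
  Subtype.ext (resTo_apply L σ x)

lemma toZBarHom_injective : Function.Injective (toZBarHom L) := fun _ _ h =>
  RingOfIntegers.ext (Subtype.ext (congrArg Subtype.val h :))

variable {L}

lemma centre_under {ℓ : ℕ} (hℓ : ℓ.Prime) {A : ValuationSubring (AlgebraicClosure ℚ)}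
    (hA : A.LiesOverPrime ℓ) :
    ((placeCenter A).comap (toZBarHom L)).under ℤ = Ideal.span {(ℓ : ℤ)} := by
  ext n
  rw [Ideal.under, Ideal.mem_comap, Ideal.mem_comap, eq_intCast, map_intCast,
    intCast_mem_placeCenter hℓ hA, Ideal.mem_span_singleton]

variable (L) in
/-- The prime of `L` below a place over `ℓ`. -/
def centreAt {ℓ : ℕ} (hℓ : ℓ.Prime) (A : ValuationSubring (AlgebraicClosure ℚ))
    (hA : A.LiesOverPrime ℓ) : HeightOneSpectrum (𝓞 L) where
  asIdeal := (placeCenter A).comap (toZBarHom L)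
  isPrime := by
    have : (placeCenter A).IsPrime := by
      rw [show placeCenter A = (IsLocalRing.maximalIdeal A).comap (zbarToPlace A) from rfl]
      exact Ideal.IsPrime.comap _
    exact Ideal.IsPrime.comap _
  ne_bot := by
    intro h
    have h1 := centre_under (L := L) hℓ hA
    rw [h] at h1
    have h2 : (ℓ : ℤ) ∈ (⊥ : Ideal (𝓞 L)).under ℤ := h1.symm ▸ Ideal.mem_span_singleton_self _
    rw [Ideal.under, Ideal.mem_comap, eq_intCast, Ideal.mem_bot, Int.cast_natCast,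
      Nat.cast_eq_zero] at h2
    exact hℓ.ne_zero h2

lemma resChar_centreAt {ℓ : ℕ} (hℓ : ℓ.Prime) (A : ValuationSubring (AlgebraicClosure ℚ))
    (hA : A.LiesOverPrime ℓ) : resChar (centreAt L hℓ A hA) = ℓ := by
  refine resChar_eq_of_mem _ hℓ ?_
  have h1 := centre_under (L := L) hℓ hA
  have h2 : (ℓ : ℤ) ∈ ((placeCenter A).comap (toZBarHom L)).under ℤ := by
    rw [h1]; exact Ideal.mem_span_singleton_self _
  rwa [Ideal.under, Ideal.mem_comap, eq_intCast, Int.cast_natCast] at h2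

lemma mem_centreAt {ℓ : ℕ} (hℓ : ℓ.Prime) (A : ValuationSubring (AlgebraicClosure ℚ))
    (hA : A.LiesOverPrime ℓ) (x : 𝓞 L) :
    x ∈ (centreAt L hℓ A hA).asIdeal ↔ toZBarHom L x ∈ placeCenter A := Iff.rfl

/-- A Frobenius element restricts to the Frobenius at the prime below. -/
lemma resTo_eq_frobAt {ℓ : ℕ} (hℓ : ℓ.Prime) (A : ValuationSubring (AlgebraicClosure ℚ))
    (hA : A.LiesOverPrime ℓ) {σ : GQ} (hσ : A.IsFrobeniusAt σ ℓ)
    (hgood : IsGood (centreAt L hℓ A hA)) :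
    resTo L σ = frobAt (centreAt L hℓ A hA) := by
  obtain ⟨hdec, hfr⟩ := hσ
  set v := centreAt L hℓ A hA
  have hv : resChar v = ℓ := resChar_centreAt hℓ A hA
  have hσv : ∀ x : 𝓞 L, resTo L σ • x - x ^ ℓ ∈ v.asIdeal := by
    intro x
    rw [mem_centreAt, map_sub, map_pow, toZBarHom_smul, ← residue_zbar_eq_zero_iff, map_sub,
      map_sub, map_pow, map_pow, sub_eq_zero, ← hfr]
    rfl
  refine eq_of_congr hgood (frobAt_smul v) fun x => ?_
  have := sub_mem (hσv x) (hv ▸ frobAt_congr v x)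
  rwa [sub_sub_sub_cancel_right] at this

/-- Every prime of `L` is the centre of a place. -/
lemma exists_centreAt_eq (v : HeightOneSpectrum (𝓞 L)) :
    ∃ (hℓ : (resChar v).Prime) (A : ValuationSubring (AlgebraicClosure ℚ))
      (hA : A.LiesOverPrime (resChar v)), centreAt L hℓ A hA = v := by
  obtain ⟨hℓ, hℓv, -⟩ := exists_absNorm_eq v
  set ℓ := resChar v
  obtain ⟨A₀, hA₀⟩ := exists_liesOverPrime hℓ
  have hv : v.asIdeal.under ℤ = Ideal.span {(ℓ : ℤ)} := by
    have hmax : (Ideal.span {(ℓ : ℤ)}).IsMaximal :=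
      PrincipalIdealRing.isMaximal_of_irreducible (Nat.prime_iff_prime_int.1 hℓ).irreducible
    have : v.asIdeal.IsPrime := v.isPrime
    refine (hmax.eq_of_le (Ideal.IsPrime.under ℤ v.asIdeal).ne_top ?_).symm
    rw [Ideal.span_singleton_le_iff_mem, Ideal.under, Ideal.mem_comap, eq_intCast, Int.cast_natCast]
    exact hℓv
  have : v.asIdeal.IsPrime := v.isPrime
  have : (centreAt L hℓ A₀ hA₀).asIdeal.IsPrime := (centreAt L hℓ A₀ hA₀).isPrime
  obtain ⟨τ₀, hτ₀⟩ := Algebra.IsInvariant.exists_smul_of_under_eq ℤ (𝓞 L) (L ≃ₐ[ℚ] L)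
    (centreAt L hℓ A₀ hA₀).asIdeal v.asIdeal ((centre_under hℓ hA₀).trans hv.symm)
  obtain ⟨τ, hτ⟩ := resTo_surjective L τ₀
  have hA : (τ • A₀).LiesOverPrime ℓ := by
    show (ℓ : AlgebraicClosure ℚ) ∈ (τ • A₀).nonunits
    rw [← map_natCast τ ℓ]
    exact (mem_nonunits_smul_iff τ A₀ _).2 hA₀
  refine ⟨hℓ, τ • A₀, hA, HeightOneSpectrum.ext ?_⟩
  ext x
  rw [mem_centreAt, hτ₀, Ideal.mem_pointwise_smul_iff_inv_smul_mem, mem_centreAt, ← hτ, ← map_inv,
    toZBarHom_smul, mem_placeCenter_iff, mem_placeCenter_iff, ← mem_nonunits_smul_iff τ A₀]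
  rw [show ((τ⁻¹ • toZBarHom L x : ZBar) : AlgebraicClosure ℚ) =
    τ⁻¹ (toZBarHom L x : AlgebraicClosure ℚ) from rfl]
  simp

/-- Membership of the Frobenius class in a set defined by restriction to `L`. -/
lemma frobAt_mem_iff (bad : Finset ℕ) (v : HeightOneSpectrum (𝓞 L))
    (hv : resChar v ∉ allBad L bad) {C : Set (L ≃ₐ[ℚ] L)}
    (hC : ∀ g ∈ C, ∀ τ, τ * g * τ⁻¹ ∈ C) :
    frobAt v ∈ C ↔ resChar v ∈ frobInSet (resTo L ⁻¹' C) := by
  obtain ⟨hℓ, A, hA, hvA⟩ := exists_centreAt_eq v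
  constructor
  · intro hmem
    refine ⟨hℓ, fun A' hA' σ hσ => ?_⟩
    set v' := centreAt L hℓ A' hA'
    have hgood' : IsGood v' := isGood_of_notMem (bad := bad) (by rw [resChar_centreAt]; exact hv)
    show resTo L σ ∈ C
    rw [resTo_eq_frobAt hℓ A' hA' hσ hgood']
    -- the two primes are conjugate
    have : v.asIdeal.IsPrime := v.isPrime
    have : v'.asIdeal.IsPrime := v'.isPrime
    obtain ⟨τ, hτ⟩ := Algebra.IsInvariant.exists_smul_of_under_eq ℤ (𝓞 L) (L ≃ₐ[ℚ] L)
      v.asIdeal v'.asIdeal (by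
        conv_lhs => rw [← hvA]
        exact (centre_under hℓ hA).trans (centre_under hℓ hA').symm)
    have hfix : (τ * frobAt v * τ⁻¹) • v'.asIdeal = v'.asIdeal := by
      rw [hτ, mul_smul, mul_smul, inv_smul_smul, frobAt_smul]
    rw [show frobAt v' = τ * frobAt v * τ⁻¹ from eq_of_congr hgood' hfix fun x => ?_]
    · exact hC _ hmem τ
    have h1 := frobAt_congr v' x
    have h2 := Ideal.smul_mem_pointwise_smul τ _ _ (frobAt_congr v (τ⁻¹ • x))
    rw [← hτ, smul_sub, smul_pow', smul_inv_smul, ← mul_smul, ← mul_smul] at h2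
    rw [show resChar v' = resChar v from resChar_centreAt hℓ A' hA'] at h1
    have := sub_mem h1 h2
    rwa [sub_sub_sub_cancel_right] at this
  · rintro ⟨-, hall⟩
    obtain ⟨σ, hσ⟩ := exists_isFrobeniusAt hℓ hA
    have h := hall A hA σ hσ
    rwa [Set.mem_preimage, resTo_eq_frobAt hℓ A hA hσ
      (by rw [hvA]; exact isGood_of_notMem hv), hvA] at h

/-- A prime in every residue characteristic of the fixed field of the whole group. -/
lemma tsum_fixTop (P : Set ℕ) (hP : ∀ n ∈ P, n.Prime) (s : ℝ) :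
    primeSum {w : HeightOneSpectrum (𝓞 (fixF (⊤ : Subgroup (L ≃ₐ[ℚ] L)))) |
      IsDegOne w ∧ resChar w ∈ P} s = ∑' n : ℕ, P.indicator (fun n : ℕ => (n : ℝ) ^ (-s)) n := by
  set E := fixF (⊤ : Subgroup (L ≃ₐ[ℚ] L))
  have hE : Module.finrank ℚ E = 1 := by
    have : E = ⊥ := (IsGalois.tfae.out 0 1).1 (inferInstance : IsGalois ℚ L)
    rw [this, IntermediateField.finrank_bot]
  have hinj : Function.Injective (resChar (K := E)) := by
    intro a b hab
    by_contra hne
    have := card_le_finrank_of_resChar (K := E) {a, b} (ℓ := resChar a) (by simp [hab])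
    rw [Finset.card_pair hne, hE] at this
    omega
  have hdeg : ∀ w : HeightOneSpectrum (𝓞 E), IsDegOne w := by
    intro w
    obtain ⟨hp, hmem, f, hf, hN⟩ := exists_absNorm_eq w
    have h2 : Ideal.absNorm w.asIdeal ∣ resChar w := by
      have h := map_dvd Ideal.absNorm
        (Ideal.dvd_iff_le.2 ((Ideal.span_singleton_le_iff_mem _).2 hmem))
      rw [Ideal.absNorm_span_singleton, ← map_natCast (algebraMap ℤ (𝓞 E)),
        Algebra.norm_algebraMap, RingOfIntegers.rank, hE, pow_one, Int.natAbs_natCast] at h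
      exact h
    rcases (Nat.dvd_prime hp).1 h2 with h | h
    · exact absurd (Ideal.absNorm_eq_one_iff.1 h) w.isPrime.ne_top
    · exact (isDegOne_iff w).2 h
  rw [primeSum, ← hinj.tsum_eq (f := P.indicator fun n : ℕ => (n : ℝ) ^ (-s))]
  · refine tsum_congr fun w => ?_
    by_cases hw : resChar w ∈ P
    · rw [Set.indicator_of_mem hw, Set.indicator_of_mem (show w ∈ {w : HeightOneSpectrum (𝓞 E) |
        IsDegOne w ∧ resChar w ∈ P} from ⟨hdeg w, hw⟩), normPow_apply, coe_toIdl,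
        (isDegOne_iff w).1 (hdeg w)]
    · rw [Set.indicator_of_notMem hw, Set.indicator_of_notMem fun h => hw h.2]
  · intro n hn
    have hnp := hP n (Set.mem_of_indicator_ne_zero hn)
    obtain ⟨Q, hQ, hQle⟩ := Ideal.exists_le_maximal (Ideal.span {(n : 𝓞 E)}) (fun h => by
      have := congrArg Ideal.absNorm h
      rw [Ideal.absNorm_span_singleton, Ideal.absNorm_top, ← map_natCast (algebraMap ℤ (𝓞 E)),
        Algebra.norm_algebraMap, RingOfIntegers.rank, hE, pow_one, Int.natAbs_natCast] at this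
      exact hnp.ne_one this)
    have hmem : (n : 𝓞 E) ∈ Q := (Ideal.span_singleton_le_iff_mem _).1 hQle
    refine ⟨⟨Q, hQ.isPrime, fun h => ?_⟩, resChar_eq_of_mem _ hnp hmem⟩
    rw [h, Ideal.mem_bot, Nat.cast_eq_zero] at hmem
    exact hnp.ne_zero hmem

/-- Counting the primes with Frobenius in a conjugation stable set, element by element. -/
theorem sum_frobPrimes (bad : Finset ℕ) {C : Set (L ≃ₐ[ℚ] L)}
    (hC : ∀ g ∈ C, ∀ τ, τ * g * τ⁻¹ ∈ C) {s : ℝ} (hs : 1 < s) :
    ∑ γ ∈ C.toFinset, ∑' v, (frobPrimes bad γ).indicator (weight' s) v =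
      (Nat.card (L ≃ₐ[ℚ] L) : ℝ) * ∑' n : ℕ,
        (frobInSet (resTo L ⁻¹' C) \ ↑(allBad L bad)).indicator (fun n : ℕ => (n : ℝ) ^ (-s)) n := by
  set R := frobInSet (resTo L ⁻¹' C)
  rw [← tsum_fixTop (L := L) _ (fun n hn => hn.1.1),
    ← Summable.tsum_finsetSum fun γ _ => summable_frobPrimes bad γ hs]
  have h := (tsum_primesIn (⊤ : Subgroup (L ≃ₐ[ℚ] L)) bad R hs).2
  rw [Subgroup.card_top] at h
  rw [show {w : HeightOneSpectrum (𝓞 (fixF (⊤ : Subgroup (L ≃ₐ[ℚ] L)))) |
      IsDegOne w ∧ resChar w ∈ R \ ↑(allBad L bad)} =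
    {w : HeightOneSpectrum (𝓞 (fixF (⊤ : Subgroup (L ≃ₐ[ℚ] L)))) |
      IsDegOne w ∧ resChar w ∉ allBad L bad ∧ resChar w ∈ R} from Set.ext fun w => by
        simp [and_comm], ← h]
  refine tsum_congr fun v => ?_
  by_cases hv : resChar v ∈ allBad L bad
  · rw [Set.indicator_of_notMem (fun h' => h'.1.1 hv),
      Finset.sum_eq_zero fun γ _ => Set.indicator_of_notMem (fun h' => h'.1 hv) _]
  by_cases hmem : frobAt v ∈ C
  · have hin : v ∈ primesIn (⊤ : Subgroup (L ≃ₐ[ℚ] L)) bad ∩ {v | resChar v ∈ R} :=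
      ⟨⟨hv, le_top⟩, (frobAt_mem_iff bad v hv hC).1 hmem⟩
    rw [Set.indicator_of_mem hin,
      Finset.sum_eq_single (frobAt v) (fun γ _ hne => Set.indicator_of_notMem
        (fun h' => hne h'.2.symm) _) (fun h' => absurd (Set.mem_toFinset.2 hmem) h'),
      Set.indicator_of_mem (show v ∈ frobPrimes bad (frobAt v) from ⟨hv, rfl⟩)]
  · have hout : v ∉ primesIn (⊤ : Subgroup (L ≃ₐ[ℚ] L)) bad ∩ {v | resChar v ∈ R} :=
      fun h' => hmem ((frobAt_mem_iff bad v hv hC).2 h'.2)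
    rw [Set.indicator_of_notMem hout,
      Finset.sum_eq_zero fun γ hγ => Set.indicator_of_notMem (show v ∉ frobPrimes bad γ from
        fun h' => hmem (h'.2.symm ▸ Set.mem_toFinset.1 hγ)) _]

/-- All the primes together. -/
theorem exists_sum_frobPrimes_univ (bad : Finset ℕ) : ∃ B : ℝ, ∀ᶠ s in 𝓝[>] (1 : ℝ),
    |∑ γ, ∑' v, (frobPrimes (M := L) bad γ).indicator (weight' s) v -
      (Nat.card (L ≃ₐ[ℚ] L) : ℝ) * Real.log (1 / (s - 1))| ≤ B := by
  obtain ⟨B, hB⟩ := exists_count (⊤ : Subgroup (L ≃ₐ[ℚ] L)) bad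
  refine ⟨B, ?_⟩
  filter_upwards [hB, self_mem_nhdsWithin] with s ⟨_, h⟩ (hs : 1 < s)
  rw [Subgroup.card_top] at h
  refine le_of_eq_of_le ?_ h
  congr 2
  rw [← Summable.tsum_finsetSum fun γ _ => summable_frobPrimes bad γ hs]
  refine tsum_congr fun v => ?_
  by_cases hv : resChar v ∈ allBad L bad
  · rw [Set.indicator_of_notMem (fun h' => h'.1 hv),
      Finset.sum_eq_zero fun γ _ => Set.indicator_of_notMem (fun h' => h'.1 hv) _]
  · have hin : v ∈ primesIn (⊤ : Subgroup (L ≃ₐ[ℚ] L)) bad := ⟨hv, le_top⟩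
    rw [Set.indicator_of_mem hin,
      Finset.sum_eq_single (frobAt v) (fun γ _ hne => Set.indicator_of_notMem
        (fun h' => hne h'.2.symm) _) (fun h' => absurd (Finset.mem_univ _) h'),
      Set.indicator_of_mem (show v ∈ frobPrimes bad (frobAt v) from ⟨hv, rfl⟩)]

end Fermat.Agent.Density
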