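import Mathlib
import Fermat.Agent.Density.FrobeniusLink

/-!
Chebotarev's density theorem for Galois number fields over `ℚ`, for the analytic density.
-/

set_option autoImplicit false
set_option maxSynthPendingDepth 3

open NumberField IsDedekindDomain Filter IntermediateField
open scoped Classical Topology

noncomputable section

namespace Fermat.Agent.Density

open Fermat.Agent.Galois

/-- `∑_{n ∈ P} n^{-s}`. -/
def natSum (P : Set ℕ) (s : ℝ) : ℝ := ∑' n : ℕ, P.indicator (fun n : ℕ => (n : ℝ) ^ (-s)) n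

lemma summable_natSum (P : Set ℕ) {s : ℝ} (hs : 1 < s) :
    Summable (P.indicator fun n : ℕ => (n : ℝ) ^ (-s)) :=
  (Real.summable_nat_rpow.2 (by linarith)).indicator _

lemma natSum_nonneg (P : Set ℕ) (s : ℝ) : 0 ≤ natSum P s :=
  tsum_nonneg fun _ => Set.indicator_nonneg (fun n _ => Real.rpow_nonneg (Nat.cast_nonneg n) _) _

lemma natSum_le_add_card {P Q : Set ℕ} (T : Finset ℕ) (h : P ⊆ Q ∪ ↑T) {s : ℝ} (hs : 1 < s) :
    natSum P s ≤ natSum Q s + T.card := by
  have hT : natSum (T : Set ℕ) s ≤ T.card := by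
    rw [natSum, tsum_eq_sum (s := T) fun n hn => Set.indicator_of_notMem (by simpa using hn) _]
    refine (Finset.sum_le_card_nsmul _ _ 1 fun n hn => ?_).trans (by simp)
    rw [Set.indicator_of_mem (Finset.mem_coe.2 hn)]
    rcases Nat.eq_zero_or_pos n with rfl | hn0
    · simp [Real.zero_rpow (by linarith : -s ≠ 0)]
    · exact Real.rpow_le_one_of_one_le_of_nonpos (Nat.one_le_cast.2 hn0) (by linarith)
  refine le_trans ?_ (add_le_add_right hT _)
  rw [natSum, natSum, natSum, ← (summable_natSum Q hs).tsum_add (summable_natSum _ hs)]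
  refine Summable.tsum_le_tsum (fun n => ?_) (summable_natSum P hs)
    ((summable_natSum Q hs).add (summable_natSum _ hs))
  by_cases hn : n ∈ P
  · rw [Set.indicator_of_mem hn]
    rcases h hn with h' | h'
    · rw [Set.indicator_of_mem h']
      exact le_add_of_nonneg_right (Set.indicator_nonneg (fun _ _ => by positivity) _)
    · rw [Set.indicator_of_mem h']
      exact le_add_of_nonneg_left (Set.indicator_nonneg (fun _ _ => by positivity) _)
  · rw [Set.indicator_of_notMem hn]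
    exact add_nonneg (Set.indicator_nonneg (fun _ _ => by positivity) _)
      (Set.indicator_nonneg (fun _ _ => by positivity) _)

lemma tendsto_log_inv_sub_one :
    Tendsto (fun s : ℝ => Real.log (1 / (s - 1))) (𝓝[>] 1) atTop := by
  refine Real.tendsto_log_atTop.comp ?_
  simp only [one_div]
  refine tendsto_inv_nhdsGT_zero.comp ?_
  refine tendsto_nhdsWithin_of_tendsto_nhds_of_eventually_within _ ?_ ?_
  · have : Continuous fun s : ℝ => s - 1 := by fun_prop
    simpa using (this.tendsto 1).mono_left nhdsWithin_le_nhds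
  · filter_upwards [self_mem_nhdsWithin] with s (hs : 1 < s)
    exact sub_pos.2 hs

/-- An element of a group of order `n` whose order is not a multiple of `h` lies in a small
torsion part, when a large power of `h` divides `n`. -/
lemma exists_small_torsion {h N o n : ℕ} (hh : h ≠ 0) (hn : n ≠ 0) (ho : o ∣ n)
    (hN : h ^ N ∣ n) (hho : ¬ h ∣ o) : ∃ p ∈ h.primeFactors, p ^ N * o ∣ n := by
  obtain ⟨q, rfl⟩ := ho
  have ho0 : o ≠ 0 := left_ne_zero_of_mul hn
  have hq0 : q ≠ 0 := right_ne_zero_of_mul hn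
  obtain ⟨p, hp⟩ : ∃ p, o.factorization p < h.factorization p := by
    by_contra hle
    push Not at hle
    exact hho ((Nat.factorization_le_iff_dvd hh ho0).1 fun p => hle p)
  have hp' : p ∈ h.primeFactors := by
    rw [← Nat.support_factorization, Finsupp.mem_support_iff]; omega
  refine ⟨p, hp', ?_⟩
  rw [mul_comm o q]
  refine mul_dvd_mul_right ?_ o
  have hprime := Nat.prime_of_mem_primeFactors hp'
  rw [hprime.pow_dvd_iff_le_factorization hq0]
  have h1 := (Nat.factorization_le_iff_dvd (pow_ne_zero N hh) (mul_ne_zero ho0 hq0)).2 hN p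
  rw [Nat.factorization_pow, Nat.factorization_mul ho0 hq0, Finsupp.smul_apply, smul_eq_mul,
    Finsupp.add_apply] at h1
  rcases Nat.eq_zero_or_pos N with rfl | hN0
  · exact Nat.zero_le _
  have h2 := Nat.mul_le_mul_left N (show o.factorization p + 1 ≤ h.factorization p from hp)
  rw [mul_add, mul_one] at h2
  have h3 := Nat.le_mul_of_pos_left (o.factorization p) hN0
  omega

/-- In a finite cyclic group, few elements have order not a multiple of `h`. -/
lemma card_not_dvd_orderOf_le {U : Type*} [CommGroup U] [Fintype U] [IsCyclic U] (h N : ℕ)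
    (hh : h ≠ 0) (hN : h ^ N ∣ Fintype.card U) :
    ((Finset.univ.filter fun x : U => ¬ h ∣ orderOf x).card : ℝ) ≤
      h * ((Fintype.card U : ℝ) / 2 ^ N) := by
  set n := Fintype.card U
  have hn : 0 < n := Fintype.card_pos
  set T : ℕ → Finset U := fun p => Finset.univ.filter fun x : U => x ^ (n / p ^ N) = 1
  have hsub : (Finset.univ.filter fun x : U => ¬ h ∣ orderOf x) ⊆ h.primeFactors.biUnion T := by
    intro x hx
    obtain ⟨p, hp, hdvd⟩ := exists_small_torsion hh hn.ne' orderOf_dvd_card hN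
      (Finset.mem_filter.1 hx).2
    refine Finset.mem_biUnion.2 ⟨p, hp, Finset.mem_filter.2 ⟨Finset.mem_univ _, ?_⟩⟩
    exact orderOf_dvd_iff_pow_eq_one.1 (Nat.dvd_div_of_mul_dvd hdvd)
  have hT : ∀ p ∈ h.primeFactors, ((T p).card : ℝ) ≤ (n : ℝ) / 2 ^ N := by
    intro p hp
    have hpN : p ^ N ∣ n := (pow_dvd_pow_of_dvd (Nat.dvd_of_mem_primeFactors hp) N).trans hN
    have hp2 := (Nat.prime_of_mem_primeFactors hp).two_le
    have h1 := IsCyclic.card_pow_eq_one_le (α := U) (n := n / p ^ N)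
      (Nat.div_pos (Nat.le_of_dvd hn hpN) (by positivity))
    refine (Nat.cast_le.2 h1).trans ((Nat.cast_div_le).trans ?_)
    push_cast
    refine div_le_div_of_nonneg_left (Nat.cast_nonneg _) (by positivity) ?_
    exact pow_le_pow_left₀ zero_le_two (by exact_mod_cast hp2) N
  refine (Nat.cast_le.2 ((Finset.card_le_card hsub).trans Finset.card_biUnion_le)).trans ?_
  push_cast
  refine (Finset.sum_le_card_nsmul _ _ _ hT).trans ?_
  rw [nsmul_eq_mul]
  refine mul_le_mul_of_nonneg_right ?_ (by positivity)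
  rw [Nat.cast_le]
  refine le_trans (Finset.card_le_card fun p hp => ?_) (le_of_eq (Nat.card_Icc 1 h))
  exact Finset.mem_Icc.2 ⟨(Nat.prime_of_mem_primeFactors hp).one_lt.le,
    Nat.le_of_dvd (Nat.pos_of_ne_zero hh) (Nat.dvd_of_mem_primeFactors hp)⟩

variable (F : IntermediateField ℚ (AlgebraicClosure ℚ)) [NumberField F] [IsGalois ℚ F]

/-- The lower bound. -/
theorem eventually_natSum_ge (bad : Finset ℕ) {C : Set (F ≃ₐ[ℚ] F)}
    (hC : ∀ g ∈ C, ∀ τ, τ * g * τ⁻¹ ∈ C) {ε : ℝ} (hε : 0 < ε) :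
    ∀ᶠ s in 𝓝[>] (1 : ℝ),
      ((Nat.card C : ℝ) / Nat.card (F ≃ₐ[ℚ] F) - ε) * Real.log (1 / (s - 1)) ≤
        natSum (frobInSet (resTo F ⁻¹' C) \ ↑bad) s := by
  set h := Nat.card (F ≃ₐ[ℚ] F) with hhdef
  have hh0 : 0 < h := Nat.card_pos
  obtain ⟨N, hN⟩ := exists_pow_lt_of_lt_one (show (0 : ℝ) < ε / (2 * (h : ℝ) ^ 2) by positivity)
    (show (1 / 2 : ℝ) < 1 by norm_num)
  obtain ⟨m, hm, -, hmod⟩ := Nat.exists_prime_gt_modEq_one 0 (pow_ne_zero N hh0.ne')
  have : Fact m.Prime := ⟨hm⟩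
  have : NeZero m := ⟨hm.ne_zero⟩
  obtain ⟨ζ, hζ⟩ := HasEnoughRootsOfUnity.exists_primitiveRoot (AlgebraicClosure ℚ) m
  set Z : IntermediateField ℚ (AlgebraicClosure ℚ) := ℚ⟮ζ⟯
  have hcyc : IsCyclotomicExtension {m} ℚ Z := hζ.intermediateField_adjoin_isCyclotomicExtension ℚ
  have : FiniteDimensional ℚ Z := IsCyclotomicExtension.finiteDimensional {m} ℚ Z
  have : IsGalois ℚ Z := IsCyclotomicExtension.isGalois {m} ℚ Z
  set M : IntermediateField ℚ (AlgebraicClosure ℚ) := F ⊔ Z
  have : FiniteDimensional ℚ F := inferInstance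
  have : FiniteDimensional ℚ M := IntermediateField.finiteDimensional_sup F Z
  have : NumberField M := { }
  have hnF : Normal ℚ F := IsGalois.to_normal
  have hnZ : Normal ℚ Z := IsGalois.to_normal
  have : Normal ℚ M := @IntermediateField.normal_sup ℚ (AlgebraicClosure ℚ) _ _ _ F Z
    (by convert hnF using 1; exact Subsingleton.elim _ _) (by convert hnZ using 1; exact Subsingleton.elim _ _)
  have : IsGalois ℚ M := ⟨⟩
  have hFM : F ≤ M := le_sup_left
  have hζM : ζ ∈ M := (le_sup_right : Z ≤ M) (IntermediateField.mem_adjoin_simple_self ℚ ζ)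
  set ζM : M := ⟨ζ, hζM⟩
  have hprim : IsPrimitiveRoot ζM m :=
    IsPrimitiveRoot.of_map_of_injective (f := algebraMap M (AlgebraicClosure ℚ)) hζ
      (algebraMap M (AlgebraicClosure ℚ)).injective
  set χ := hprim.autToPow ℚ
  -- restriction from `M` to `F`
  set lift := Function.surjInv (resTo_surjective M)
  have hlift : ∀ γ, resTo M (lift γ) = γ := Function.surjInv_eq (resTo_surjective M)
  have hagree : ∀ σ σ' : GQ, resTo M σ = resTo M σ' → resTo F σ = resTo F σ' := by
    intro σ σ' hσ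
    refine AlgEquiv.ext fun x => Subtype.ext ?_
    rw [resTo_apply, resTo_apply]
    have h1 := resTo_apply M σ ⟨x, hFM x.2⟩
    rw [hσ, resTo_apply] at h1
    exact h1.symm
  let π : (M ≃ₐ[ℚ] M) →* (F ≃ₐ[ℚ] F) :=
    { toFun := fun γ => resTo F (lift γ)
      map_one' := (hagree _ 1 (by rw [hlift, map_one])).trans (map_one _)
      map_mul' := fun a b => (hagree _ (lift a * lift b)
        (by rw [map_mul, hlift, hlift, hlift])).trans (map_mul _ _ _) }
  have hπ : ∀ σ, π (resTo M σ) = resTo F σ := fun σ => hagree _ _ (hlift _)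
  have hjoint : ∀ γ, π γ = 1 → χ γ = 1 → γ = 1 := by
    intro γ hπγ hχγ
    obtain ⟨σ, rfl⟩ := resTo_surjective M γ
    rw [hπ] at hπγ
    have hσF : ∀ x ∈ F, σ x = x := fun x hx => by
      have := resTo_apply F σ ⟨x, hx⟩
      rw [hπγ] at this
      exact this.symm
    have hσζ : σ ζ = ζ := by
      have h1 := hprim.autToPow_spec ℚ (resTo M σ)
      rw [show hprim.autToPow ℚ (resTo M σ) = 1 from hχγ, Units.val_one, ZMod.val_one,
        pow_one] at h1
      have h2 := resTo_apply M σ ζM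
      rw [← h1] at h2
      exact h2.symm
    have hMle : M ≤ IntermediateField.fixedField (Subgroup.zpowers σ) := by
      refine sup_le (fun x hx => ?_) ?_
      · exact fun τ => (Subgroup.zpowers_le.2
          (show σ ∈ MulAction.stabilizer GQ x from hσF x hx)) τ.2
      · rw [IntermediateField.adjoin_simple_le_iff]
        exact fun τ => (Subgroup.zpowers_le.2
          (show σ ∈ MulAction.stabilizer GQ ζ from hσζ)) τ.2
    refine AlgEquiv.ext fun x => Subtype.ext ?_
    rw [resTo_apply]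
    exact hMle x.2 ⟨σ, Subgroup.mem_zpowers σ⟩
  have hsurj : Function.Surjective π := fun g => by
    obtain ⟨σ, rfl⟩ := resTo_surjective F g
    exact ⟨_, hπ σ⟩
  set Ct : Set (M ≃ₐ[ℚ] M) := π ⁻¹' C with hCt
  have hCt' : ∀ g ∈ Ct, ∀ τ, τ * g * τ⁻¹ ∈ Ct := fun g hg τ => by
    show π (τ * g * τ⁻¹) ∈ C
    rw [map_mul, map_mul, map_inv]; exact hC _ hg _
  have hpre : resTo M ⁻¹' Ct = resTo F ⁻¹' C := by
    ext σ; simp only [hCt, Set.mem_preimage, hπ]
  -- cardinalities
  set G := Nat.card (M ≃ₐ[ℚ] M) with hG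
  have hG0 : (0 : ℝ) < G := Nat.cast_pos.2 Nat.card_pos
  have hcardCt : (Nat.card Ct : ℝ) = (Nat.card C : ℝ) / h * G := by
    have hk : ∀ g, Nat.card {γ // π γ = g} = Nat.card π.ker := by
      intro g
      obtain ⟨γ₀, rfl⟩ := hsurj g
      exact Nat.card_congr
        { toFun := fun γ => ⟨γ₀⁻¹ * γ.1, by rw [MonoidHom.mem_ker, map_mul, map_inv, γ.2, inv_mul_cancel]⟩
          invFun := fun k => ⟨γ₀ * k.1, by rw [map_mul, k.2, mul_one]⟩
          left_inv := fun γ => Subtype.ext (mul_inv_cancel_left _ _)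
          right_inv := fun k => Subtype.ext (inv_mul_cancel_left _ _) }
    have h1 : Nat.card Ct = Nat.card C * Nat.card π.ker := by
      rw [show Nat.card Ct = Nat.card (Σ g : C, {γ // π γ = g.1}) from Nat.card_congr
        { toFun := fun γ => ⟨⟨π γ.1, γ.2⟩, γ.1, rfl⟩
          invFun := fun p => ⟨p.2.1, show π p.2.1 ∈ C by rw [p.2.2]; exact p.1.2⟩
          left_inv := fun γ => rfl
          right_inv := fun p => by obtain ⟨⟨g, hg⟩, γ, rfl : π γ = g⟩ := p; rfl },
        Nat.card_sigma, Finset.sum_congr rfl fun g _ => hk g.1, Finset.sum_const, Finset.card_univ,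
        smul_eq_mul, Nat.card_eq_fintype_card (α := C)]
    have h2 : G = h * Nat.card π.ker := by
      rw [hG, hhdef, ← Nat.card_congr (Equiv.sigmaFiberEquiv π), Nat.card_sigma,
        Finset.sum_congr rfl fun g _ => hk g, Finset.sum_const, Finset.card_univ, smul_eq_mul,
        ← Nat.card_eq_fintype_card]
    rw [h1, h2]
    push_cast
    field_simp
  have hm1 : ((m - 1 : ℕ) : ℝ) ≤ G := by
    rw [Nat.cast_le, hG, IsGalois.card_aut_eq_finrank]
    refine le_of_eq_of_le ?_ (IntermediateField.finrank_le_of_le_right (le_sup_right : Z ≤ M))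
    rw [IsCyclotomicExtension.finrank (K := ℚ) Z
      (Polynomial.cyclotomic.irreducible_rat hm.pos), Nat.totient_prime hm]
  -- the exceptional elements
  set bG := Finset.univ.filter fun γ : M ≃ₐ[ℚ] M => ¬ h ∣ orderOf (χ γ) with hbG
  have hbad : (bG.card : ℝ) ≤ ε / 2 * G := by
    have h1 : bG.card ≤ h * (Finset.univ.filter fun x : (ZMod m)ˣ => ¬ h ∣ orderOf x).card := by
      rw [hhdef, Nat.card_eq_fintype_card, ← Finset.card_univ, ← Finset.card_product]
      refine Finset.card_le_card_of_injOn (fun γ => (π γ, χ γ)) (fun γ hγ => ?_) ?_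
      · simp only [Finset.mem_coe, Finset.mem_product, Finset.mem_univ, true_and,
          Finset.mem_filter]
        simpa [hbG, hhdef, Nat.card_eq_fintype_card] using hγ
      · intro a _ b _ hab
        simp only [Prod.mk.injEq] at hab
        exact inv_mul_eq_one.1 (hjoint (a⁻¹ * b) (by rw [map_mul, map_inv, hab.1, inv_mul_cancel])
          (by rw [map_mul, map_inv, hab.2, inv_mul_cancel]))
    have h2 := card_not_dvd_orderOf_le (U := (ZMod m)ˣ) h N hh0.ne' (by
      rw [ZMod.card_units]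
      exact (Nat.modEq_iff_dvd' hm.one_lt.le).1 hmod.symm)
    rw [ZMod.card_units] at h2
    have h3 : (bG.card : ℝ) ≤ h * (h * (((m - 1 : ℕ) : ℝ) / 2 ^ N)) :=
      (Nat.cast_le.2 h1).trans (by push_cast; exact mul_le_mul_of_nonneg_left h2 (Nat.cast_nonneg _))
    rw [one_div, inv_pow, lt_div_iff₀ (by positivity)] at hN
    refine h3.trans ?_
    calc (h : ℝ) * (h * (((m - 1 : ℕ) : ℝ) / 2 ^ N))
        = ((2 ^ N : ℝ)⁻¹ * (2 * (h : ℝ) ^ 2)) / 2 * ((m - 1 : ℕ) : ℝ) := by ring
      _ ≤ ε / 2 * G := by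
        refine mul_le_mul (by linarith) hm1 (Nat.cast_nonneg _) (by linarith)
  set bad₁ := bad ∪ m.primeFactors with hbad₁
  have hgood : ∀ γ, γ ∉ bG → ∃ B : ℝ, ∀ᶠ s in 𝓝[>] (1 : ℝ),
      |∑' v, (frobPrimes bad₁ γ).indicator (weight' s) v - Real.log (1 / (s - 1))| ≤ B := by
    intro γ hγ
    refine exists_frobPrimes_bound hprim bad₁ Finset.subset_union_right γ fun σ hσ hχσ => ?_
    obtain ⟨k, rfl⟩ := (isOfFinOrder_of_finite γ).mem_powers_iff_mem_zpowers.2 hσ
    refine hjoint _ ?_ hχσ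
    have hd : h ∣ k := by
      simp only [hbG, Finset.mem_filter, Finset.mem_univ, true_and, not_not] at hγ
      exact hγ.trans (orderOf_dvd_of_pow_eq_one (by rw [← map_pow]; exact hχσ))
    obtain ⟨j, rfl⟩ := hd
    show π (γ ^ (h * j)) = 1
    rw [map_pow, hhdef, pow_mul, pow_card_eq_one', one_pow]
  choose! B hB using hgood
  set goodC := Ct.toFinset \ bG
  set K := ((allBad M bad₁).card : ℝ) + (∑ γ ∈ goodC, |B γ|) / G
  filter_upwards [(eventually_all_finset goodC).2 fun γ hγ => hB γ (Finset.mem_sdiff.1 hγ).2,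
    self_mem_nhdsWithin, tendsto_log_inv_sub_one.eventually (eventually_ge_atTop (max 0 (K / (ε / 2))))]
    with s hs (hs1 : 1 < s) hL
  set Lg := Real.log (1 / (s - 1))
  have hL0 : 0 ≤ Lg := (le_max_left _ _).trans hL
  have hLK : K ≤ ε / 2 * Lg := by
    have := (le_max_right _ _).trans hL
    rwa [div_le_iff₀ (by positivity), mul_comm] at this
  have key := sum_frobPrimes (L := M) bad₁ hCt' hs1
  rw [hpre] at key
  have hlow : (goodC.card : ℝ) * Lg - ∑ γ ∈ goodC, |B γ| ≤
      ∑ γ ∈ Ct.toFinset, ∑' v, (frobPrimes bad₁ γ).indicator (weight' s) v := by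
    refine le_trans ?_ (Finset.sum_le_sum_of_subset_of_nonneg (show goodC ⊆ Ct.toFinset from Finset.sdiff_subset) fun γ _ _ =>
      tsum_nonneg fun v => Set.indicator_nonneg (fun _ _ => weight'_nonneg _ _) _)
    rw [← nsmul_eq_mul, ← Finset.sum_const, ← Finset.sum_sub_distrib]
    refine Finset.sum_le_sum fun γ hγ => ?_
    linarith [(abs_le.1 (hs γ hγ)).1, le_abs_self (B γ)]
  rw [key] at hlow
  have hgc : (Nat.card C : ℝ) / h * G - ε / 2 * G ≤ goodC.card := by
    rw [← hcardCt, Nat.card_eq_card_toFinset]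
    have hc : (Ct.toFinset.card : ℝ) ≤ goodC.card + bG.card := by
      exact_mod_cast Finset.card_le_card_sdiff_add_card
    linarith
  have hT := natSum_le_add_card (P := frobInSet (resTo F ⁻¹' C) \ ↑(allBad M bad₁))
    (Q := frobInSet (resTo F ⁻¹' C) \ ↑bad) ∅ (fun n hn => Or.inl ⟨hn.1, fun h' =>
      hn.2 (Finset.mem_union_left _ (Finset.mem_union_left _ h'))⟩) hs1
  simp only [Finset.card_empty, Nat.cast_zero, add_zero] at hT
  change _ ≤ (G : ℝ) * natSum (frobInSet (resTo F ⁻¹' C) \ ↑(allBad M bad₁)) s at hlow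
  set S₁ := natSum (frobInSet (resTo F ⁻¹' C) \ ↑(allBad M bad₁)) s
  set a := (Nat.card C : ℝ) / h
  set b := ∑ γ ∈ goodC, |B γ|
  have h4 : (a - ε / 2) * Lg - b / G ≤ S₁ := by
    rw [sub_le_iff_le_add]
    have h5 : (a - ε / 2) * Lg * G ≤ (S₁ + b / G) * G := by
      rw [add_mul, div_mul_cancel₀ _ hG0.ne']
      nlinarith [mul_le_mul_of_nonneg_right hgc hL0]
    exact le_of_mul_le_mul_right h5 hG0
  have h6 : b / G ≤ K := le_add_of_nonneg_left (Nat.cast_nonneg _)
  linarith

/-- Chebotarev's density theorem. -/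
theorem chebotarev (bad : Finset ℕ) {C : Set (F ≃ₐ[ℚ] F)}
    (hC : ∀ g ∈ C, ∀ τ, τ * g * τ⁻¹ ∈ C) {ε : ℝ} (hε : 0 < ε) :
    ∀ᶠ s in 𝓝[>] (1 : ℝ),
      |natSum (frobInSet (resTo F ⁻¹' C) \ ↑bad) s -
        (Nat.card C : ℝ) / Nat.card (F ≃ₐ[ℚ] F) * Real.log (1 / (s - 1))| ≤
        ε * Real.log (1 / (s - 1)) := by
  set G := Nat.card (F ≃ₐ[ℚ] F) with hG
  have hG0 : (0 : ℝ) < G := Nat.cast_pos.2 Nat.card_pos
  have hC' : ∀ g ∈ Cᶜ, ∀ τ, τ * g * τ⁻¹ ∈ Cᶜ := by
    intro g hg τ h'
    have := hC _ h' τ⁻¹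
    exact hg (by simpa [mul_assoc] using this)
  obtain ⟨B, hB⟩ := exists_sum_frobPrimes_univ (L := F) bad
  set T := allBad F bad
  set K := B / G + 2 * T.card
  filter_upwards [eventually_natSum_ge F bad hC (half_pos hε),
    eventually_natSum_ge F bad hC' (half_pos hε), hB, self_mem_nhdsWithin,
    tendsto_log_inv_sub_one.eventually (eventually_ge_atTop (max 0 (K / (ε / 2))))]
    with s h1 h2 h3 (hs : 1 < s) hL
  set Lg := Real.log (1 / (s - 1))
  have hL0 : 0 ≤ Lg := (le_max_left _ _).trans hL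
  have hLK : K ≤ ε / 2 * Lg := by
    have := (le_max_right _ _).trans hL
    rwa [div_le_iff₀ (by positivity), mul_comm] at this
  have hcompl : (Nat.card (Cᶜ : Set (F ≃ₐ[ℚ] F)) : ℝ) / G = 1 - (Nat.card C : ℝ) / G := by
    rw [eq_sub_iff_add_eq, ← add_div, div_eq_one_iff_eq hG0.ne', ← Nat.cast_add, Nat.cast_inj,
      add_comm, hG, ← Nat.card_sum]
    exact Nat.card_congr (Equiv.Set.sumCompl C)
  rw [hcompl] at h2
  have hsum : natSum (frobInSet (resTo F ⁻¹' C) \ ↑T) s +
      natSum (frobInSet (resTo F ⁻¹' Cᶜ) \ ↑T) s ≤ Lg + B / G := by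
    rw [← sub_le_iff_le_add', le_div_iff₀ hG0]
    refine le_trans (le_of_eq ?_) ((le_abs_self _).trans h3)
    have e1 := sum_frobPrimes (L := F) bad hC hs
    have e2 := sum_frobPrimes (L := F) bad hC' hs
    rw [Set.toFinset_compl] at e2
    rw [← Finset.sum_add_sum_compl C.toFinset, e1, e2]
    simp only [natSum, Lg]
    rw [← hG]
    ring
  have hsub : ∀ D : Set (F ≃ₐ[ℚ] F), natSum (frobInSet (resTo F ⁻¹' D) \ ↑bad) s ≤
      natSum (frobInSet (resTo F ⁻¹' D) \ ↑T) s + T.card := fun D =>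
    natSum_le_add_card T (fun n hn => by
      by_cases hn' : n ∈ T
      exacts [Or.inr hn', Or.inl ⟨hn.1, hn'⟩]) hs
  rw [abs_le]
  constructor <;> nlinarith [hsub C, hsub Cᶜ, hsum, h1, h2, hLK]

end Fermat.Agent.Density
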